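import Fermat.Agent.Mz.Fin

/-!
# Mazur's theorem, step three, from the Eisenstein descent
-/

set_option autoImplicit false
set_option linter.style.haveILetI false
set_option linter.unusedSectionVars false
set_option synthInstance.maxHeartbeats 400000

noncomputable section

namespace Fermat.Agent.Mz

open ModularCurve Polynomial IntermediateField Fermat.Agent.ModPoly AlgebraicCurve
  Fermat.Agent.RR Fermat.Agent.Cusp Fermat.Agent.RedMod Fermat.Agent.Spec Fermat.Agent.Curve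
  Fermat.Agent.Red Fermat.Agent.HeckeProd LevelRed
  WeierstrassCurve.Affine

local notation "Qb" => AlgebraicClosure ℚ

attribute [local instance] algI isScalarTower_algI

/-- the statement of the Eisenstein descent -/
def Alpha4 (N r : ℕ) [NeZero N] : Prop :=
  ∃ E : FreeAlgebra ℤ {l : Nat.Primes // (l : ℕ) ≠ N ∧ (l : ℕ) ≠ r},
    ¬ ((r : ℤ) ∣ FreeAlgebra.lift ℤ (fun l => ((l.1 : ℕ) : ℤ) + 1) E) ∧
    ∀ P : JZero N, (∀ σ : Qb ≃ₐ[ℚ] Qb, σ • P = P) →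
      ∃ n : ℕ, n ≠ 0 ∧ n • (FreeAlgebra.lift ℤ (fun l => heckeOperatorBar N l.1) E :
        Module.End ℤ (JZero N)) P = 0

theorem exists_r {N : ℕ} (hN : N.Prime) (hN' : N ∉ ({2, 3, 5, 7, 13} : Finset ℕ)) :
    ∃ r : ℕ, r.Prime ∧ r ≠ N ∧ ∃ b n' : ℕ, N - 1 = r ^ b * n' ∧ 0 < b ∧ ¬ r ∣ n' ∧
      ¬ r ^ b ∣ 12 := by
  have h1 := hN.one_lt
  have h0 : N - 1 ≠ 0 := by omega
  have h2 : ¬ (N - 1) ∣ 12 := by
    intro h
    have h3 : N - 1 ∈ Nat.divisors 12 := Nat.mem_divisors.2 ⟨h, by norm_num⟩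
    have h4 : Nat.divisors 12 = {1, 2, 3, 4, 6, 12} := by decide
    rw [h4] at h3
    simp only [Finset.mem_insert, Finset.mem_singleton] at h3
    simp only [Finset.mem_insert, Finset.mem_singleton, not_or] at hN'
    have h5 : N = 4 := by omega
    rw [h5] at hN
    exact absurd hN (by norm_num)
  rw [← Nat.factorization_le_iff_dvd h0 (by norm_num), Finsupp.le_def] at h2
  push Not at h2
  obtain ⟨r, hr⟩ := h2
  have hrp : r.Prime := by
    by_contra h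
    have := Nat.factorization_eq_zero_of_not_prime (N - 1) h
    omega
  refine ⟨r, hrp, ?_, (N - 1).factorization r, (N - 1) / r ^ (N - 1).factorization r, ?_, ?_, ?_, ?_⟩
  · rintro rfl
    have h3 : (r - 1).factorization r = 0 :=
      Nat.factorization_eq_zero_of_lt (by omega)
    rw [h3] at hr
    exact absurd hr (by omega)
  · exact (Nat.ordProj_mul_ordCompl_eq_self _ _).symm
  · omega
  · exact Nat.not_dvd_ordCompl hrp h0
  · intro h
    rw [hrp.pow_dvd_iff_le_factorization (by norm_num)] at h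
    omega

section Tors

variable {N : ℕ} [NeZero N]

/-- a class of finite order which specializes to zero at two residue characteristics vanishes -/
theorem eq_zero_of_sp {A₂ A₃ : ValuationSubring Qb} (hA₂ : A₂.LiesOverPrime 2)
    (hA₃ : A₃.LiesOverPrime 3) (h2 : ¬ 2 ∣ N) (h3 : ¬ 3 ∣ N)
    [IsAlgClosed (IsLocalRing.ResidueField A₂)] [IsAlgClosed (IsLocalRing.ResidueField A₃)]
    [FunField (IsLocalRing.ResidueField A₂) (FF (IsLocalRing.ResidueField A₂) N)]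
    [FunField (IsLocalRing.ResidueField A₃) (FF (IsLocalRing.ResidueField A₃) N)]
    {hk₂ : Function.Surjective (algebraMap A₂ (IsLocalRing.ResidueField A₂))}
    {hk₃ : Function.Surjective (algebraMap A₃ (IsLocalRing.ResidueField A₃))}
    (S₂ : LevelRed hk₂ (EB Qb N) (FF (IsLocalRing.ResidueField A₂) N))
    (S₃ : LevelRed hk₃ (EB Qb N) (FF (IsLocalRing.ResidueField A₃) N))
    (y : Pic0 Qb (EB Qb N)) {n : ℕ} (hn : n ≠ 0) (hy : n • y = 0) (h2y : S₂.D.sp y = 0)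
    (h3y : S₃.D.sp y = 0) : y = 0 := by
  haveI : Fact (Nat.Prime 2) := ⟨Nat.prime_two⟩
  haveI : Fact (Nat.Prime 3) := ⟨Nat.prime_three⟩
  obtain ⟨a, n', hn', rfl⟩ := Nat.exists_eq_two_pow_mul_odd hn
  have h1 : n' • y = 0 := by
    refine sp_injective_torsion exists_ιC.some (m := 2 ^ a)
      (natCast_residue_ne_zero hA₃ h3) (exists_nonunit hA₃)
      (fun a c ha hc => rank_one hA₃ a c ha hc) (Fermat.Agent.X0Genus.baseChange_eq Qb N) S₃
      (natCast_residue_ne_zero hA₃ (fun h => ?_)) _ ?_ ?_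
    · have := (Nat.prime_dvd_prime_iff_eq Nat.prime_three Nat.prime_two).1
        (Nat.prime_three.dvd_of_dvd_pow h)
      omega
    · rw [← mul_nsmul', hy]
    · rw [map_nsmul, h3y, nsmul_zero]
  refine sp_injective_torsion exists_ιC.some (m := n')
    (natCast_residue_ne_zero hA₂ h2) (exists_nonunit hA₂)
    (fun a c ha hc => rank_one hA₂ a c ha hc) (Fermat.Agent.X0Genus.baseChange_eq Qb N) S₂
    (natCast_residue_ne_zero hA₂ (fun h => ?_)) _ h1 h2y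
  rw [← even_iff_two_dvd] at h
  exact (Nat.not_even_iff_odd.2 hn') h

end Tors

section Main

variable {N : ℕ} [hNp : Fact N.Prime] [NeZero N]

/-- the final contradiction at a prime where the section meets the identity component -/
theorem final_contra (c : CuspData Qb N (EB Qb N)) {r b n' : ℕ} (hr : r.Prime) (hrN : r ≠ N)
    (hrb : N - 1 = r ^ b * n') (hb : 0 < b) (hrn' : ¬ r ∣ n') (hr12 : ¬ r ^ b ∣ 12)
    {m : ℤ} (hm : ¬ (r : ℤ) ∣ m) {ℓ : ℕ} [hℓ : Fact ℓ.Prime] (hℓ5 : 5 ≤ ℓ) (hℓN : ¬ ℓ ∣ N)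
    {A : ValuationSubring Qb} (hA : A.LiesOverPrime ℓ)
    [IsAlgClosed (IsLocalRing.ResidueField A)]
    [FunField (IsLocalRing.ResidueField A) (FF (IsLocalRing.ResidueField A) N)]
    {hk : Function.Surjective (algebraMap A (IsLocalRing.ResidueField A))}
    (S : LevelRed hk (EB Qb N) (FF (IsLocalRing.ResidueField A) N))
    (h : S.D.sp (m • ptd c.cI c.cZ) = 0) : False := by
  have hE : EB Qb N = FF Qb N := Fermat.Agent.X0Genus.baseChange_eq Qb N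
  have hN1 := hNp.out.one_lt
  have hNk : (N : IsLocalRing.ResidueField A) ≠ 0 := natCast_residue_ne_zero hA hℓN
  haveI : CharP (IsLocalRing.ResidueField A) ℓ := RedMod.charP_residue hA
  have hNz : ((N : ℤ) - 1) = (r : ℤ) ^ b * n' := by
    have h1 : ((N - 1 : ℕ) : ℤ) = (N : ℤ) - 1 := by push_cast [Nat.cast_sub hN1.le]; ring
    rw [← h1, hrb]; push_cast; ring
  by_cases hℓr : ℓ = r
  · subst hℓr
    obtain ⟨g, hg, h1⟩ := c.sp_cl S hE hNk h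
    haveI : FunField (IsLocalRing.ResidueField A) (FF (IsLocalRing.ResidueField A) N) :=
      inferInstance
    refine hm (dvd_of_principal_char (N := N) hNk hℓ5 ?_ hg h1)
    rw [hNz]
    exact dvd_mul_of_dvd_left (dvd_pow_self _ hb.ne') _
  · -- prime-to-`ℓ` torsion
    have h1 : ((N : ℤ) - 1) • ptd c.cI c.cZ = 0 :=
      zsmul_ptd_of_divisor c.uE_ne c.divisor_uE
    have h2 : ((n' : ℤ) * m) • ptd c.cI c.cZ = 0 := by
      refine sp_injective_torsion exists_ιC.some (m := r ^ b)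
        hNk (exists_nonunit hA)
        (fun a c ha hc => rank_one hA a c ha hc) hE S
        (natCast_residue_ne_zero hA (fun h => ?_)) _ ?_ ?_
      · exact hℓr ((Nat.prime_dvd_prime_iff_eq hℓ.out hr).1 (hℓ.out.dvd_of_dvd_pow h))
      · have e : ((r ^ b : ℕ) : ℤ) * ((n' : ℤ) * m) = m * ((N : ℤ) - 1) := by
          rw [hNz]; push_cast; ring
        rw [← natCast_zsmul, smul_smul, e, mul_smul, h1, smul_zero]
      · rw [mul_smul, map_zsmul, h, smul_zero]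
    have h3 := c.dvd_zero hE h2
    rw [hNz] at h3
    have hn0 : (n' : ℤ) ≠ 0 := by
      intro h0
      rw [h0, mul_zero] at hNz
      omega
    have h4 : (r : ℤ) ^ b ∣ 12 * m := by
      have e : 12 * ((n' : ℤ) * m) = (12 * m) * n' := by ring
      rw [e] at h3
      exact Int.dvd_of_mul_dvd_mul_right hn0 h3
    have hco : IsCoprime ((r : ℤ) ^ b) m := by
      apply IsCoprime.pow_left
      exact (Prime.coprime_iff_not_dvd (Nat.prime_iff_prime_int.1 hr)).2 hm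
    have h5 : (r : ℤ) ^ b ∣ 12 := hco.dvd_of_dvd_mul_right h4
    exact hr12 (by exact_mod_cast h5)

theorem cl_eq {K : Type*} [Field K] [IsAlgClosed K] [CharZero K] [Algebra ℚ K] {N : ℕ}
    [hNp : Fact N.Prime] [NeZero N] [FunField K (EB K N)] (c : CuspData K N (EB K N)) :
    c.cl = ptd c.cI c.cZ := rfl

theorem CuspData.free_ptd (c : CuspData Qb N (EB Qb N)) {I : Type*} (φ : I → Nat.Primes)
    (hφ : ∀ i, (φ i : ℕ) ≠ N) (E : FreeAlgebra ℤ I) :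
    (FreeAlgebra.lift ℤ (fun l => heckeOperatorBar N (φ l)) E : Module.End ℤ (JZero N))
      (ptd c.cI c.cZ) =
      (FreeAlgebra.lift ℤ (fun l => ((φ l : ℕ) : ℤ) + 1) E : ℤ) • ptd c.cI c.cZ := by
  rw [← cl_eq]
  exact c.free_cl φ hφ E

theorem abs_sum {M : Type*} [AddCommGroup M] (e : Module.End ℤ M) {a b c : M} {m : ℤ}
    (h1 : a + b = c) (h2 : e c = 0) (h3 : e b = m • b) : e a + m • b = 0 := by
  rw [← h3, ← map_add, h1, h2]

theorem abs_zero {M P : Type*} [AddCommGroup M] [AddCommGroup P] (f : M →+ P) {a b : M}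
    (h : a + b = 0) (h1 : f a = 0) : f b = 0 := by
  have := congrArg f h
  rwa [map_add, h1, zero_add, map_zero] at this

theorem abs_sum' {M : Type*} [AddCommGroup M] (e : Module.End ℤ M) {a b c : M} {m : ℤ}
    (h1 : c + b = a) (h2 : e c = 0) (h3 : e b = m • b) : e a = m • b := by
  rw [← h3, ← h1, map_add, h2, zero_add]

theorem abs_zero' {M P : Type*} [AddCommGroup M] [AddCommGroup P] (f : M →+ P) {a b : M}
    (h : a = b) (h1 : f a = 0) : f b = 0 := h ▸ h1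

set_option maxHeartbeats 1600000 in
/-- the formal part of the argument -/
theorem main_aux (c : CuspData Qb N (EB Qb N)) (h2N : ¬ 2 ∣ N) (h3N : ¬ 3 ∣ N)
    {r b n' : ℕ} (hr : r.Prime) (hrN : r ≠ N)
    (hrb : N - 1 = r ^ b * n') (hb : 0 < b) (hrn' : ¬ r ∣ n') (hr12 : ¬ r ^ b ∣ 12)
    {m : ℤ} (hm : ¬ (r : ℤ) ∣ m) {ℓ : ℕ} [hℓ : Fact ℓ.Prime] (hℓ5 : 5 ≤ ℓ) (hℓN : ¬ ℓ ∣ N)
    (e : Module.End ℤ (Pic0 Qb (EB Qb N)))
    (hecl : e (ptd c.cI c.cZ) = m • ptd c.cI c.cZ) {c₁ c₂ : Place Qb (EB Qb N)}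
    (hcc : (c₁ = c.cZ ∧ c₂ = c.cI) ∨ (c₁ = c.cI ∧ c₂ = c.cZ))
    {A₂ A₃ A : ValuationSubring Qb} (hA₂ : A₂.LiesOverPrime 2)
    (hA₃ : A₃.LiesOverPrime 3) (hA : A.LiesOverPrime ℓ)
    [IsAlgClosed (IsLocalRing.ResidueField A₂)] [IsAlgClosed (IsLocalRing.ResidueField A₃)]
    [IsAlgClosed (IsLocalRing.ResidueField A)]
    [FunField (IsLocalRing.ResidueField A₂) (FF (IsLocalRing.ResidueField A₂) N)]
    [FunField (IsLocalRing.ResidueField A₃) (FF (IsLocalRing.ResidueField A₃) N)]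
    [FunField (IsLocalRing.ResidueField A) (FF (IsLocalRing.ResidueField A) N)]
    {hk₂ : Function.Surjective (algebraMap A₂ (IsLocalRing.ResidueField A₂))}
    {hk₃ : Function.Surjective (algebraMap A₃ (IsLocalRing.ResidueField A₃))}
    {hk : Function.Surjective (algebraMap A (IsLocalRing.ResidueField A))}
    (S₂ : LevelRed hk₂ (EB Qb N) (FF (IsLocalRing.ResidueField A₂) N))
    (S₃ : LevelRed hk₃ (EB Qb N) (FF (IsLocalRing.ResidueField A₃) N))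
    (S : LevelRed hk (EB Qb N) (FF (IsLocalRing.ResidueField A) N))
    (he₂ : ∀ y, S₂.D.sp y = 0 → S₂.D.sp (e y) = 0)
    (he₃ : ∀ y, S₃.D.sp y = 0 → S₃.D.sp (e y) = 0)
    (he : ∀ y, S.D.sp y = 0 → S.D.sp (e y) = 0)
    {x : Place Qb (EB Qb N)} {n : ℕ} (hn : n ≠ 0) (hny : n • e (ptd x c₁) = 0)
    (h2r : S₂.D.r (Finsupp.single x 1) = S₂.D.r (Finsupp.single c₁ 1))
    (h3r : S₃.D.r (Finsupp.single x 1) = S₃.D.r (Finsupp.single c₁ 1))
    (hℓr : S.D.r (Finsupp.single x 1) = S.D.r (Finsupp.single c₂ 1)) : False := by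
  have hy : e (ptd x c₁) = 0 :=
    eq_zero_of_sp hA₂ hA₃ h2N h3N S₂ S₃ _ hn hny (he₂ _ (sp_ptd S₂ h2r)) (he₃ _ (sp_ptd S₃ h3r))
  have hsp : S.D.sp (e (ptd x c₂)) = 0 := he _ (sp_ptd S hℓr)
  have hfin : S.D.sp (m • ptd c.cI c.cZ) = 0 := by
    rcases hcc with ⟨e1, e2⟩ | ⟨e1, e2⟩
    · rw [e1] at hy
      rw [e2] at hsp
      have hsum : e (ptd x c.cI) + m • ptd c.cI c.cZ = 0 := abs_sum e (ptd_add _ _ _) hy hecl
      exact abs_zero S.D.sp hsum hsp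
    · rw [e1] at hy
      rw [e2] at hsp
      have hsum : e (ptd x c.cZ) = m • ptd c.cI c.cZ := abs_sum' e (ptd_add _ _ _) hy hecl
      exact abs_zero' S.D.sp hsum hsp
  exact final_contra c hr hrN hrb hb hrn' hr12 hm hℓ5 hℓN hA S hfin

theorem CuspData.gal_cI (c : CuspData Qb N (EB Qb N)) (σ : Qb ≃ₐ[ℚ] Qb) :
    arithmeticGalois (modularFunctionFieldFull N) σ • c.cI = c.cI := by
  have hN1 := hNp.out.one_lt
  have hE : EB Qb N = FF Qb N := Fermat.Agent.X0Genus.baseChange_eq Qb N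
  have hNK : (N : Qb) ≠ 0 := Nat.cast_ne_zero.2 (NeZero.ne N)
  have h1 : (arithmeticGalois (modularFunctionFieldFull N) σ • c.cI).ord c.jE = -1 := by
    have h2 := SemilinearAut.ord_smul (arithmeticGalois (modularFunctionFieldFull N) σ) c.cI c.jE
    rw [gal_jE, c.hI c.jE, c.hj, order_Jc] at h2
    exact h2
  rcases c.cusp_or hE hNK (v := arithmeticGalois (modularFunctionFieldFull N) σ • c.cI)
    (by rw [h1]; omega) with h | h
  · exact h
  · rw [h, c.hZ] at h1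
    omega

/-- the cusp met by the section -/
def CuspData.cc (c : CuspData Qb N (EB Qb N)) : Bool → Place Qb (EB Qb N)
  | true => c.cI
  | false => c.cZ

/-- **Step three of Mazur's theorem**, general form. -/
theorem main_gen (hN' : N ∉ ({2, 3, 5, 7, 13} : Finset ℕ))
    (h4 : ∀ r : ℕ, r.Prime → r ≠ N → Alpha4 N r) (W : WeierstrassCurve ℤ) (hΔ : W.Δ ≠ 0)
    (Q : ((W.map (Int.castRingHom ℚ))⁄Qb).Point)
    (hQst : ∀ σ : Qb ≃ₐ[ℚ] Qb, ∃ m : ℕ, σ • Q = m • Q) (hQord : addOrderOf Q = N)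
    (b₀ : Bool)
    (h2Δ : (2 : ℤ) ∣ W.Δ) (h2c₄ : ¬ (2 : ℤ) ∣ W.c₄)
    (h2 : ∀ A : ValuationSubring Qb, A.LiesOverPrime 2 → (W.InZeroComponentAt A Q ↔ b₀ = true))
    (h3Δ : (3 : ℤ) ∣ W.Δ) (h3c₄ : ¬ (3 : ℤ) ∣ W.c₄)
    (h3 : ∀ A : ValuationSubring Qb, A.LiesOverPrime 3 → (W.InZeroComponentAt A Q ↔ b₀ = true))
    {ℓ : ℕ} (hℓ : ℓ.Prime) (hℓN : ℓ ≠ N) (hℓΔ : (ℓ : ℤ) ∣ W.Δ) (hℓc₄ : ¬ (ℓ : ℤ) ∣ W.c₄)
    (A : ValuationSubring Qb) (hA : A.LiesOverPrime ℓ) : W.InZeroComponentAt A Q ↔ b₀ = true := by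
  by_contra hin
  have hN0 := hNp.out
  have hN1 := hN0.one_lt
  obtain ⟨r, hr, hrN, b, n', hrb, hb, hrn', hr12⟩ := exists_r hN0 hN'
  simp only [Finset.mem_insert, Finset.mem_singleton, not_or] at hN'
  have h2N : ¬ 2 ∣ N := fun h => hN'.1 ((Nat.prime_dvd_prime_iff_eq Nat.prime_two hN0).1 h).symm
  have h3N : ¬ 3 ∣ N := fun h =>
    hN'.2.1 ((Nat.prime_dvd_prime_iff_eq Nat.prime_three hN0).1 h).symm
  have hodd : Odd N := by
    rw [← Nat.not_even_iff_odd, even_iff_two_dvd]; exact h2N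
  have hℓ2 : ℓ ≠ 2 := by rintro rfl; exact hin (h2 A hA)
  have hℓ3 : ℓ ≠ 3 := by rintro rfl; exact hin (h3 A hA)
  have hℓ5 : 5 ≤ ℓ := by
    have := hℓ.two_le
    by_contra hcon
    have h : ℓ = 4 := by omega
    rw [h] at hℓ
    exact absurd hℓ (by norm_num)
  have hℓN' : ¬ ℓ ∣ N := fun h => hℓN ((Nat.prime_dvd_prime_iff_eq hℓ hN0).1 h)
  haveI : Fact (Nat.Prime 2) := ⟨Nat.prime_two⟩
  haveI : Fact (Nat.Prime 3) := ⟨Nat.prime_three⟩
  haveI : Fact ℓ.Prime := ⟨hℓ⟩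
  have hE : EB Qb N = FF Qb N := Fermat.Agent.X0Genus.baseChange_eq Qb N
  have hNK : (N : Qb) ≠ 0 := Nat.cast_ne_zero.2 (NeZero.ne N)
  obtain ⟨c⟩ := exists_cuspData hNK hE
  obtain ⟨x, hxfix, hx⟩ := point_spec_st hodd (by omega) W hΔ Q hQst hQord h2Δ h2c₄ c
  obtain ⟨E, hm, htors⟩ := h4 r hr hrN
  obtain ⟨m, hmdef⟩ : ∃ m : ℤ, m = FreeAlgebra.lift ℤ
      (fun l : {l : Nat.Primes // (l : ℕ) ≠ N ∧ (l : ℕ) ≠ r} => ((l.1 : ℕ) : ℤ) + 1) E := ⟨_, rfl⟩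
  rw [← hmdef] at hm
  obtain ⟨e, hedef⟩ : ∃ e : Module.End ℤ (JZero N), e = FreeAlgebra.lift ℤ
      (fun l : {l : Nat.Primes // (l : ℕ) ≠ N ∧ (l : ℕ) ≠ r} => heckeOperatorBar N l.1) E :=
    ⟨_, rfl⟩
  rw [← hedef] at htors
  have hecl : e (ptd c.cI c.cZ) = m • ptd c.cI c.cZ := by
    rw [hedef, hmdef]
    exact c.free_ptd (fun l : {l : Nat.Primes // (l : ℕ) ≠ N ∧ (l : ℕ) ≠ r} => l.1)
      (fun l => l.2.1) E
  -- the rational class
  have hcfix : ∀ (b : Bool) (σ : Qb ≃ₐ[ℚ] Qb),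
      arithmeticGalois (modularFunctionFieldFull N) σ • c.cc b = c.cc b := by
    intro b σ
    cases b
    · exact c.gal_cZ σ
    · exact c.gal_cI σ
  have hPfix : ∀ σ : Qb ≃ₐ[ℚ] Qb, σ • (ptd x (c.cc b₀) : JZero N) = ptd x (c.cc b₀) := by
    intro σ
    rw [galois_smul_pic0_def, smul_ptd, hxfix, hcfix]
  obtain ⟨n, hn, hny⟩ := htors _ hPfix
  -- the places of residue characteristic 2 and 3
  obtain ⟨A₂, hA₂⟩ := Fermat.Agent.Places.exists_liesOverPrime Qb Nat.prime_two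
  obtain ⟨A₃, hA₃⟩ := Fermat.Agent.Places.exists_liesOverPrime Qb Nat.prime_three
  have hNk₂ : (N : IsLocalRing.ResidueField A₂) ≠ 0 := natCast_residue_ne_zero hA₂ h2N
  have hNk₃ : (N : IsLocalRing.ResidueField A₃) ≠ 0 := natCast_residue_ne_zero hA₃ h3N
  have hNk : (N : IsLocalRing.ResidueField A) ≠ 0 := natCast_residue_ne_zero hA hℓN'
  haveI : IsAlgClosed (IsLocalRing.ResidueField A₂) := isAlgClosed_residueField A₂
  haveI : IsAlgClosed (IsLocalRing.ResidueField A₃) := isAlgClosed_residueField A₃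
  haveI : IsAlgClosed (IsLocalRing.ResidueField A) := isAlgClosed_residueField A
  haveI := funField_FF (k := IsLocalRing.ResidueField A₂) (M := N) hNk₂
  haveI := funField_FF (k := IsLocalRing.ResidueField A₃) (M := N) hNk₃
  haveI := funField_FF (k := IsLocalRing.ResidueField A) (M := N) hNk
  obtain ⟨S₂⟩ := nonempty_levelRed (A := A₂) (K := Qb) (k := IsLocalRing.ResidueField A₂)
    exists_ιC.some IsLocalRing.residue_surjective (N := N) hNk₂ (EB Qb N) hE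
  obtain ⟨S₃⟩ := nonempty_levelRed (A := A₃) (K := Qb) (k := IsLocalRing.ResidueField A₃)
    exists_ιC.some IsLocalRing.residue_surjective (N := N) hNk₃ (EB Qb N) hE
  obtain ⟨S⟩ := nonempty_levelRed (A := A) (K := Qb) (k := IsLocalRing.ResidueField A)
    exists_ιC.some IsLocalRing.residue_surjective (N := N) hNk (EB Qb N) hE
  have h2x := hx 2 Nat.prime_two (by omega) h2Δ h2c₄ A₂ hA₂ inferInstance inferInstance _ S₂
  have h3x := hx 3 Nat.prime_three (by omega) h3Δ h3c₄ A₃ hA₃ inferInstance inferInstance _ S₃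
  have hℓx := hx ℓ hℓ hℓN hℓΔ hℓc₄ A hA inferInstance inferInstance _ S
  have h2i := h2 A₂ hA₂
  have h3i := h3 A₃ hA₃
  have key : S₂.D.r (Finsupp.single x 1) = S₂.D.r (Finsupp.single (c.cc b₀) 1) ∧
      S₃.D.r (Finsupp.single x 1) = S₃.D.r (Finsupp.single (c.cc b₀) 1) ∧
      S.D.r (Finsupp.single x 1) = S.D.r (Finsupp.single (c.cc !b₀) 1) ∧
      ((c.cc b₀ = c.cZ ∧ c.cc (!b₀) = c.cI) ∨ (c.cc b₀ = c.cI ∧ c.cc (!b₀) = c.cZ)) := by
    cases b₀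
    · refine ⟨h2x.2 (fun h => ?_), h3x.2 (fun h => ?_), hℓx.1 ?_, Or.inl ⟨rfl, rfl⟩⟩
      · exact absurd (h2i.1 h) (by decide)
      · exact absurd (h3i.1 h) (by decide)
      · by_contra h
        exact hin ⟨fun h' => absurd h' h, fun h' => absurd h' (by decide)⟩
    · refine ⟨h2x.1 (h2i.2 rfl), h3x.1 (h3i.2 rfl), hℓx.2 (fun h => ?_), Or.inr ⟨rfl, rfl⟩⟩
      exact hin ⟨fun _ => rfl, fun _ => h⟩
  obtain ⟨k1, k2, k3, k4⟩ := key
  refine main_aux c h2N h3N hr hrN hrb hb hrn' hr12 hm hℓ5 hℓN' e hecl k4 hA₂ hA₃ hA S₂ S₃ S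
    ?_ ?_ ?_ hn hny k1 k2 k3
  · rw [hedef]
    exact ker_free hA₂ h2N S₂ (fun l : {l : Nat.Primes // (l : ℕ) ≠ N ∧ (l : ℕ) ≠ r} => l.1) E
  · rw [hedef]
    exact ker_free hA₃ h3N S₃ (fun l : {l : Nat.Primes // (l : ℕ) ≠ N ∧ (l : ℕ) ≠ r} => l.1) E
  · rw [hedef]
    exact ker_free hA hℓN' S (fun l : {l : Nat.Primes // (l : ℕ) ≠ N ∧ (l : ℕ) ≠ r} => l.1) E

/-- **Step three of Mazur's theorem**, from the Eisenstein descent. -/
theorem main15 (hN' : N ∉ ({2, 3, 5, 7, 13} : Finset ℕ))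
    (h4 : ∀ r : ℕ, r.Prime → r ≠ N → Alpha4 N r) (W : WeierstrassCurve ℤ) (hΔ : W.Δ ≠ 0)
    (Q : ((W.map (Int.castRingHom ℚ))⁄Qb).Point)
    (hQfix : ∀ σ : Qb ≃ₐ[ℚ] Qb, σ • Q = Q) (hQord : addOrderOf Q = N)
    (h2Δ : (2 : ℤ) ∣ W.Δ) (h2c₄ : ¬ (2 : ℤ) ∣ W.c₄)
    (h2 : ∀ A : ValuationSubring Qb, A.LiesOverPrime 2 → ¬ W.InZeroComponentAt A Q)
    (h3Δ : (3 : ℤ) ∣ W.Δ) (h3c₄ : ¬ (3 : ℤ) ∣ W.c₄)
    (h3 : ∀ A : ValuationSubring Qb, A.LiesOverPrime 3 → ¬ W.InZeroComponentAt A Q)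
    {ℓ : ℕ} (hℓ : ℓ.Prime) (hℓN : ℓ ≠ N) (hℓΔ : (ℓ : ℤ) ∣ W.Δ) (hℓc₄ : ¬ (ℓ : ℤ) ∣ W.c₄)
    (A : ValuationSubring Qb) (hA : A.LiesOverPrime ℓ) : ¬ W.InZeroComponentAt A Q := by
  have h := main_gen hN' h4 W hΔ Q (fun σ => ⟨1, by rw [one_nsmul]; exact hQfix σ⟩) hQord false
    h2Δ h2c₄ (fun A hA => ⟨fun h => absurd h (h2 A hA), fun h => absurd h (by decide)⟩)
    h3Δ h3c₄ (fun A hA => ⟨fun h => absurd h (h3 A hA), fun h => absurd h (by decide)⟩)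
    hℓ hℓN hℓΔ hℓc₄ A hA
  intro h'
  exact absurd (h.1 h') (by decide)

/-- **The symmetric form**, for a rational subgroup contained in the identity component at `2`
and `3`. -/
theorem mazur_sym_of (hN' : N ∉ ({2, 3, 5, 7, 13} : Finset ℕ))
    (h4 : ∀ r : ℕ, r.Prime → r ≠ N → Alpha4 N r) (W : WeierstrassCurve ℤ) (hΔ : W.Δ ≠ 0)
    (Q : ((W.map (Int.castRingHom ℚ))⁄Qb).Point)
    (hQst : ∀ σ : Qb ≃ₐ[ℚ] Qb, ∃ m : ℕ, σ • Q = m • Q) (hQord : addOrderOf Q = N)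
    (h2Δ : (2 : ℤ) ∣ W.Δ) (h2c₄ : ¬ (2 : ℤ) ∣ W.c₄)
    (h3Δ : (3 : ℤ) ∣ W.Δ) (h3c₄ : ¬ (3 : ℤ) ∣ W.c₄)
    (h2 : ∀ A : ValuationSubring Qb, A.LiesOverPrime 2 → W.InZeroComponentAt A Q)
    (h3 : ∀ A : ValuationSubring Qb, A.LiesOverPrime 3 → W.InZeroComponentAt A Q)
    {ℓ : ℕ} (hℓ : ℓ.Prime) (hℓN : ℓ ≠ N) (hℓΔ : (ℓ : ℤ) ∣ W.Δ) (hℓc₄ : ¬ (ℓ : ℤ) ∣ W.c₄)
    (A : ValuationSubring Qb) (hA : A.LiesOverPrime ℓ) : W.InZeroComponentAt A Q :=
  (main_gen hN' h4 W hΔ Q hQst hQord true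
    h2Δ h2c₄ (fun A hA => ⟨fun _ => rfl, fun _ => h2 A hA⟩)
    h3Δ h3c₄ (fun A hA => ⟨fun _ => rfl, fun _ => h3 A hA⟩)
    hℓ hℓN hℓΔ hℓc₄ A hA).2 rfl

end Main

end Fermat.Agent.Mz
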