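import Fermat.Agent.ThmC.Unif
import Fermat.Agent.ModPoly.Integral
import Fermat.Agent.Cusp.Cusps

/-!
# The cusps and the modular unit at prime level
-/

set_option autoImplicit false
set_option linter.style.haveILetI false
set_option linter.unusedSectionVars false

noncomputable section

namespace Fermat.Agent.Mz

open ModularCurve Polynomial IntermediateField Fermat.Agent.ModPoly AlgebraicCurve
  Fermat.Agent.RR Fermat.Agent.Cusp Fermat.Agent.RedMod Fermat.Agent.Spec Fermat.Agent.Curve

section Cusps

variable {k : Type*} [Field k] [IsAlgClosed k] {N : ℕ} [hNp : Fact N.Prime] [NeZero N]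
  [FunField k (FF k N)] (hN : (N : k) ≠ 0)

theorem psi_prime (N : ℕ) [hNp : Fact N.Prime] : dedekindPsi N = N + 1 := by
  have := dedekindPsi_prime_pow hNp.out 0
  simpa using this

theorem ord_j_inf : (cuspInf k N).ord (jF' k N) = -1 := by
  rw [cuspInf_ord]; exact order_jF

theorem inf_ne_zero : cuspInf k N ≠ cusp0 hN := by
  intro h
  have h1 := ord_j_inf (k := k) (N := N)
  rw [h, cusp0_ord_j] at h1
  have := hNp.out.one_lt
  omega

theorem poleDiv_j : poleDiv k (jF' k N) = Finsupp.single (cuspInf k N) 1 +
    Finsupp.single (cusp0 hN) (N : ℤ) := by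
  classical
  symm
  have hne := inf_ne_zero hN
  apply eq_of_le_of_degree
  · intro v
    rw [Finsupp.add_apply, Finsupp.single_apply, Finsupp.single_apply, poleDiv_apply]
    by_cases h1 : cuspInf k N = v
    · subst h1
      rw [if_pos rfl, if_neg (Ne.symm hne), ord_j_inf]
      norm_num
    · rw [if_neg h1]
      by_cases h2 : cusp0 hN = v
      · subst h2
        rw [if_pos rfl, cusp0_ord_j]
        simp
      · rw [if_neg h2, add_zero]
        exact le_max_right _ _
  · rw [map_add, degree_single', degree_single', (poleZero_jF hN).dP, psi_prime]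
    push_cast
    linarith

/-- the poles of `j` are the two cusps -/
theorem cusp_or {v : Place k (FF k N)} (hv : v.ord (jF' k N) < 0) :
    v = cuspInf k N ∨ v = cusp0 hN := by
  classical
  have h := DFunLike.congr_fun (poleDiv_j hN) v
  rw [Finsupp.add_apply, Finsupp.single_apply, Finsupp.single_apply, poleDiv_apply,
    max_eq_left (by omega)] at h
  by_contra hcon
  push Not at hcon
  rw [if_neg (Ne.symm hcon.1), if_neg (Ne.symm hcon.2)] at h
  omega

/-- the modular unit `Δ(q^N)/Δ(q)` -/
def uN : FF k N := ⟨rm k (pp N), rm_mem hN _ dvd_rfl⟩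

theorem uN_ne : uN hN ≠ 0 := fun h => rm_ne_zero (k := k) (pp N) (congrArg Subtype.val h)

theorem jF_ne : jF' k N ≠ 0 := by
  intro h
  have := ord_j_inf (k := k) (N := N)
  rw [h, Place.ord_zero] at this
  omega

theorem ord_u_reg {v : Place k (FF k N)} (hv : 0 ≤ v.ord (jF' k N)) : v.ord (uN hN) = 0 := by
  let C' : Subalgebra k (FF k N) :=
    { v.toValuationSubring.toSubring with
      algebraMap_mem' := v.algebraMap_mem' }
  have hmem : ∀ x : FF k N, x ∈ C' ↔ 0 ≤ v.ord x := fun x => mem_iff_ord_nonneg v x
  have hC : ∀ w : FF k N, IsIntegral C' w → w ∈ C' := by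
    intro w hw
    obtain ⟨P, hP, h0⟩ := hw
    let φ : C' →+* v.toValuationSubring :=
      { toFun := fun x => ⟨x.1, x.2⟩
        map_one' := rfl
        map_mul' := fun _ _ => rfl
        map_zero' := rfl
        map_add' := fun _ _ => rfl }
    have h1 : IsIntegral v.toValuationSubring w := ⟨P.map φ, hP.map φ, by
      rw [eval₂_map]
      exact h0⟩
    obtain ⟨y, hy⟩ := IsIntegrallyClosed.isIntegral_iff.1 h1
    rw [← hy]
    exact y.2
  obtain ⟨h1, h2⟩ := rm_mem_C C' hC ((hmem _).2 hv) hN (pp N) dvd_rfl
  have h3 := (hmem _).1 h1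
  have h4 := (hmem _).1 h2
  rw [v.ord_inv] at h4
  have h5 : v.ord (uN hN) = v.ord (⟨rm k (pp N), rm_mem hN _ dvd_rfl⟩ : FF k N) := rfl
  omega

theorem ord_u_inf : (cuspInf k N).ord (uN hN) = (N : ℤ) - 1 := by
  rw [cuspInf_ord]
  have h4 : ((uN hN : FF k N) : LaurentSeries k) * Dc 1 1 = Dc 1 (pp N) := by
    change rm k (pp N) * Dc 1 1 = _
    rw [rm, mul_assoc, inv_mul_cancel₀ (Dc_ne_zero _ _), mul_one]
  have h5 := congrArg HahnSeries.order h4
  have h8 : ((uN hN : FF k N) : LaurentSeries k) ≠ 0 := rm_ne_zero (k := k) (pp N)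
  rw [HahnSeries.order_mul h8 (Dc_ne_zero _ _), order_Dc, order_Dc] at h5
  have h6 : (((pp N : ℕ+) : ℕ) : ℤ) = N := rfl
  rw [h6] at h5
  have h7 : (((1 : ℕ+) : ℕ) : ℤ) = 1 := rfl
  rw [h7] at h5
  linarith

theorem divisor_u : divisor k (uN hN) = Finsupp.single (cuspInf k N) ((N : ℤ) - 1) -
    Finsupp.single (cusp0 hN) ((N : ℤ) - 1) := by
  classical
  have hne := inf_ne_zero hN
  have h1 : divisor k (uN hN) = Finsupp.single (cuspInf k N) ((N : ℤ) - 1) +
      Finsupp.single (cusp0 hN) ((cusp0 hN).ord (uN hN)) := by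
    ext v
    rw [divisor_apply, Finsupp.add_apply, Finsupp.single_apply, Finsupp.single_apply]
    by_cases h1 : cuspInf k N = v
    · subst h1
      rw [if_pos rfl, if_neg (Ne.symm hne), ord_u_inf, add_zero]
    · rw [if_neg h1]
      by_cases h2 : cusp0 hN = v
      · subst h2
        rw [if_pos rfl, zero_add]
      · rw [if_neg h2, add_zero]
        apply ord_u_reg
        by_contra hcon
        push Not at hcon
        rcases cusp_or hN hcon with h | h
        · exact h1 h.symm
        · exact h2 h.symm
  have h2 := degree_divisor (K := k) (uN hN)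
  rw [h1, map_add, degree_single', degree_single'] at h2
  have h3 : (cusp0 hN).ord (uN hN) = -((N : ℤ) - 1) := by linarith
  rw [h1, h3, Finsupp.single_neg, ← sub_eq_add_neg]

theorem ord_u_zero : (cusp0 hN).ord (uN hN) = 1 - (N : ℤ) := by
  classical
  have h := DFunLike.congr_fun (divisor_u hN) (cusp0 hN)
  rw [divisor_apply, Finsupp.sub_apply, Finsupp.single_apply, if_neg (inf_ne_zero hN),
    Finsupp.single_eq_same] at h
  omega

/-- degree of the polar divisor of a function with poles at the cusps only -/
theorem deg_pole {f : FF k N} {a b : ℤ} (ha : (cuspInf k N).ord f = -a)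
    (hb : (cusp0 hN).ord f = -b) (hr : ∀ v : Place k (FF k N), 0 ≤ v.ord (jF' k N) →
      0 ≤ v.ord f) : Divisor.degree (poleDiv k f) = max a 0 + max b 0 := by
  classical
  have hne := inf_ne_zero hN
  have h1 : poleDiv k f = Finsupp.single (cuspInf k N) (max a 0) +
      Finsupp.single (cusp0 hN) (max b 0) := by
    ext v
    rw [poleDiv_apply, Finsupp.add_apply, Finsupp.single_apply, Finsupp.single_apply]
    by_cases h1 : cuspInf k N = v
    · subst h1
      rw [if_pos rfl, if_neg (Ne.symm hne), ha]
      simp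
    · rw [if_neg h1]
      by_cases h2 : cusp0 hN = v
      · subst h2
        rw [if_pos rfl, hb]
        simp
      · rw [if_neg h2, add_zero]
        apply max_eq_right
        rcases lt_or_ge (v.ord (jF' k N)) 0 with h3 | h3
        · rcases cusp_or hN h3 with h | h
          · exact absurd h.symm h1
          · exact absurd h.symm h2
        · have := hr v h3
          omega
  rw [h1, map_add, degree_single', degree_single']

theorem deg_zero_eq (f : FF k N) : Divisor.degree (poleDiv k f⁻¹) =
    Divisor.degree (poleDiv k f) := by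
  have h1 := degree_divisor (K := k) f
  rw [Fermat.Agent.RR.divisor_eq_sub, map_sub, sub_eq_zero] at h1
  rw [← h1, zeroDiv_eq_poleDiv_inv]

end Cusps

end Fermat.Agent.Mz
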