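import Fermat.Agent.Mz.Val
import Fermat.Agent.CarM.ChartI1
import Fermat.Agent.PRem.RmW
import Fermat.Agent.Spec.TorsInj

/-!
# The residue discs of the cusps
-/

set_option autoImplicit false
set_option linter.style.haveILetI false
set_option linter.unusedSectionVars false

noncomputable section

namespace Fermat.Agent.Mz

open ModularCurve Polynomial IntermediateField Fermat.Agent.ModPoly AlgebraicCurve
  Fermat.Agent.RR Fermat.Agent.Cusp Fermat.Agent.RedMod Fermat.Agent.Spec Fermat.Agent.Curve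
  Fermat.Agent.Red Fermat.Agent.ThmC

/-! ### values -/

section Val

variable {K F : Type*} [Field K] [IsAlgClosed K] [Field F] [Algebra K F] [FunField K F]

/-- the value of `f` at `P` is `c` -/
def IsVal (P : Place K F) (f : F) (c : K) : Prop := Ge P 1 (f - algebraMap K F c)

variable {P : Place K F} {f g : F} {c d : K}

theorem IsVal.ge0 (h : IsVal P f c) : Ge P 0 f := by
  have h1 : Ge P 0 (f - algebraMap K F c) := h.mono (by norm_num)
  have h2 := h1.add (Ge.algebraMap P c)
  rwa [sub_add_cancel] at h2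

theorem IsVal.mul (h : IsVal P f c) (h' : IsVal P g d) : IsVal P (f * g) (c * d) := by
  have e : f * g - algebraMap K F (c * d) = (f - algebraMap K F c) * g +
      algebraMap K F c * (g - algebraMap K F d) := by rw [map_mul]; ring
  unfold IsVal
  rw [e]
  have h1 := Ge.mul h h'.ge0
  have h2 := (Ge.algebraMap P c).mul h'
  rw [add_zero] at h1
  rw [zero_add] at h2
  exact h1.add h2

theorem IsVal.one : IsVal P (1 : F) (1 : K) := by
  unfold IsVal
  rw [map_one, sub_self]
  exact Ge.zero _ _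

theorem IsVal.pow (h : IsVal P f c) (n : ℕ) : IsVal P (f ^ n) (c ^ n) := by
  induction n with
  | zero => rw [pow_zero, pow_zero]; exact IsVal.one
  | succ n ih => rw [pow_succ, pow_succ]; exact ih.mul h

theorem IsVal.ord_eq (h : IsVal P f c) (hc : c ≠ 0) : f ≠ 0 ∧ P.ord f = 0 := by
  have h0 : algebraMap K F c ≠ 0 := by simpa using hc
  have h1 : Ge P (P.ord (algebraMap K F c) + 1) (algebraMap K F c - f) := by
    rw [ord_algebraMap, zero_add]
    have := h.neg
    rwa [neg_sub] at this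
  have h2 := h1.ord_eq h0
  rw [ord_algebraMap] at h2
  exact h2

theorem IsVal.inv (h : IsVal P f c) (hc : c ≠ 0) : IsVal P f⁻¹ c⁻¹ := by
  obtain ⟨hf, hf0⟩ := h.ord_eq hc
  have h0 : algebraMap K F c ≠ 0 := by simpa using hc
  have e : f⁻¹ - algebraMap K F c⁻¹ = (f - algebraMap K F c) * (-(f⁻¹ * algebraMap K F c⁻¹)) := by
    rw [map_inv₀]
    field_simp
    ring
  unfold IsVal
  rw [e]
  have h1 : Ge P 0 (-(f⁻¹ * algebraMap K F c⁻¹)) := by
    refine (Ge.mul (n := 0) (m := 0) (Ge.of_le ?_) (Ge.algebraMap P _)).neg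
    rw [P.ord_inv, hf0, neg_zero]
  have h2 := Ge.mul h h1
  rwa [add_zero] at h2

end Val

section Size

variable (A : Type*) {K : Type*} [CommRing A] [IsDomain A] [ValuationRing A] [Field K] [Algebra A K]
  [IsFractionRing A K]

/-- in the maximal ideal -/
def Sm (c : K) : Prop := ∃ a : A, ¬ IsUnit a ∧ algebraMap A K a = c

/-- a unit -/
def Un (c : K) : Prop := ∃ a : A, IsUnit a ∧ algebraMap A K a = c

/-- not integral -/
def Lg (c : K) : Prop := ∃ a : A, ¬ IsUnit a ∧ algebraMap A K a * c = 1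

theorem size (c : K) : Sm A c ∨ Un A c ∨ Lg A c := by
  rcases ValuationRing.isInteger_or_isInteger A c with ⟨a, ha⟩ | ⟨b, hb⟩
  · by_cases h : IsUnit a
    · exact Or.inr (Or.inl ⟨a, h, ha⟩)
    · exact Or.inl ⟨a, h, ha⟩
  · by_cases h : IsUnit b
    · obtain ⟨b', hb'⟩ := h.exists_right_inv
      have h1 : algebraMap A K b * algebraMap A K b' = 1 := by rw [← map_mul, hb', map_one]
      refine Or.inr (Or.inl ⟨b', IsUnit.of_mul_eq_one b (by rw [mul_comm]; exact hb'), ?_⟩)
      rw [hb] at h1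
      have hc : c ≠ 0 := by
        rintro rfl
        rw [inv_zero, zero_mul] at h1
        exact zero_ne_one h1
      field_simp at h1
      exact h1
    · by_cases hc : c = 0
      · exact Or.inl ⟨0, not_isUnit_zero, by rw [map_zero, hc]⟩
      · exact Or.inr (Or.inr ⟨b, h, by rw [hb, inv_mul_cancel₀ hc]⟩)

variable {A}

theorem Lg.ne {c : K} (h : Lg A c) : c ≠ 0 := by
  obtain ⟨a, -, h1⟩ := h
  exact right_ne_zero_of_mul_eq_one h1

theorem Lg.inv {c : K} (h : Lg A c) : Sm A c⁻¹ := by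
  obtain ⟨a, h1, h2⟩ := h
  exact ⟨a, h1, eq_inv_of_mul_eq_one_left h2⟩

theorem Sm.not_Un {c : K} (h : Sm A c) (h' : Un A c) : False := by
  obtain ⟨a, h1, h2⟩ := h
  obtain ⟨b, h3, h4⟩ := h'
  have : a = b := IsFractionRing.injective A K (h2.trans h4.symm)
  rw [this] at h1
  exact h1 h3

theorem Sm.not_Lg {c : K} (h : Sm A c) (h' : Lg A c) : False := by
  obtain ⟨a, h1, h2⟩ := h
  obtain ⟨b, h3, h4⟩ := h'
  rw [← h2, ← map_mul, ← map_one (algebraMap A K)] at h4
  have : b * a = 1 := IsFractionRing.injective A K h4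
  exact h3 (IsUnit.of_mul_eq_one a this)

theorem Un.not_Lg {c : K} (h : Un A c) (h' : Lg A c) : False := by
  obtain ⟨a, h1, h2⟩ := h
  obtain ⟨b, h3, h4⟩ := h'
  rw [← h2, ← map_mul, ← map_one (algebraMap A K)] at h4
  have : b * a = 1 := IsFractionRing.injective A K h4
  exact h3 (IsUnit.of_mul_eq_one a this)

end Size

section Level

variable {A K k : Type*} [CommRing A] [IsDomain A] [ValuationRing A]
  [Field K] [IsAlgClosed K] [Algebra A K] [IsFractionRing A K] [Field k] [IsAlgClosed k]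
  [Algebra A k] {hk : Function.Surjective (algebraMap A k)} {N : ℕ}

attribute [local instance] algI isScalarTower_algI

variable [FunField K (FF K N)] [FunField k (FF k N)] (S : LevelRed hk (FF K N) (FF k N))

/-- functions with good reduction -/
structure GF (f : FF K N) (g : FF k N) : Prop where
  hf : f ∈ S.M.W
  hπ : S.M.π ⟨f, hf⟩ = g
  hdeg : Divisor.degree (poleDiv k g) = Divisor.degree (poleDiv K f)
  hnc : ∀ c : k, g - algebraMap k _ c ≠ 0

variable {S} {f : FF K N} {g : FF k N}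

theorem GF.h0 (h : GF S f g) : g ≠ 0 := by
  have := h.hnc 0
  rwa [map_zero, sub_zero] at this

theorem GF.f0 (h : GF S f g) : f ≠ 0 := by
  rintro rfl
  apply h.h0
  rw [← h.hπ]
  have : (⟨0, h.hf⟩ : S.M.W) = 0 := rfl
  rw [this, map_zero]

theorem GF.of_Rd (h : PRem.Rd A (f : LaurentSeries K) (g : LaurentSeries k))
    (hdeg : Divisor.degree (poleDiv k g) = Divisor.degree (poleDiv K f))
    {Q : Place k (FF k N)} (hQ : Q.ord g < 0) : GF S f g := by
  obtain ⟨h1, h2⟩ := S.mem_of_rd h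
  refine ⟨h1, h2, hdeg, fun c hc => ?_⟩
  rw [sub_eq_zero.1 hc, ord_algebraMap] at hQ
  exact lt_irrefl _ hQ

theorem GF.inv (h : GF S f g) {Q : Place k (FF k N)} (hQ : Q.ord g ≠ 0) [Fact N.Prime] [NeZero N] :
    GF S f⁻¹ g⁻¹ := by
  have h1 : PRem.Rd A ((f : FF K N) : LaurentSeries K) ((g : FF k N) : LaurentSeries k) := by
    have := S.rd_of_mem h.hf
    rw [h.hπ] at this
    exact this
  have h2 : ((g : FF k N) : LaurentSeries k) ≠ 0 := by
    intro h3
    exact h.h0 (Subtype.ext h3)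
  have h3 := h1.inv h2
  obtain ⟨h4, h5⟩ := S.mem_of_rd (x := f⁻¹) (y := g⁻¹) h3
  refine ⟨h4, h5, ?_, fun c hc => ?_⟩
  · rw [deg_zero_eq, deg_zero_eq, h.hdeg]
  · have h6 : Q.ord g⁻¹ = 0 := by rw [sub_eq_zero.1 hc, ord_algebraMap]
    rw [Q.ord_inv] at h6
    exact hQ (by omega)

theorem IsVal.pos (h : GF S f g) {P : Place K (FF K N)} {c : K} (hc : IsVal P f c) :
    0 < P.ord (f - algebraMap K _ c) := by
  have hne : f - algebraMap K _ c ≠ 0 := by
    intro h0
    rcases ValuationRing.isInteger_or_isInteger A c with ⟨a, ha⟩ | ⟨b, hb⟩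
    · obtain ⟨h1, h2⟩ := pi_sub (M := S.M) h.hf a
      have h3 : f - algebraMap K (FF K N) (algebraMap A K a) = 0 := by rw [ha]; exact h0
      have h4 : S.M.π ⟨f - algebraMap K (FF K N) (algebraMap A K a), h1⟩ = 0 := by
        have : (⟨f - algebraMap K (FF K N) (algebraMap A K a), h1⟩ : S.M.W) = 0 := Subtype.ext h3
        rw [this, map_zero]
      rw [h2, h.hπ] at h4
      exact h.hnc _ h4
    · -- `c⁻¹ = b`, `b f = 1`
      have hfc : f = algebraMap K _ c := sub_eq_zero.1 h0
      have hc0 : c ≠ 0 := by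
        rintro rfl
        rw [map_zero] at hfc
        exact h.f0 hfc
      have h1 : algebraMap A (FF K N) b * f = 1 := by
        rw [hfc]
        have : algebraMap A (FF K N) b = algebraMap K _ (algebraMap A K b) := rfl
        rw [this, ← map_mul, hb, inv_mul_cancel₀ hc0, map_one]
      have h2 : algebraMap A S.M.W b * ⟨f, h.hf⟩ = 1 := Subtype.ext h1
      have h3 := congrArg S.M.π h2
      rw [map_mul, map_one, h.hπ, AlgHom.commutes] at h3
      have h4 : algebraMap A (FF k N) b = algebraMap k _ (algebraMap A k b) := rfl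
      rw [h4] at h3
      have h5 : algebraMap A k b ≠ 0 := by
        intro h5
        rw [h5, map_zero, zero_mul] at h3
        exact zero_ne_one h3
      apply h.hnc (algebraMap A k b)⁻¹
      rw [sub_eq_zero, map_inv₀]
      exact eq_inv_of_mul_eq_one_right h3
  have := hc.le_ord hne
  omega

variable {P : Place K (FF K N)} {Q : Place k (FF k N)} {c : K}

/-- zeros: small values -/
theorem GF.sm (h : GF S f g) (hP : S.D.r (Finsupp.single P 1) = Finsupp.single Q 1)
    (hc : IsVal P f c) (hQ : 0 < Q.ord g) : Sm A c := by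
  have hpos := IsVal.pos h hc
  rcases size A c with h1 | ⟨a, ha, rfl⟩ | ⟨b, hb, hbc⟩
  · exact h1
  · exfalso
    have h2 := val_red S.D h.hf (by rw [h.hπ]; exact h.h0) (by rw [h.hπ]; exact h.hdeg)
      (by rw [h.hπ]; exact h.hnc _) hP hpos
    rw [h.hπ] at h2
    have h3 : algebraMap A k a ≠ 0 := (ha.map (algebraMap A k)).ne_zero
    have h4 : IsVal Q g (algebraMap A k a) := Ge.of_le h2
    rw [(h4.ord_eq h3).2] at hQ
    exact lt_irrefl _ hQ
  · exfalso
    have h2 := val_red_inf S.D h.hf (by rw [h.hπ]; exact h.h0) (by rw [h.hπ]; exact h.hdeg) hb hbc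
      hP hpos
    rw [h.hπ] at h2
    omega

/-- poles: large values -/
theorem GF.lg (h : GF S f g) (hP : S.D.r (Finsupp.single P 1) = Finsupp.single Q 1)
    (hc : IsVal P f c) (hQ : Q.ord g < 0) : Lg A c := by
  have hpos := IsVal.pos h hc
  have key : ∀ a : A, algebraMap A K a = c → False := by
    rintro a rfl
    have h2 := val_red S.D h.hf (by rw [h.hπ]; exact h.h0) (by rw [h.hπ]; exact h.hdeg)
      (by rw [h.hπ]; exact h.hnc _) hP hpos
    rw [h.hπ] at h2
    have := ord_nonneg_of_sub h2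
    omega
  rcases size A c with ⟨a, -, ha⟩ | ⟨a, -, ha⟩ | h1
  · exact (key a ha).elim
  · exact (key a ha).elim
  · exact h1

/-- order zero: unit values -/
theorem GF.un (h : GF S f g) (hP : S.D.r (Finsupp.single P 1) = Finsupp.single Q 1)
    (hc : IsVal P f c) (hQ : Q.ord g = 0) : Un A c := by
  have hpos := IsVal.pos h hc
  rcases size A c with ⟨a, ha, rfl⟩ | h1 | ⟨b, hb, hbc⟩
  · exfalso
    have h2 := val_red S.D h.hf (by rw [h.hπ]; exact h.h0) (by rw [h.hπ]; exact h.hdeg)
      (by rw [h.hπ]; exact h.hnc _) hP hpos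
    rw [h.hπ, algebraMap_eq_zero_of_not_isUnit hk ha, map_zero, sub_zero] at h2
    omega
  · exact h1
  · exfalso
    have h2 := val_red_inf S.D h.hf (by rw [h.hπ]; exact h.h0) (by rw [h.hπ]; exact h.hdeg) hb hbc
      hP hpos
    rw [h.hπ] at h2
    omega

/-- large values: poles -/
theorem GF.neg_of_lg (h : GF S f g) (hP : S.D.r (Finsupp.single P 1) = Finsupp.single Q 1)
    (hc : IsVal P f c) (hl : Lg A c) : Q.ord g < 0 := by
  obtain ⟨b, hb, hbc⟩ := hl
  have hpos := IsVal.pos h hc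
  have h2 := val_red_inf S.D h.hf (by rw [h.hπ]; exact h.h0) (by rw [h.hπ]; exact h.hdeg) hb hbc
    hP hpos
  rwa [h.hπ] at h2

/-- **uniqueness** -/
theorem GF.unique (h : GF S f g) {P' : Place K (FF K N)}
    (hP : S.D.r (Finsupp.single P 1) = Finsupp.single Q 1)
    (hP' : S.D.r (Finsupp.single P' 1) = Finsupp.single Q 1)
    (hc : IsVal P f c) (hc' : IsVal P' f c) (hQ : Q.ord g = 1) : P = P' := by
  obtain ⟨a, ha, rfl⟩ := h.sm hP hc (by omega)
  refine val_unique S.D h.hf (by rw [h.hπ]; exact h.h0) (by rw [h.hπ]; exact h.hdeg) (a := a)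
    (by rw [h.hπ]; exact h.hnc _) hP hP' (IsVal.pos h hc) (IsVal.pos h hc') ?_
  rw [h.hπ, algebraMap_eq_zero_of_not_isUnit hk ha, map_zero, sub_zero, hQ]

end Level

end Fermat.Agent.Mz
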