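import Fermat.Agent.Mz.Disc

/-!
# The residue discs of the cusps: the functions `j` and `Δ(q^N)/Δ(q)`
-/

set_option autoImplicit false
set_option linter.style.haveILetI false
set_option linter.unusedSectionVars false

noncomputable section

namespace Fermat.Agent.Mz

open ModularCurve Polynomial IntermediateField Fermat.Agent.ModPoly AlgebraicCurve
  Fermat.Agent.RR Fermat.Agent.Cusp Fermat.Agent.RedMod Fermat.Agent.Spec Fermat.Agent.Curve
  Fermat.Agent.Red Fermat.Agent.ThmC Fermat.Agent.CarM Fermat.Agent.CarE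

section Funcs

variable {k : Type*} [Field k] [IsAlgClosed k] {N : ℕ} [hNp : Fact N.Prime] [NeZero N]
  [FunField k (FF k N)] (hN : (N : k) ≠ 0)

/-- `j / u` -/
def hN' : FF k N := jF' k N * (uN hN)⁻¹

/-- `u j^(N-1)` -/
def gN : FF k N := uN hN * jF' k N ^ (N - 1)

theorem ord_h (v : Place k (FF k N)) : v.ord (hN' hN) = v.ord (jF' k N) - v.ord (uN hN) := by
  rw [hN', v.ord_mul jF_ne (inv_ne_zero (uN_ne hN)), v.ord_inv]
  ring

theorem ord_g (v : Place k (FF k N)) : v.ord (gN hN) = v.ord (uN hN) +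
    ((N : ℤ) - 1) * v.ord (jF' k N) := by
  have h1 := hNp.out.one_lt
  have e : ((N - 1 : ℕ) : ℤ) = N - 1 := by push_cast [Nat.cast_sub h1.le]; ring
  rw [gN, v.ord_mul (uN_ne hN) (pow_ne_zero _ jF_ne), ord_pow, e]

end Funcs

attribute [local instance] algI isScalarTower_algI

variable {A K k : Type*} [CommRing A] [IsDomain A] [ValuationRing A]
  [Field K] [IsAlgClosed K] [CharZero K] [Algebra A K] [IsFractionRing A K] [Field k]
  [IsAlgClosed k] [Algebra A k] {hk : Function.Surjective (algebraMap A k)} {N : ℕ}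
  [FunField K (FF K N)] [FunField k (FF k N)] (S : LevelRed hk (FF K N) (FF k N))
  [hNp : Fact N.Prime] [NeZero N] (hNK : (N : K) ≠ 0) (hNk : (N : k) ≠ 0)

theorem rd_jF' : PRem.Rd A ((jF' K N : FF K N) : LaurentSeries K)
    ((jF' k N : FF k N) : LaurentSeries k) := by
  have h1 : ((jF' K N : FF K N) : LaurentSeries K) = Jc 1 1 := rfl
  have h2 : ((jF' k N : FF k N) : LaurentSeries k) = Jc 1 1 := rfl
  rw [h1, h2]
  exact PRem.Rd.of_lift (JA_incL_one 1).symm (redL_JA_one 1)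

theorem rd_uN : PRem.Rd A ((uN hNK : FF K N) : LaurentSeries K)
    ((uN hNk : FF k N) : LaurentSeries k) := PRem.rd_rm (pp N)

theorem coe_uN_ne : ((uN hNk : FF k N) : LaurentSeries k) ≠ 0 := rm_ne_zero (k := k) (pp N)

include hNK hNk in
theorem gf_j : GF S (jF' K N) (jF' k N) := by
  refine GF.of_Rd rd_jF' ?_ (Q := cuspInf k N) (by rw [ord_j_inf]; norm_num)
  rw [(poleZero_jF hNk).dP, (poleZero_jF hNK).dP]

theorem gf_u : GF S (uN hNK) (uN hNk) := by
  have h1 := hNp.out.one_lt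
  refine GF.of_Rd (rd_uN hNK hNk) ?_ (Q := cusp0 hNk) (by rw [ord_u_zero]; omega)
  have f1 : ∀ v : Place k (FF k N), 0 ≤ v.ord (jF' k N) → 0 ≤ v.ord (uN hNk) := fun v hv =>
    (ord_u_reg hNk hv).ge
  have f2 : ∀ v : Place K (FF K N), 0 ≤ v.ord (jF' K N) → 0 ≤ v.ord (uN hNK) := fun v hv =>
    (ord_u_reg hNK hv).ge
  rw [deg_pole hNk (a := 1 - N) (b := N - 1) (by rw [ord_u_inf]; ring) (by rw [ord_u_zero]; ring) f1,
    deg_pole hNK (a := 1 - N) (b := N - 1) (by rw [ord_u_inf]; ring) (by rw [ord_u_zero]; ring) f2]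

theorem gf_h : GF S (hN' hNK) (hN' hNk) := by
  have h1 := hNp.out.one_lt
  refine GF.of_Rd (rd_jF'.mul ((rd_uN hNK hNk).inv (coe_uN_ne hNk))) ?_ (Q := cusp0 hNk)
    (by rw [ord_h, ord_u_zero, cusp0_ord_j]; omega)
  have f1 : ∀ v : Place k (FF k N), 0 ≤ v.ord (jF' k N) → 0 ≤ v.ord (hN' hNk) := fun v hv => by
    rw [ord_h, ord_u_reg hNk hv]; omega
  have f2 : ∀ v : Place K (FF K N), 0 ≤ v.ord (jF' K N) → 0 ≤ v.ord (hN' hNK) := fun v hv => by
    rw [ord_h, ord_u_reg hNK hv]; omega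
  rw [deg_pole hNk (a := N) (b := 1) (by rw [ord_h, ord_u_inf, ord_j_inf]; ring)
      (by rw [ord_h, ord_u_zero, cusp0_ord_j]; ring) f1,
    deg_pole hNK (a := N) (b := 1) (by rw [ord_h, ord_u_inf, ord_j_inf]; ring)
      (by rw [ord_h, ord_u_zero, cusp0_ord_j]; ring) f2]

theorem gf_g : GF S (gN hNK) (gN hNk) := by
  have h1 := hNp.out.one_lt
  have h2 : (0 : ℤ) < (N : ℤ) - 1 := by omega
  refine GF.of_Rd ((rd_uN hNK hNk).mul (rd_jF'.pow (N - 1))) ?_ (Q := cusp0 hNk)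
    (by rw [ord_g, ord_u_zero, cusp0_ord_j]; nlinarith)
  have f1 : ∀ v : Place k (FF k N), 0 ≤ v.ord (jF' k N) → 0 ≤ v.ord (gN hNk) := fun v hv => by
    rw [ord_g, ord_u_reg hNk hv, zero_add]; exact mul_nonneg h2.le hv
  have f2 : ∀ v : Place K (FF K N), 0 ≤ v.ord (jF' K N) → 0 ≤ v.ord (gN hNK) := fun v hv => by
    rw [ord_g, ord_u_reg hNK hv, zero_add]; exact mul_nonneg h2.le hv
  rw [deg_pole hNk (a := 0) (b := (N - 1) * (N + 1)) (by rw [ord_g, ord_u_inf, ord_j_inf]; ring)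
      (by rw [ord_g, ord_u_zero, cusp0_ord_j]; ring) f1,
    deg_pole hNK (a := 0) (b := (N - 1) * (N + 1)) (by rw [ord_g, ord_u_inf, ord_j_inf]; ring)
      (by rw [ord_g, ord_u_zero, cusp0_ord_j]; ring) f2]

/-! ### the reductions of the cusps -/

omit [IsAlgClosed k] [FunField k (FF k N)] hNp [NeZero N] in
theorem single_smul_one {X : Type*} (v : X) (n : ℤ) :
    Finsupp.single v n = n • Finsupp.single v (1 : ℤ) := by
  rw [Finsupp.smul_single, smul_eq_mul, mul_one]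

include hNk in
theorem r_cusps : S.D.r (Finsupp.single (cuspInf K N) 1) = Finsupp.single (cuspInf k N) 1 ∧
    S.D.r (Finsupp.single (cusp0 hNK) 1) = Finsupp.single (cusp0 hNk) 1 := by
  classical
  have h1 := hNp.out.one_lt
  obtain ⟨Q1, hQ1⟩ := S.D.r_single (cuspInf K N)
  obtain ⟨Q2, hQ2⟩ := S.D.r_single (cusp0 hNK)
  have hg := gf_u S hNK hNk
  have h2 := S.D.r_divisor hg.hf (by rw [hg.hπ]; exact hg.h0)
  rw [hg.hπ, divisor_u, divisor_u] at h2
  rw [single_smul_one (cuspInf K N) ((N : ℤ) - 1), single_smul_one (cusp0 hNK) ((N : ℤ) - 1),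
    map_sub, map_zsmul, map_zsmul, hQ1, hQ2] at h2
  have hne := inf_ne_zero hNk
  have hN1 : ((N : ℤ) - 1) ≠ 0 := by omega
  have hQ : Q1 = cuspInf k N := by
    have h3 := DFunLike.congr_fun h2 (cuspInf k N)
    simp only [Finsupp.sub_apply, Finsupp.smul_apply, Finsupp.single_apply, smul_eq_mul,
      if_true, if_neg (Ne.symm hne), mul_zero, sub_zero, mul_one] at h3
    by_contra hcon
    rw [if_neg hcon] at h3
    split_ifs at h3 <;> omega
  have hQ' : Q2 = cusp0 hNk := by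
    have h3 := DFunLike.congr_fun h2 (cusp0 hNk)
    simp only [Finsupp.sub_apply, Finsupp.smul_apply, Finsupp.single_apply, smul_eq_mul,
      if_true, if_neg hne, mul_zero, zero_sub, mul_one] at h3
    by_contra hcon
    rw [if_neg hcon] at h3
    split_ifs at h3 <;> omega
  rw [hQ1, hQ2, hQ, hQ']
  exact ⟨rfl, rfl⟩

/-! ### points in the discs of the cusps -/

variable {S} {P : Place K (FF K N)} {cj cu : K}

/-- the two cases -/
theorem disc_cases (hj : IsVal P (jF' K N) cj) (hu : IsVal P (uN hNK) cu) (hl : Lg A cj) :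
    (S.D.r (Finsupp.single P 1) = Finsupp.single (cuspInf k N) 1 ∧ Sm A cu ∧
      Un A (cu * cj ^ (N - 1))) ∨
    (S.D.r (Finsupp.single P 1) = Finsupp.single (cusp0 hNk) 1 ∧ Lg A cu) := by
  have h1 := hNp.out.one_lt
  obtain ⟨Q, hQ⟩ := S.D.r_single P
  have h2 := (gf_j S hNK hNk).neg_of_lg hQ hj hl
  rcases cusp_or hNk h2 with rfl | rfl
  · refine Or.inl ⟨hQ, (gf_u S hNK hNk).sm hQ hu (by rw [ord_u_inf]; omega), ?_⟩
    refine (gf_g S hNK hNk).un hQ (hu.mul (hj.pow _)) ?_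
    rw [ord_g, ord_u_inf, ord_j_inf]
    ring
  · refine Or.inr ⟨hQ, (gf_u S hNK hNk).lg hQ hu (by rw [ord_u_zero]; omega)⟩

include hNk in
/-- **uniqueness of the point** -/
theorem disc_unique {P' : Place K (FF K N)} (hj : IsVal P (jF' K N) cj)
    (hu : IsVal P (uN hNK) cu) (hj' : IsVal P' (jF' K N) cj) (hu' : IsVal P' (uN hNK) cu)
    (hl : Lg A cj) (S : LevelRed hk (FF K N) (FF k N)) : P = P' := by
  have h1 := hNp.out.one_lt
  have hcj := hl.ne
  rcases disc_cases (S := S) hNK hNk hj hu hl with ⟨h2, h3, -⟩ | ⟨h2, h3⟩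
  · rcases disc_cases (S := S) hNK hNk hj' hu' hl with ⟨h2', -, -⟩ | ⟨-, h3'⟩
    · have hg := (gf_j S hNK hNk).inv (Q := cuspInf k N) (by rw [ord_j_inf]; norm_num)
      refine hg.unique h2 h2' (hj.inv hcj) (hj'.inv hcj) ?_
      rw [Place.ord_inv, ord_j_inf]; norm_num
    · exact (h3.not_Lg h3').elim
  · rcases disc_cases (S := S) hNK hNk hj' hu' hl with ⟨-, h3', -⟩ | ⟨h2', -⟩
    · exact (h3'.not_Lg h3).elim
    · have hg := (gf_h S hNK hNk).inv (Q := cuspInf k N)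
        (by rw [ord_h, ord_j_inf, ord_u_inf]; omega)
      have hcu := h3.ne
      have e1 : ∀ P : Place K (FF K N), IsVal P (jF' K N) cj → IsVal P (uN hNK) cu →
          IsVal P (hN' hNK)⁻¹ (cj * cu⁻¹)⁻¹ := fun P h h' =>
        (h.mul (h'.inv hcu)).inv (mul_ne_zero hcj (inv_ne_zero hcu))
      refine hg.unique h2 h2' (e1 P hj hu) (e1 P' hj' hu') ?_
      rw [Place.ord_inv, ord_h, cusp0_ord_j, ord_u_zero]; ring

end Fermat.Agent.Mz
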