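import Fermat.Agent.Mz.PlA

/-!
# The cuspidal divisor is an eigenvector of the Hecke operators
-/

set_option autoImplicit false
set_option linter.style.haveILetI false
set_option linter.unusedSectionVars false

noncomputable section

namespace Fermat.Agent.Mz

open ModularCurve Polynomial IntermediateField Fermat.Agent.ModPoly AlgebraicCurve
  Fermat.Agent.RR Fermat.Agent.Cusp Fermat.Agent.RedMod Fermat.Agent.Spec Fermat.Agent.Curve
  Fermat.Agent.Red Fermat.Agent.ThmC Fermat.Agent.CarM Fermat.Agent.CarE Fermat.Agent.HeckeProd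

/-- the modular units are units outside the cusps -/
theorem ord_rm {K : Type*} [Field K] [IsAlgClosed K] {M : ℕ} [NeZero M]
    {E : IntermediateField K (LaurentSeries K)} (hE : E = FF K M) (hM : (M : K) ≠ 0) {m : ℕ+}
    (hm : (m : ℕ) ∣ M) {x jE : E} (hx : (x : LaurentSeries K) = rm K m)
    (hj : (jE : LaurentSeries K) = Jc 1 1) {v : Place K E} (hv : 0 ≤ v.ord jE) :
    v.ord x = 0 := by
  subst hE
  have e1 : jE = jF' K M := Subtype.ext hj
  rw [e1] at hv
  let C' : Subalgebra K (FF K M) :=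
    { v.toValuationSubring.toSubring with
      algebraMap_mem' := v.algebraMap_mem' }
  have hmem : ∀ x : FF K M, x ∈ C' ↔ 0 ≤ v.ord x := fun x => mem_iff_ord_nonneg v x
  have hC : ∀ w : FF K M, IsIntegral C' w → w ∈ C' := by
    intro w hw
    obtain ⟨P, hP, h0⟩ := hw
    let φ : C' →+* v.toValuationSubring :=
      { toFun := fun x => ⟨x.1, x.2⟩
        map_one' := rfl
        map_mul' := fun _ _ => rfl
        map_zero' := rfl
        map_add' := fun _ _ => rfl }
    have h1 : IsIntegral v.toValuationSubring w := ⟨P.map φ, hP.map φ, by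
      rw [eval₂_map]
      exact h0⟩
    obtain ⟨y, hy⟩ := IsIntegrallyClosed.isIntegral_iff.1 h1
    rw [← hy]
    exact y.2
  obtain ⟨h1, h2⟩ := rm_mem_C C' hC ((hmem _).2 hv) hM m hm
  have h3 := (hmem _).1 h1
  have h4 := (hmem _).1 h2
  rw [v.ord_inv] at h4
  have h5 : x = (⟨rm K m, rm_mem hM m hm⟩ : FF K M) := Subtype.ext hx
  rw [h5]
  omega

theorem qExpand_rm (k : Type*) [Field k] (l : ℕ) [NeZero l] (m : ℕ+) :
    qExpand k l (rm k m) * rm k (pn l) = rm k (pn l * m) := by
  have h1 : ∀ e : ℕ+, qExpand k l (Dc 1 e : LaurentSeries k) = Dc 1 (pn l * e) := by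
    intro e
    rw [qExpand_eq_Sb l (pn l) (coe_pn l), Dc, Dc, Sb_Sb, one_pow, one_mul]
  rw [rm, map_mul, map_inv₀, h1, h1, rm, rm, mul_one]
  have h2 : (Dc 1 (pn l) : LaurentSeries k) ≠ 0 := Dc_ne_zero _ _
  have h3 : (Dc 1 1 : LaurentSeries k) ≠ 0 := Dc_ne_zero _ _
  field_simp

theorem order_NN {k : Type*} [Field k] {m : ℕ} [NeZero m] {ζ : kˣ} (hζ : IsPrimitiveRoot ζ m)
    {F : LaurentSeries k} (hF : F ≠ 0) : (NN m ζ F).order = F.order := by
  have h1 := congrArg HahnSeries.order (qExpand_NN hζ F)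
  have h2 : ∀ s : Finset (ZMod m), (∏ x ∈ s, twist (ζ ^ x.val) F).order = s.card * F.order := by
    classical
    intro s
    induction s using Finset.induction_on with
    | empty => simp
    | insert a s ha ih =>
      have h3 : ∀ c : kˣ, twist c F ≠ 0 := fun c h => hF ((map_eq_zero (twist c)).1 h)
      rw [Finset.prod_insert ha, HahnSeries.order_mul (h3 _)
        (Finset.prod_ne_zero_iff.2 fun x _ => h3 _), ih, order_twist, Finset.card_insert_of_notMem ha]
      push_cast
      ring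
  rw [order_qExpand, PP, h2 Finset.univ, Finset.card_univ, ZMod.card] at h1
  exact mul_left_cancel₀ (by exact_mod_cast NeZero.ne m) h1

theorem order_TT {k : Type*} [Field k] {m : ℕ} [NeZero m] {ζ : kˣ} (hζ : IsPrimitiveRoot ζ m)
    {F : LaurentSeries k} (hF : F ≠ 0) : (TT hζ F).order = (m + 1) * F.order := by
  have h2 : qExpand k m F ≠ 0 := fun h => hF (qExpand_injective m (by rw [h, map_zero]))
  have h3 : NN m ζ F ≠ 0 := by
    intro h
    have h4 := qExpand_NN hζ F
    rw [h, map_zero, PP] at h4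
    obtain ⟨x, -, hx⟩ := Finset.prod_eq_zero_iff.1 h4.symm
    exact hF ((map_eq_zero (twist (ζ ^ x.val))).1 hx)
  rw [TT_apply, HahnSeries.order_mul h2 h3, order_qExpand, order_NN hζ hF]
  ring

section Along

variable {K F F' : Type*} [Field K] [IsAlgClosed K] [Field F] [Field F'] [Algebra K F]
  [Algebra K F'] [FunField K F] [FunField K F']

/-- divisor of the norm -/
theorem correspondence_divisor [HasPrincipalDivisors K F'] (φ ψ : F →ₐ[K] F')
    (hφ : φ.toRingHom.IsIntegral) (hψ : ψ.toRingHom.IsIntegral) (hfin : FiniteAlong K ψ)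
    (hsep : SeparableAlong K ψ) {f : F} (hf : f ≠ 0) (v : Place K F) :
    Divisor.correspondence φ ψ hφ hψ (divisor K f) v = v.ord (normAlong ψ (φ f)) := by
  have h1 : ∀ w, Divisor.pullbackAlong φ hφ (divisor K f) w = w.ord (φ f) := by
    letI := algebraAlong φ
    haveI := isScalarTower_along φ
    haveI := isIntegral_along φ hφ
    intro w
    exact Divisor.pullback_apply_eq_ord (fun v => divisor_apply f v) w
  rw [Divisor.correspondence_apply]
  have h2 := normFormulaAlong_of ψ hfin hsep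
  have h3 : φ f ≠ 0 := (map_ne_zero φ).2 hf
  exact h2 (φ f) h3 _ h1 v

/-- the norm has order zero if all orders above vanish -/
theorem ord_normAlong_zero (ψ : F →ₐ[K] F') (hψ : ψ.toRingHom.IsIntegral)
    (hfin : FiniteAlong K ψ) (hsep : SeparableAlong K ψ) {y : F'} (hy : y ≠ 0) {s : F}
    (h : ∀ w : Place K F', 0 ≤ w.ord (ψ s) → w.ord y = 0) {v : Place K F} (hv : 0 ≤ v.ord s) :
    v.ord (normAlong ψ y) = 0 := by
  haveI : HasPrincipalDivisors K F' := hasPrincipalDivisors'
  letI := algebraAlong ψ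
  haveI := isScalarTower_along ψ
  haveI := isIntegral_along ψ hψ
  haveI : Module.Finite F F' := hfin
  haveI : Algebra.IsSeparable F F' := hsep
  change v.ord (Algebra.norm F y) = 0
  rw [Spec.ord_norm v hy]
  refine Finset.sum_eq_zero fun w hw => h w ?_
  have h1 : w.restrict F = v := Place.mem_fiber.1 hw
  change 0 ≤ w.ord (algebraMap F F' s)
  rw [w.ord_restrict, h1]
  exact mul_nonneg (Int.natCast_nonneg _) hv

end Along

section Eis

variable {K : Type*} [Field K] [IsAlgClosed K] [CharZero K] [Algebra ℚ K] {N : ℕ}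
  [hNp : Fact N.Prime] [NeZero N] [FunField K (EB K N)] (c : CuspData K N (EB K N))

/-- the cuspidal divisor -/
def CuspData.D0 : Divisor K (EB K N) := Finsupp.single c.cI 1 - Finsupp.single c.cZ 1

theorem CuspData.divisor_uE : divisor K c.uE = ((N : ℤ) - 1) • c.D0 := by
  have hE : EB K N = FF K N := Fermat.Agent.X0Genus.baseChange_eq K N
  have hNK : (N : K) ≠ 0 := Nat.cast_ne_zero.2 (NeZero.ne N)
  rw [c.divisor_u hE hNK, CuspData.D0, smul_sub, Finsupp.smul_single, Finsupp.smul_single,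
    smul_eq_mul, mul_one]

theorem CuspData.hecke_D0 (l : ℕ) [hl : Fact l.Prime] [NeZero l] (hlN : l ≠ N)
    (hα : HeckeAlphaBarIntegral K N l) (hβ : HeckeBetaBarIntegral K N l)
    [FunField K (EB K (N * l))] [HasPrincipalDivisors K (EB K (N * l))] :
    heckeDivBar hα hβ c.D0 = ((l : ℤ) + 1) • c.D0 := by
  have h1 := hNp.out.one_lt
  have hE : EB K N = FF K N := Fermat.Agent.X0Genus.baseChange_eq K N
  have hE' : EB K (N * l) = FF K (N * l) := Fermat.Agent.X0Genus.baseChange_eq K (N * l)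
  have hNK : (N : K) ≠ 0 := Nat.cast_ne_zero.2 (NeZero.ne N)
  have hNl : ((N * l : ℕ) : K) ≠ 0 := natCast_mul_ne K N l
  have hlN' : ¬ l ∣ N := fun h => hlN ((Nat.prime_dvd_prime_iff_eq hl.out hNp.out).1 h)
  have hl0 : (l : K) ≠ 0 := Nat.cast_ne_zero.2 hl.out.ne_zero
  obtain ⟨ζ, hζ⟩ := exists_zeta_ell K l
  have hu0 := c.uE_ne
  have hβ0 : heckeBetaBar K N l c.uE ≠ 0 := (_root_.map_ne_zero _).2 hu0
  obtain ⟨g, hg⟩ : ∃ g : EB K N, g = normAlong (heckeAlphaBar K N l) (heckeBetaBar K N l c.uE) :=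
    ⟨_, rfl⟩
  have hgT : (g : LaurentSeries K) = TT hζ (rm K (pp N)) := by
    rw [hg, coe_normAlong_heckeBetaBar K N l hlN' hζ, c.hu]
  have hdiv : ∀ v, heckeDivBar hα hβ (divisor K c.uE) v = v.ord g := by
    intro v
    rw [hg]
    exact correspondence_divisor _ _ hβ hα (finiteAlong_heckeAlphaBar K N l)
      (separableAlong_heckeAlphaBar K N l) hu0 v
  have hoff : ∀ v : Place K (EB K N), 0 ≤ v.ord c.jE → v.ord g = 0 := by
    intro v hv
    rw [hg]
    refine ord_normAlong_zero _ hα (finiteAlong_heckeAlphaBar K N l)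
      (separableAlong_heckeAlphaBar K N l) hβ0 (s := c.jE) ?_ hv
    intro w hw
    have hm1 : ((pn l * pp N : ℕ+) : ℕ) ∣ N * l := by
      rw [PNat.mul_coe, coe_pn, coe_pp, mul_comm]
    have hm2 : ((pn l : ℕ+) : ℕ) ∣ N * l := by
      rw [coe_pn]; exact dvd_mul_left l N
    obtain ⟨x1, hx1⟩ : ∃ x : EB K (N * l), (x : LaurentSeries K) = rm K (pn l * pp N) :=
      ⟨⟨_, by rw [hE']; exact rm_mem hNl _ hm1⟩, rfl⟩
    obtain ⟨x2, hx2⟩ : ∃ x : EB K (N * l), (x : LaurentSeries K) = rm K (pn l) :=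
      ⟨⟨_, by rw [hE']; exact rm_mem hNl _ hm2⟩, rfl⟩
    have e1 : heckeBetaBar K N l c.uE * x2 = x1 := by
      apply Subtype.ext
      rw [MulMemClass.coe_mul, coe_heckeBetaBar, hx1, hx2, c.hu, qExpand_rm]
    have hj : ((heckeAlphaBar K N l c.jE : EB K (N * l)) : LaurentSeries K) = Jc 1 1 := by
      rw [coe_heckeAlphaBar, c.hj]
    have o1 := ord_rm hE' hNl hm1 hx1 hj hw
    have o2 := ord_rm hE' hNl hm2 hx2 hj hw
    have hx20 : x2 ≠ 0 := by
      rintro rfl
      exact rm_ne_zero (k := K) (pn l) hx2.symm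
    rw [← e1, w.ord_mul hβ0 hx20, o2, add_zero] at o1
    exact o1
  have hord : c.cI.ord g = ((l : ℤ) + 1) * ((N : ℤ) - 1) := by
    rw [c.hI, hgT, order_TT hζ (rm_ne_zero _), ← c.hu, ← c.hI]
    have := congrArg (fun D : Divisor K (EB K N) => D c.cI) c.divisor_uE
    have hne := c.ne hE hNK
    simp only [divisor_apply, CuspData.D0, Finsupp.smul_apply, Finsupp.sub_apply,
      Finsupp.single_eq_same, Finsupp.single_eq_of_ne hne, sub_zero, smul_eq_mul, mul_one] at this
    rw [this]
  -- the divisor of `g`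
  have hg0 : g ≠ 0 := by
    rintro rfl
    rw [c.cI.ord_zero] at hord
    have : (0 : ℤ) < ((l : ℤ) + 1) * ((N : ℤ) - 1) := mul_pos (by omega) (by omega)
    omega
  have hne := c.ne hE hNK
  have hD : divisor K g = Finsupp.single c.cI (c.cI.ord g) + Finsupp.single c.cZ (c.cZ.ord g) := by
    ext v
    rw [divisor_apply, Finsupp.add_apply]
    by_cases hv : 0 ≤ v.ord c.jE
    · rw [hoff v hv, Finsupp.single_eq_of_ne, Finsupp.single_eq_of_ne, add_zero]
      · rintro rfl
        rw [c.hZ] at hv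
        omega
      · rintro rfl
        rw [c.hI, c.hj, order_Jc] at hv
        norm_num at hv
    · rcases c.cusp_or hE hNK (not_le.1 hv) with rfl | rfl
      · rw [Finsupp.single_eq_same, Finsupp.single_eq_of_ne hne, add_zero]
      · rw [Finsupp.single_eq_same, Finsupp.single_eq_of_ne hne.symm, zero_add]
  have hdeg : c.cI.ord g + c.cZ.ord g = 0 := by
    have h2 := degree_divisor (K := K) g
    rw [hD, map_add, degree_single', degree_single'] at h2
    exact h2
  have hDg : divisor K g = ((N : ℤ) - 1) • (((l : ℤ) + 1) • c.D0) := by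
    have h3 : c.cZ.ord g = -(((l : ℤ) + 1) * ((N : ℤ) - 1)) := by rw [← hord]; linarith
    rw [hD, hord, h3, CuspData.D0, smul_sub, smul_sub]
    simp only [Finsupp.smul_single, smul_eq_mul, mul_one]
    rw [Finsupp.single_neg, ← sub_eq_add_neg, mul_comm]
  have hfin : ((N : ℤ) - 1) • heckeDivBar hα hβ c.D0 = ((N : ℤ) - 1) • (((l : ℤ) + 1) • c.D0) := by
    rw [← map_zsmul, ← c.divisor_uE, ← hDg]
    ext v
    rw [hdiv, divisor_apply]
  ext v
  have h4 := DFunLike.congr_fun hfin v
  rw [Finsupp.smul_apply, Finsupp.smul_apply, smul_eq_mul, smul_eq_mul] at h4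
  exact mul_left_cancel₀ (by omega) h4

end Eis

end Fermat.Agent.Mz
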