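import Fermat.Agent.Mz.EisA

/-!
# The order of the cuspidal divisor class in characteristic `p ≥ 5`
-/

set_option autoImplicit false
set_option linter.style.haveILetI false
set_option linter.unusedSectionVars false

noncomputable section

namespace Fermat.Agent.Mz

open ModularCurve Polynomial IntermediateField Fermat.Agent.ModPoly AlgebraicCurve
  Fermat.Agent.RR Fermat.Agent.Cusp Fermat.Agent.RedMod Fermat.Agent.Spec Fermat.Agent.Curve
  Fermat.Agent.Red Fermat.Agent.ThmC Fermat.Agent.CarM Fermat.Agent.CarE Fermat.Agent.HeckeProd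

section Eta

open PowerSeries PowerSeries.WithPiTopology Filter Topology

theorem coeff_one_mul' {R : Type*} [CommRing R] (f g : PowerSeries R) :
    PowerSeries.coeff 1 (f * g) = PowerSeries.coeff 0 f * PowerSeries.coeff 1 g +
      PowerSeries.coeff 1 f * PowerSeries.coeff 0 g := by
  rw [PowerSeries.coeff_mul, Finset.Nat.antidiagonal_succ]
  simp

theorem aux_prod (s : Finset ℕ) (hs : (0 : ℕ) ∉ s) :
    (PowerSeries.coeff 0 (∏ n ∈ s, (1 - (PowerSeries.X : PowerSeries ℤ) ^ (n + 1))) = 1) ∧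
    (PowerSeries.coeff 1 (∏ n ∈ s, (1 - (PowerSeries.X : PowerSeries ℤ) ^ (n + 1))) = 0) := by
  classical
  induction s using Finset.induction_on with
  | empty => simp [PowerSeries.coeff_one]
  | insert a s ha ih =>
    rw [Finset.mem_insert, not_or] at hs
    obtain ⟨h1, h2⟩ := ih hs.2
    have ha0 : a + 1 ≠ 0 := by omega
    have ha1 : 1 ≠ a + 1 := by omega
    rw [Finset.prod_insert ha]
    constructor
    · rw [PowerSeries.coeff_zero_eq_constantCoeff] at h1 ⊢
      rw [map_mul, h1, map_sub, map_pow, PowerSeries.constantCoeff_X, zero_pow ha0]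
      simp
    · have e : PowerSeries.coeff 1 (1 - (PowerSeries.X : PowerSeries ℤ) ^ (a + 1)) = 0 := by
        rw [map_sub, PowerSeries.coeff_X_pow, if_neg ha1, PowerSeries.coeff_one, if_neg one_ne_zero,
          sub_zero]
      rw [coeff_one_mul', h1, h2, e]
      ring

theorem coeff_one_etaProd : PowerSeries.coeff 1 etaProd = -1 := by
  classical
  have h1 := (multipliable_one_sub_X_pow ℤ).hasProd
  have h2 : Tendsto (fun s : Finset ℕ => PowerSeries.coeff 1
      (∏ n ∈ s, (1 - (PowerSeries.X : PowerSeries ℤ) ^ (n + 1)))) atTop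
      (𝓝 (PowerSeries.coeff 1 etaProd)) :=
    ((continuous_coeff ℤ 1).tendsto _).comp h1
  have h3 : Tendsto (fun s : Finset ℕ => PowerSeries.coeff 1
      (∏ n ∈ s, (1 - (PowerSeries.X : PowerSeries ℤ) ^ (n + 1)))) atTop (𝓝 (-1)) := by
    refine tendsto_const_nhds.congr' ?_
    filter_upwards [eventually_ge_atTop ({0} : Finset ℕ)] with s hs
    have h0 : (0 : ℕ) ∈ s := hs (Finset.mem_singleton_self 0)
    rw [← Finset.insert_erase h0, Finset.prod_insert (Finset.notMem_erase 0 s)]
    obtain ⟨h4, h5⟩ := aux_prod (s.erase 0) (Finset.notMem_erase 0 s)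
    rw [PowerSeries.coeff_mul, Finset.Nat.antidiagonal_succ]
    simp [h4, h5, PowerSeries.coeff_X, PowerSeries.coeff_one]
  exact tendsto_nhds_unique h2 h3

theorem coeff_one_eta24 : PowerSeries.coeff 1 dedekindEtaUnit = -24 := by
  have h : ∀ n : ℕ, PowerSeries.coeff 1 (etaProd ^ n) = -(n : ℤ) := by
    intro n
    induction n with
    | zero => simp [PowerSeries.coeff_one]
    | succ n ih =>
      have h0 : PowerSeries.coeff 0 (etaProd ^ n) = 1 := by
        rw [PowerSeries.coeff_zero_eq_constantCoeff, map_pow, constantCoeff_etaProd, one_pow]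
      have h0' : PowerSeries.coeff 0 etaProd = 1 := by
        rw [PowerSeries.coeff_zero_eq_constantCoeff, constantCoeff_etaProd]
      rw [pow_succ, coeff_one_mul', h0, coeff_one_etaProd, ih, h0']
      push_cast
      ring
  have := h 24
  rw [dedekindEtaUnit, this]
  norm_num

end Eta

section Coeff

variable (k : Type*) [Field k]

theorem coeff_deltaC_one : (deltaC k).coeff 1 = 1 := by
  rw [deltaC, HahnSeries.coeff_single_mul, one_mul, sub_self]
  have := HahnSeries.ofPowerSeries_apply_coeff (Γ := ℤ)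
    (dedekindEtaUnit.map (Int.castRingHom k)) 0
  simp only [Nat.cast_zero] at this
  rw [this, PowerSeries.coeff_map, PowerSeries.coeff_zero_eq_constantCoeff,
    constantCoeff_dedekindEtaUnit]
  simp

theorem coeff_deltaC_two : (deltaC k).coeff 2 = -24 := by
  have e : (2 : ℤ) - 1 = ((1 : ℕ) : ℤ) := by norm_num
  rw [deltaC, HahnSeries.coeff_single_mul, one_mul, e, HahnSeries.ofPowerSeries_apply_coeff,
    PowerSeries.coeff_map, coeff_one_eta24]
  simp

theorem coeff_deltaC_le {n : ℤ} (hn : n < 1) : (deltaC k).coeff n = 0 := by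
  rw [deltaC, HahnSeries.coeff_single_mul, one_mul]
  exact ofPowerSeries_coeff_of_neg _ (by linarith)

theorem coeff_one_eta24Inv : PowerSeries.coeff 1 dedekindEtaUnitInv = 24 := by
  have h := congrArg (PowerSeries.coeff 1) dedekindEtaUnit_mul_inv
  have h0 : PowerSeries.coeff 0 dedekindEtaUnit = 1 := by
    rw [PowerSeries.coeff_zero_eq_constantCoeff, constantCoeff_dedekindEtaUnit]
  have h0' : PowerSeries.coeff 0 dedekindEtaUnitInv = 1 := by
    rw [PowerSeries.coeff_zero_eq_constantCoeff, constantCoeff_dedekindEtaUnitInv]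
  rw [coeff_one_mul', h0, h0', coeff_one_eta24, PowerSeries.coeff_one, if_neg one_ne_zero] at h
  linarith

variable {N : ℕ} [hNp : Fact N.Prime]

/-- the second coefficient of the modular unit -/
theorem coeff_rm : (rm k (pp N)).coeff N = 24 := by
  haveI : NeZero N := ⟨hNp.out.ne_zero⟩
  haveI : NeZero ((pp N : ℕ+) : ℕ) := ⟨hNp.out.ne_zero⟩
  have hN1 := hNp.out.one_lt
  set η := dedekindEtaUnit.map (Int.castRingHom k) with hη
  set η' := dedekindEtaUnitInv.map (Int.castRingHom k) with hη'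
  have h1 : qExpand k N (HahnSeries.ofPowerSeries ℤ k η) =
      HahnSeries.ofPowerSeries ℤ k (PowerSeries.expand N hNp.out.ne_zero η) := by
    ext n
    by_cases hn : (N : ℤ) ∣ n
    · obtain ⟨j, rfl⟩ := hn
      rw [qExpand_coeff_mul]
      rcases lt_or_ge j 0 with hj | hj
      · have hpos : (0 : ℤ) < N := by exact_mod_cast hNp.out.pos
        rw [ofPowerSeries_coeff_of_neg _ (mul_neg_of_pos_of_neg hpos hj),
          ofPowerSeries_coeff_of_neg _ hj]
      · obtain ⟨j, rfl⟩ := Int.eq_ofNat_of_zero_le hj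
        rw [← Nat.cast_mul, HahnSeries.ofPowerSeries_apply_coeff,
          HahnSeries.ofPowerSeries_apply_coeff, PowerSeries.coeff_expand_mul]
    · rw [qExpand_coeff_of_not_dvd N _ hn]
      rcases lt_or_ge n 0 with hj | hj
      · rw [ofPowerSeries_coeff_of_neg _ hj]
      · obtain ⟨j, rfl⟩ := Int.eq_ofNat_of_zero_le hj
        rw [HahnSeries.ofPowerSeries_apply_coeff, PowerSeries.coeff_expand_of_not_dvd]
        exact fun h => hn (by exact_mod_cast h)
  have h2 : rm k (pp N) = qExpand k N (deltaC k) * deltaInvC k := by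
    rw [rm, Dc_one_pp k (pp N), Dc_one_one', deltaInvC_eq_inv]
    rfl
  have h3 : rm k (pp N) = HahnSeries.single ((N : ℤ) - 1) 1 *
      HahnSeries.ofPowerSeries ℤ k (PowerSeries.expand N hNp.out.ne_zero η * η') := by
    rw [h2, deltaC, deltaInvC, map_mul, qExpand_single, h1, map_mul]
    have h4 : (HahnSeries.single ((N : ℤ) * 1) (1 : k)) * HahnSeries.single (-1 : ℤ) (1 : k) =
        HahnSeries.single ((N : ℤ) - 1) 1 := by
      rw [HahnSeries.single_mul_single, mul_one, mul_one, sub_eq_add_neg]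
    rw [← h4]
    ring
  have e : (N : ℤ) - ((N : ℤ) - 1) = ((1 : ℕ) : ℤ) := by push_cast; ring
  rw [h3, HahnSeries.coeff_single_mul, one_mul, e, HahnSeries.ofPowerSeries_apply_coeff,
    coeff_one_mul']
  have h5 : PowerSeries.coeff 1 (PowerSeries.expand N hNp.out.ne_zero η) = 0 := by
    rw [PowerSeries.coeff_expand_of_not_dvd]
    intro h
    exact absurd (Nat.le_of_dvd one_pos h) (by omega)
  have h6 : PowerSeries.coeff 0 (PowerSeries.expand N hNp.out.ne_zero η) = 1 := by
    have := PowerSeries.coeff_expand_mul N hNp.out.ne_zero η 0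
    rw [mul_zero] at this
    rw [this, hη, PowerSeries.coeff_map, PowerSeries.coeff_zero_eq_constantCoeff,
      constantCoeff_dedekindEtaUnit, map_one]
  have h7 : PowerSeries.coeff 1 η' = 24 := by
    rw [hη', PowerSeries.coeff_map, coeff_one_eta24Inv]
    simp
  rw [h5, h6, h7]
  ring

end Coeff

section Char

variable {k : Type*} [Field k] [IsAlgClosed k] {N : ℕ} [hNp : Fact N.Prime] [NeZero N]
  [FunField k (FF k N)] (hN : (N : k) ≠ 0)

/-- if a multiple of the cuspidal divisor is principal, so is the gcd with `N - 1` -/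
theorem exists_gcd {K F : Type*} [Field K] [Field F] [Algebra K F] [IsAlgClosed K] [FunField K F]
    {D : Divisor K F} {g u : F} {m n : ℤ} (hg : g ≠ 0) (hu : u ≠ 0) (h1 : divisor K g = m • D)
    (h2 : divisor K u = n • D) : ∃ h : F, h ≠ 0 ∧ divisor K h = (Int.gcd m n : ℤ) • D := by
  refine ⟨g ^ (Int.gcdA m n) * u ^ (Int.gcdB m n), mul_ne_zero (zpow_ne_zero _ hg)
    (zpow_ne_zero _ hu), ?_⟩
  ext v
  have e1 := DFunLike.congr_fun h1 v
  have e2 := DFunLike.congr_fun h2 v
  rw [divisor_apply, Finsupp.smul_apply, smul_eq_mul] at e1 e2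
  rw [divisor_apply, v.ord_mul (zpow_ne_zero _ hg) (zpow_ne_zero _ hu), v.ord_zpow, v.ord_zpow,
    e1, e2, Finsupp.smul_apply, smul_eq_mul, Int.gcd_eq_gcd_ab]
  ring

/-- **in characteristic `r ≥ 5`, `r ∣ N - 1`, the order of the cuspidal class is divisible by
`r`** -/
theorem dvd_of_principal_char {r : ℕ} [hr : Fact r.Prime] [CharP k r] (hr5 : 5 ≤ r)
    (hrN : (r : ℤ) ∣ (N : ℤ) - 1) {g : FF k N} (hg : g ≠ 0) {m : ℤ}
    (h : divisor k g = m • (Finsupp.single (cuspInf k N) 1 - Finsupp.single (cusp0 hN) 1)) :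
    (r : ℤ) ∣ m := by
  by_contra hm
  have hN1 := hNp.out.one_lt
  have hrp : Prime (r : ℤ) := Nat.prime_iff_prime_int.1 hr.out
  have hu : divisor k (uN hN) = ((N : ℤ) - 1) •
      (Finsupp.single (cuspInf k N) 1 - Finsupp.single (cusp0 hN) 1) := by
    rw [divisor_u, smul_sub, Finsupp.smul_single, Finsupp.smul_single, smul_eq_mul, mul_one]
  obtain ⟨g', hg', hg'D⟩ := exists_gcd hg (uN_ne hN) h hu
  obtain ⟨s, hs⟩ : ∃ s : ℕ, s = Int.gcd m ((N : ℤ) - 1) := ⟨_, rfl⟩
  rw [← hs] at hg'D
  have hs1 : (s : ℤ) ∣ m := by rw [hs]; exact Int.gcd_dvd_left _ _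
  have hs2 : (s : ℤ) ∣ (N : ℤ) - 1 := by rw [hs]; exact Int.gcd_dvd_right _ _
  obtain ⟨e, he⟩ := hs2
  have hre : (r : ℤ) ∣ e := by
    rw [he] at hrN
    rcases hrp.dvd_or_dvd hrN with h1 | h1
    · exact absurd (h1.trans hs1) hm
    · exact h1
  obtain ⟨e', rfl⟩ := hre
  have h1 : divisor k (uN hN) = divisor k ((g' ^ e') ^ (r : ℤ)) := by
    ext v
    have e1 := DFunLike.congr_fun hg'D v
    rw [divisor_apply, Finsupp.smul_apply, smul_eq_mul] at e1
    rw [hu, he, divisor_apply, v.ord_zpow, v.ord_zpow, e1, Finsupp.smul_apply, smul_eq_mul]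
    ring
  obtain ⟨c, hc, h2⟩ := exists_const_mul (uN_ne hN) (zpow_ne_zero _ (zpow_ne_zero _ hg')) h1
  haveI : NeZero r := ⟨hr.out.ne_zero⟩
  have h3 : ((uN hN : FF k N) : LaurentSeries k) =
      HahnSeries.C c * ((g' ^ e' : FF k N) : LaurentSeries k) ^ r := by
    rw [h2, zpow_natCast, ← algebraMap_eq_C]
    rfl
  have h4 := congrArg (fun F : LaurentSeries k => F.coeff N) h3
  simp only [HahnSeries.C_mul_eq_smul, HahnSeries.coeff_smul, smul_eq_mul] at h4
  rw [pow_eq_qExpand r, qExpand_coeff_of_not_dvd, mul_zero] at h4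
  · have h5 : ((uN hN : FF k N) : LaurentSeries k).coeff N = 24 := coeff_rm k
    rw [h5] at h4
    have h6 : ((24 : ℕ) : k) = 0 := by exact_mod_cast h4
    rw [CharP.cast_eq_zero_iff k r] at h6
    have h7 : r ∣ 2 ^ 3 * 3 := h6
    rcases (Nat.Prime.dvd_mul hr.out).1 h7 with h8 | h8
    · have := Nat.le_of_dvd (by norm_num) (hr.out.dvd_of_dvd_pow h8)
      omega
    · have := Nat.le_of_dvd (by norm_num) h8
      omega
  · intro h5
    have h6 : (r : ℤ) ∣ 1 := by
      have := dvd_sub h5 hrN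
      rwa [sub_sub_cancel] at this
    exact hrp.not_unit (isUnit_of_dvd_one h6)

end Char

end Fermat.Agent.Mz
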