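import Fermat.Agent.Mz.EisB
import Fermat.Agent.PRem.RmW

/-!
# The order of the cuspidal divisor class in characteristic zero
-/

set_option autoImplicit false
set_option linter.style.haveILetI false
set_option linter.unusedSectionVars false

noncomputable section

namespace Fermat.Agent.Mz

open ModularCurve Polynomial IntermediateField Fermat.Agent.ModPoly AlgebraicCurve
  Fermat.Agent.RR Fermat.Agent.Cusp Fermat.Agent.RedMod Fermat.Agent.Spec Fermat.Agent.Curve
  Fermat.Agent.Red Fermat.Agent.ThmC Fermat.Agent.CarM Fermat.Agent.CarE Fermat.Agent.HeckeProd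

section Fricke

variable {K : Type*} [Field K] [IsAlgClosed K] [CharZero K] {N : ℕ} [hNp : Fact N.Prime]
  [NeZero N] (hN : (N : K) ≠ 0)

theorem fricke_uN : fricke hN (uN hN) = algebraMap K _ (((N : K) ^ 12)⁻¹) * (uN hN)⁻¹ := by
  have hN12 : ((N : K) ^ 12) ≠ 0 := pow_ne_zero _ hN
  obtain ⟨D⟩ := exists_data (k := K) N
  have h11 : ((pp N * 1 : ℕ+) : ℕ) ∣ N := by
    rw [mul_one]; exact dvd_rfl
  obtain ⟨j, hj⟩ : ∃ j : FF K N, j = jm K 1 (one_dvd _) := ⟨_, rfl⟩
  obtain ⟨jq, hjq⟩ : ∃ jq : FF K N, jq = jm K (pp N * 1) h11 := ⟨_, rfl⟩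
  have hcj : (j : LaurentSeries K) = Jc 1 1 := by rw [hj]; rfl
  have hcjq : (jq : LaurentSeries K) = Jc 1 (pp N * 1) := by rw [hjq]; rfl
  have hwj : fricke hN j = jq := by
    rw [hj, hjq]
    exact fricke_jm hN (m := 1) (m' := pp N * 1) (by simp)
  have hwjq : fricke hN jq = j := by rw [← hwj, fricke_fricke]
  -- the modular unit
  obtain ⟨W, hW⟩ : ∃ W : FF K N, W = algebraMap K _ ((N : K) ^ 12) * uN hN := ⟨_, rfl⟩
  have hcW : (W : LaurentSeries K) = Wm N K 1 := by
    rw [hW, MulMemClass.coe_mul]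
    change algebraMap K (LaurentSeries K) ((N : K) ^ 12) * rm K (pp N) = _
    rw [algebraMap_eq_C, Wm, rm, mul_one]
    ring
  have h1 : ev2 D.Q j jq = W * ev2 (dΦ N D) j jq := by
    apply Subtype.ext
    rw [MulMemClass.coe_mul, ModPoly.coe_ev2, ModPoly.coe_ev2, hcj, hcjq, hcW]
    exact rel_Q N D 1
  have h2 := congrArg (fricke hN) h1
  rw [map_mul] at h2
  have m1 : fricke hN (ev2 D.Q j jq) = ev2 D.Q jq j := by
    have := map_ev2 (fricke hN).toAlgHom D.Q j jq
    refine this.trans ?_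
    change ev2 D.Q (fricke hN j) (fricke hN jq) = _
    rw [hwj, hwjq]
  have m2 : fricke hN (ev2 (dΦ N D) j jq) = ev2 (dΦ N D) jq j := by
    have := map_ev2 (fricke hN).toAlgHom (dΦ N D) j jq
    refine this.trans ?_
    change ev2 (dΦ N D) (fricke hN j) (fricke hN jq) = _
    rw [hwj, hwjq]
  rw [m1, m2] at h2
  have h3 := congrArg Subtype.val h2
  rw [MulMemClass.coe_mul, ModPoly.coe_ev2, ModPoly.coe_ev2, hcj, hcjq] at h3
  have h4 := ev2_Q N D 1 1 (some 0)
  have hne := ev2_dΦ_ne_zero N D hN 1 1 (some 0)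
  have hJn : Jn N D.ζ 1 1 (some 0) = (Jc 1 1 : LaurentSeries K) := by
    simp only [Jn, ZMod.val_zero, pow_zero, mul_one]
  rw [hJn, one_pow] at h4 hne
  have h5 : (fricke hN W : LaurentSeries K) = ModPoly.Un N D.ζ 1 1 (some 0) :=
    mul_right_cancel₀ hne (h3.symm.trans h4)
  have h6 : (fricke hN W : LaurentSeries K) = ((uN hN)⁻¹ : FF K N) := by
    rw [h5]
    change _ = (rm K (pp N))⁻¹
    rw [rm, mul_inv, inv_inv, mul_comm]
    simp only [ModPoly.Un, ZMod.val_zero, pow_zero, mul_one, one_pow]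
  have h7 : fricke hN W = (uN hN)⁻¹ := Subtype.ext h6
  rw [hW, map_mul, AlgEquiv.commutes] at h7
  rw [← h7, ← mul_assoc, ← map_mul, inv_mul_cancel₀ hN12, map_one, one_mul]

theorem coeffAut_jm (σ : K ≃+* K) (m : ℕ+) (hm : (m : ℕ) ∣ N) :
    coeffAut N σ • jm K m hm = jm K m hm :=
  Subtype.ext (coeffMap_Jc_one _ m)

theorem coeffAut_algebraMap (σ : K ≃+* K) (a : K) :
    coeffAut N σ • algebraMap K (FF K N) a = algebraMap K (FF K N) (σ a) :=
  Subtype.ext (coeffMap_algebraMap (σ : K →+* K) a)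

/-- the Fricke involution is defined over the prime field -/
theorem fricke_coeffAut (σ : K ≃+* K) (x : FF K N) :
    fricke hN (coeffAut N σ • x) = coeffAut N σ • fricke hN x := by
  have h4 : x ∈ IntermediateField.adjoin K
      {x : FF K N | ∃ (m : ℕ+) (hm : (m : ℕ) ∣ N), x = jm K m hm} := by
    rw [adjoin_jm_eq_top]; exact IntermediateField.mem_top
  induction h4 using IntermediateField.adjoin_induction with
  | mem x hx =>
    obtain ⟨m, hm, rfl⟩ := hx
    obtain ⟨m', hm'⟩ := exists_compl (N := N) hm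
    rw [coeffAut_jm, fricke_jm hN hm', coeffAut_jm]
  | algebraMap x => rw [coeffAut_algebraMap, AlgEquiv.commutes, AlgEquiv.commutes,
      coeffAut_algebraMap]
  | add x y _ _ hx hy => rw [smul_add, map_add, hx, hy, map_add, smul_add]
  | inv x _ hx => rw [smul_inv₀', map_inv₀, hx, map_inv₀, smul_inv₀']
  | mul x y _ _ hx hy => rw [smul_mul', map_mul, hx, hy, map_mul, smul_mul']

end Fricke

section RootOne

/-- roots of unity in a Laurent series field are constant -/
theorem exists_C_of_pow_eq_one {K : Type*} [Field K] [IsAlgClosed K] [CharZero K]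
    {z : LaurentSeries K} {e : ℕ} (he : 0 < e) (hz : z ^ e = 1) : ∃ ζ : K, z = HahnSeries.C ζ := by
  haveI : NeZero e := ⟨he.ne'⟩
  obtain ⟨ξ, hξ⟩ := exists_zeta (k := K) (N := e) (Nat.cast_ne_zero.2 he.ne')
  have h0 : IsPrimitiveRoot (ξ : K) e := IsPrimitiveRoot.coe_units_iff.mpr hξ
  have h1 : IsPrimitiveRoot (HahnSeries.C (Γ := ℤ) (ξ : K)) e :=
    h0.map_of_injective (f := (HahnSeries.C : K →+* LaurentSeries K)) (HahnSeries.C_injective)
  obtain ⟨i, -, hi⟩ := h1.eq_pow_of_pow_eq_one hz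
  exact ⟨ξ ^ i, by rw [← hi, map_pow]⟩

theorem eq_of_pow_eq {K : Type*} [Field K] [IsAlgClosed K] [CharZero K]
    {x y : LaurentSeries K} {e : ℕ} (he : 0 < e) (h : x ^ e = y ^ e) (hx : x.leadingCoeff = 1)
    (hy : y.leadingCoeff = 1) : x = y := by
  have hy0 : y ≠ 0 := by
    rintro rfl
    simp at hy
  obtain ⟨ζ, hζ⟩ := exists_C_of_pow_eq_one (z := x / y) he (by
    rw [div_pow, h, div_self (pow_ne_zero _ hy0)])
  have h1 : x = HahnSeries.C ζ * y := by rw [← hζ, div_mul_cancel₀ _ hy0]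
  have h2 := congrArg HahnSeries.leadingCoeff h1
  rw [HahnSeries.leadingCoeff_mul, hx, hy, mul_one] at h2
  have h3 : (HahnSeries.C ζ : LaurentSeries K).leadingCoeff = ζ := by
    change (HahnSeries.single (0 : ℤ) ζ).leadingCoeff = ζ
    exact HahnSeries.leadingCoeff_of_single
  rw [h3] at h2
  rw [h1, ← h2, map_one, one_mul]

end RootOne

section Order

local notation "Qb" => AlgebraicClosure ℚ

variable {N : ℕ} [hNp : Fact N.Prime] [NeZero N] (hN : (N : Qb) ≠ 0)

theorem rat_pow {a : ℚ} {e : ℕ} (h : a ^ e * (N : ℚ) ^ 12 = 1) : e ∣ 12 := by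
  have hN0 : (N : ℚ) ≠ 0 := Nat.cast_ne_zero.2 hNp.out.ne_zero
  have ha : a ≠ 0 ∨ e = 0 := by
    by_contra hcon
    push Not at hcon
    rw [hcon.1, zero_pow hcon.2, zero_mul] at h
    exact zero_ne_one h
  rcases ha with ha | rfl
  · have h1 := congrArg (padicValRat N) h
    rw [padicValRat.mul (pow_ne_zero _ ha) (pow_ne_zero _ hN0), padicValRat.pow,
      padicValRat.pow, padicValRat.one, padicValRat.self hNp.out.one_lt] at h1
    have h2 : (e : ℤ) ∣ (12 : ℤ) := ⟨-padicValRat N a, by push_cast at h1; linarith⟩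
    exact_mod_cast h2
  · exfalso
    rw [pow_zero, one_mul] at h
    have h1 : (N : ℕ) ^ 12 = 1 := by exact_mod_cast h
    have := hNp.out.one_lt
    have h2 := Nat.one_lt_pow (n := 12) (by norm_num) this
    omega

theorem leadingCoeff_uN : ((uN hN : FF Qb N) : LaurentSeries Qb).leadingCoeff = 1 := by
  have h4 : ((uN hN : FF Qb N) : LaurentSeries Qb) * Dc 1 1 = Dc 1 (pp N) := by
    change rm Qb (pp N) * Dc 1 1 = _
    rw [rm, mul_assoc, inv_mul_cancel₀ (Dc_ne_zero _ _), mul_one]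
  have h5 := congrArg HahnSeries.leadingCoeff h4
  have h1 : (Dc 1 1 : LaurentSeries Qb).leadingCoeff = 1 := by
    rw [HahnSeries.leadingCoeff_eq, order_Dc, Dc_one_one']
    exact coeff_deltaC_one Qb
  have h2 : (Dc 1 (pp N) : LaurentSeries Qb).leadingCoeff = 1 := by
    haveI : NeZero ((pp N : ℕ+) : ℕ) := ⟨hNp.out.ne_zero⟩
    rw [HahnSeries.leadingCoeff_eq, order_Dc, Dc_one_pp Qb (pp N), Dc_one_one']
    have := qExpand_coeff_mul ((pp N : ℕ+) : ℕ) (deltaC Qb) 1
    rw [mul_one] at this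
    rw [this]
    exact coeff_deltaC_one Qb
  rw [HahnSeries.leadingCoeff_mul, h1, h2, mul_one] at h5
  exact h5

variable [FunField Qb (FF Qb N)]

/-- **the order of the cuspidal class in characteristic zero** -/
theorem dvd_of_principal_zero {g : FF Qb N} (hg : g ≠ 0) {m : ℤ}
    (h : divisor Qb g = m • (Finsupp.single (cuspInf Qb N) 1 - Finsupp.single (cusp0 hN) 1)) :
    ((N : ℤ) - 1) ∣ 12 * m := by
  have hN1 := hNp.out.one_lt
  have hu : divisor Qb (uN hN) = ((N : ℤ) - 1) •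
      (Finsupp.single (cuspInf Qb N) 1 - Finsupp.single (cusp0 hN) 1) := by
    rw [divisor_u, smul_sub, Finsupp.smul_single, Finsupp.smul_single, smul_eq_mul, mul_one]
  obtain ⟨g', hg', hg'D⟩ := exists_gcd hg (uN_ne hN) h hu
  obtain ⟨s, hs⟩ : ∃ s : ℕ, s = Int.gcd m ((N : ℤ) - 1) := ⟨_, rfl⟩
  rw [← hs] at hg'D
  have hs1 : (s : ℤ) ∣ m := by rw [hs]; exact Int.gcd_dvd_left _ _
  have hs2 : (s : ℤ) ∣ (N : ℤ) - 1 := by rw [hs]; exact Int.gcd_dvd_right _ _
  obtain ⟨e₀, he₀⟩ := hs2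
  obtain ⟨e, rfl⟩ : ∃ e : ℕ, e₀ = e := by
    refine ⟨e₀.toNat, (Int.toNat_of_nonneg ?_).symm⟩
    by_contra hcon
    push Not at hcon
    have : (s : ℤ) * e₀ ≤ 0 := mul_nonpos_of_nonneg_of_nonpos (Int.natCast_nonneg _) hcon.le
    omega
  have he0 : 0 < e := by
    rcases Nat.eq_zero_or_pos e with rfl | h0
    · rw [Nat.cast_zero, mul_zero] at he₀
      omega
    · exact h0
  -- `u` is an `e`-th power
  have h1 : divisor Qb (uN hN) = divisor Qb (g' ^ e) := by
    ext v
    have e1 := DFunLike.congr_fun hg'D v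
    rw [divisor_apply, Finsupp.smul_apply, smul_eq_mul] at e1
    have e2 : v.ord (g' ^ e) = e * v.ord g' := by
      have := v.ord_zpow g' e
      rwa [zpow_natCast] at this
    rw [hu, he₀, divisor_apply, e2, e1, Finsupp.smul_apply, smul_eq_mul]
    ring
  obtain ⟨c, hc, h2⟩ := exists_const_mul (uN_ne hN) (pow_ne_zero _ hg') h1
  obtain ⟨c', hc'⟩ := IsAlgClosed.exists_pow_nat_eq c he0
  obtain ⟨g₂, hg₂⟩ : ∃ g₂ : FF Qb N, g₂ = algebraMap Qb _ c' * g' := ⟨_, rfl⟩
  have h3 : g₂ ^ e = uN hN := by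
    rw [hg₂, mul_pow, ← map_pow, hc', h2]
  have hg₂0 : (g₂ : LaurentSeries Qb) ≠ 0 := by
    intro h0
    have : g₂ = 0 := Subtype.ext h0
    rw [this, zero_pow he0.ne'] at h3
    exact uN_ne hN h3.symm
  obtain ⟨lam, hlam⟩ : ∃ lam : Qb, lam = (g₂ : LaurentSeries Qb).leadingCoeff := ⟨_, rfl⟩
  have hlam0 : lam ≠ 0 := by rw [hlam]; exact HahnSeries.leadingCoeff_ne_zero.2 hg₂0
  have hlame : lam ^ e = 1 := by
    have h4 := congrArg (fun x : FF Qb N => (x : LaurentSeries Qb).leadingCoeff) h3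
    simp only [SubmonoidClass.coe_pow] at h4
    rw [leadingCoeff_uN] at h4
    rw [hlam]
    have h5 : ∀ n : ℕ, ((g₂ : LaurentSeries Qb) ^ n).leadingCoeff =
        (g₂ : LaurentSeries Qb).leadingCoeff ^ n := by
      intro n
      induction n with
      | zero => simp
      | succ n ih => rw [pow_succ, HahnSeries.leadingCoeff_mul, ih, pow_succ]
    rw [← h5]
    exact h4
  obtain ⟨f, hf⟩ : ∃ f : FF Qb N, f = algebraMap Qb _ lam⁻¹ * g₂ := ⟨_, rfl⟩
  have hfe : f ^ e = uN hN := by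
    rw [hf, mul_pow, ← map_pow, inv_pow, hlame, inv_one, map_one, one_mul, h3]
  have hf1 : (f : LaurentSeries Qb).leadingCoeff = 1 := by
    have h5 : (f : LaurentSeries Qb) = HahnSeries.C lam⁻¹ * (g₂ : LaurentSeries Qb) := by
      rw [hf, ← algebraMap_eq_C]; rfl
    have h6 : (HahnSeries.C lam⁻¹ : LaurentSeries Qb).leadingCoeff = lam⁻¹ := by
      change (HahnSeries.single (0 : ℤ) lam⁻¹).leadingCoeff = _
      exact HahnSeries.leadingCoeff_of_single
    rw [h5, HahnSeries.leadingCoeff_mul, h6, ← hlam, inv_mul_cancel₀ hlam0]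
  -- Galois invariance
  have hgal : ∀ σ : Qb ≃+* Qb, coeffAut N σ • f = f := by
    intro σ
    apply Subtype.ext
    have h5 : (coeffAut N σ • f) ^ e = f ^ e := by
      rw [← smul_pow', hfe]
      exact Subtype.ext (CarM.coeffMap_rm _ _)
    have h6 := congrArg (fun x : FF Qb N => (x : LaurentSeries Qb)) h5
    simp only [SubmonoidClass.coe_pow] at h6
    refine eq_of_pow_eq he0 h6 ?_ hf1
    rw [coe_coeffAut_smul, HahnSeries.leadingCoeff_eq]
    have h7 : (coeffMap (σ : Qb →+* Qb) (f : LaurentSeries Qb)).order =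
        (f : LaurentSeries Qb).order := by
      refine ModPoly.order_eq_of ?_ ?_
      · rw [coeffMap_coeff]
        rw [HahnSeries.leadingCoeff_eq] at hf1
        rw [hf1, map_one]
        exact one_ne_zero
      · intro n hn
        rw [coeffMap_coeff, HahnSeries.coeff_eq_zero_of_lt_order hn, map_zero]
    rw [h7, coeffMap_coeff, ← HahnSeries.leadingCoeff_eq, hf1, map_one]
  -- the constant
  have hy : (fricke hN f * f) ^ e = algebraMap Qb (FF Qb N) (((N : Qb) ^ 12)⁻¹) := by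
    rw [mul_pow, ← map_pow, hfe, fricke_uN, mul_assoc, inv_mul_cancel₀ (uN_ne hN), mul_one]
  have halg : IsAlgebraic Qb (fricke hN f * f) := by
    refine ⟨Polynomial.X ^ e - Polynomial.C (((N : Qb) ^ 12)⁻¹), ?_, ?_⟩
    · exact (Polynomial.monic_X_pow_sub_C _ he0.ne').ne_zero
    · rw [map_sub, map_pow, aeval_X, aeval_C, hy, sub_self]
  obtain ⟨κ, hκ⟩ := mem_range_of_isAlgebraic halg
  have hκe : κ ^ e = ((N : Qb) ^ 12)⁻¹ := by
    apply (algebraMap Qb (FF Qb N)).injective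
    rw [map_pow]
    exact (congrArg (· ^ e) hκ).trans hy
  have hκgal : ∀ σ : Qb ≃ₐ[ℚ] Qb, σ κ = κ := by
    intro σ
    apply (algebraMap Qb (FF Qb N)).injective
    have h5 := coeffAut_algebraMap (N := N) σ.toRingEquiv κ
    have h6 : algebraMap Qb (FF Qb N) κ = fricke hN f * f := hκ
    rw [h6, smul_mul', ← fricke_coeffAut, hgal, ← h6] at h5
    exact h5.symm
  obtain ⟨a, ha⟩ : κ ∈ Set.range (algebraMap ℚ Qb) :=
    (InfiniteGalois.mem_range_algebraMap_iff_fixed κ).2 hκgal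
  have h8 : a ^ e * (N : ℚ) ^ 12 = 1 := by
    apply (algebraMap ℚ Qb).injective
    rw [map_mul, map_pow, map_pow, map_natCast, map_one, ha, hκe,
      inv_mul_cancel₀ (pow_ne_zero _ hN)]
  have h9 := rat_pow h8
  have h10 : (e : ℤ) ∣ 12 := by exact_mod_cast h9
  rw [he₀, mul_comm (s : ℤ)]
  exact mul_dvd_mul h10 hs1

end Order

end Fermat.Agent.Mz
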