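import Fermat.Agent.Mz.Ker

/-!
# Mazur's argument: the specializations of a rational point of prime order
-/

set_option autoImplicit false
set_option linter.style.haveILetI false
set_option linter.unusedSectionVars false
set_option synthInstance.maxHeartbeats 400000

noncomputable section

namespace Fermat.Agent.Mz

open ModularCurve Polynomial IntermediateField Fermat.Agent.ModPoly AlgebraicCurve
  Fermat.Agent.RR Fermat.Agent.Cusp Fermat.Agent.RedMod Fermat.Agent.Spec Fermat.Agent.Curve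
  Fermat.Agent.Red Fermat.Agent.HeckeProd LevelRed

local notation "Qb" => AlgebraicClosure ℚ

section Ptd

variable {K F : Type*} [Field K] [IsAlgClosed K] [Field F] [Algebra K F] [FunField K F]

theorem ptd_mem (x y : Place K F) : Finsupp.single x 1 - Finsupp.single y 1 ∈
    Divisor.degZero (K := K) (F := F) := by
  rw [Divisor.mem_degZero, map_sub, degree_single', degree_single', sub_self]

/-- the class `[x] - [y]` -/
def ptd (x y : Place K F) : Pic0 K F := Pic0.mk ⟨_, ptd_mem x y⟩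

theorem ptd_add (x y z : Place K F) : ptd x y + ptd y z = ptd x z := by
  refine congrArg Pic0.mk (a₁ := ⟨_, ptd_mem x y⟩ + ⟨_, ptd_mem y z⟩) (Subtype.ext ?_)
  exact sub_add_sub_cancel _ _ _

theorem smul_ptd (g : SemilinearAut K F) (x y : Place K F) :
    g • ptd x y = ptd (g • x) (g • y) := by
  rw [ptd, SemilinearAut.pic0_smul_mk]
  refine congrArg Pic0.mk (Subtype.ext ?_)
  rw [SemilinearAut.coe_degZeroSMulHom]
  change g • (Finsupp.single x 1 - Finsupp.single y 1) = _
  rw [smul_sub, SemilinearAut.smul_single, SemilinearAut.smul_single]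

theorem zsmul_ptd (m : ℤ) (x y : Place K F) (h : m • (Finsupp.single x (1 : ℤ) -
    Finsupp.single y 1) ∈ Divisor.degZero (K := K) (F := F)) :
    m • ptd x y = Pic0.mk ⟨_, h⟩ := by
  refine congrArg Pic0.mk (a₁ := m • ⟨_, ptd_mem x y⟩) (Subtype.ext ?_)
  rfl

theorem zsmul_ptd_mem (m : ℤ) (x y : Place K F) : m • (Finsupp.single x (1 : ℤ) -
    Finsupp.single y 1) ∈ Divisor.degZero (K := K) (F := F) :=
  zsmul_mem (ptd_mem x y) m

theorem zsmul_ptd_eq_zero {m : ℤ} {x y : Place K F} (h : m • ptd x y = 0) :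
    ∃ g : F, g ≠ 0 ∧ divisor K g = m • (Finsupp.single x 1 - Finsupp.single y 1) := by
  rw [zsmul_ptd m x y (zsmul_ptd_mem m x y), pic0_mk_eq_zero] at h
  obtain ⟨g, hg, h1⟩ := isPrincipal_iff.1 h
  exact ⟨g, hg, h1.symm⟩

theorem zsmul_ptd_of_divisor {m : ℤ} {x y : Place K F} {g : F} (hg : g ≠ 0)
    (h : divisor K g = m • (Finsupp.single x 1 - Finsupp.single y 1)) : m • ptd x y = 0 := by
  rw [zsmul_ptd m x y (zsmul_ptd_mem m x y), pic0_mk_eq_zero]
  exact isPrincipal_iff.2 ⟨g, hg, h.symm⟩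

end Ptd

section Spz

attribute [local instance] algI isScalarTower_algI

variable {A K k : Type*} [CommRing A] [IsDomain A] [ValuationRing A]
  [Field K] [IsAlgClosed K] [CharZero K] [Algebra A K] [IsFractionRing A K] [Field k]
  [IsAlgClosed k] [Algebra A k] {hk : Function.Surjective (algebraMap A k)} {N : ℕ}
  {E : IntermediateField K (LaurentSeries K)} [FunField K E]
  [FunField k (FF k N)] (S : LevelRed hk E (FF k N))

theorem sp_ptd {x y : Place K E}
    (h : S.D.r (Finsupp.single x 1) = S.D.r (Finsupp.single y 1)) : S.D.sp (ptd x y) = 0 := by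
  rw [ptd, DivRed.sp_mk_eq_zero]
  have h1 : S.D.r (Finsupp.single x 1 - Finsupp.single y 1) = 0 := by
    rw [map_sub, h, sub_self]
  refine isPrincipal_iff.2 ⟨1, one_ne_zero, ?_⟩
  refine h1.trans ?_
  ext v
  rw [divisor_apply, Place.ord_one]
  rfl

variable (hE : E = FF K N) [hNp : Fact N.Prime] [NeZero N] (hNk : (N : k) ≠ 0)
  (c : CuspData K N E)

include hE in
theorem CuspData.sp_cl {m : ℤ} (h : S.D.sp (m • ptd c.cI c.cZ) = 0) :
    ∃ g : FF k N, g ≠ 0 ∧ divisor k g = m • (Finsupp.single (cuspInf k N) 1 -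
      Finsupp.single (cusp0 hNk) 1) := by
  obtain ⟨h1, h2⟩ := c.r_cusps hE S hNk
  rw [zsmul_ptd m _ _ (zsmul_ptd_mem m _ _), DivRed.sp_mk_eq_zero] at h
  have h3 : S.D.r (m • (Finsupp.single c.cI 1 - Finsupp.single c.cZ 1)) =
      m • (Finsupp.single (cuspInf k N) 1 - Finsupp.single (cusp0 hNk) 1) := by
    rw [map_zsmul, map_sub, h1, h2]
  obtain ⟨g, hg, h4⟩ := isPrincipal_iff.1 h
  exact ⟨g, hg, h4.symm.trans h3⟩

end Spz

section Zero

variable {N : ℕ} [hNp : Fact N.Prime] [NeZero N] {E : IntermediateField Qb (LaurentSeries Qb)}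
  (hE : E = FF Qb N) [FunField Qb E] (c : CuspData Qb N E)

include hE in
theorem CuspData.dvd_zero {m : ℤ} (h : m • ptd c.cI c.cZ = 0) : ((N : ℤ) - 1) ∣ 12 * m := by
  obtain ⟨g, hg, h1⟩ := zsmul_ptd_eq_zero h
  subst hE
  have hNK : (N : Qb) ≠ 0 := Nat.cast_ne_zero.2 (NeZero.ne N)
  obtain ⟨-, -, e3, e4⟩ := c.eqs hNK
  rw [e3, e4] at h1
  exact dvd_of_principal_zero hNK hg h1

end Zero

section Gal

variable {N : ℕ} [hNp : Fact N.Prime] [NeZero N] (c : CuspData Qb N (EB Qb N))

theorem CuspData.gal_cZ (σ : Qb ≃ₐ[ℚ] Qb) :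
    arithmeticGalois (modularFunctionFieldFull N) σ • c.cZ = c.cZ := by
  have hN1 := hNp.out.one_lt
  have hE : EB Qb N = FF Qb N := Fermat.Agent.X0Genus.baseChange_eq Qb N
  have hNK : (N : Qb) ≠ 0 := Nat.cast_ne_zero.2 (NeZero.ne N)
  have h1 : (arithmeticGalois (modularFunctionFieldFull N) σ • c.cZ).ord c.jE = -(N : ℤ) := by
    have h2 := SemilinearAut.ord_smul (arithmeticGalois (modularFunctionFieldFull N) σ) c.cZ c.jE
    rw [gal_jE, c.hZ] at h2
    exact h2
  rcases c.cusp_or hE hNK (v := arithmeticGalois (modularFunctionFieldFull N) σ • c.cZ)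
    (by rw [h1]; omega) with h | h
  · rw [h, c.hI, c.hj, order_Jc] at h1
    have : ((1 : ℕ+) : ℕ) = 1 := rfl
    rw [this] at h1
    omega
  · exact h

end Gal

end Fermat.Agent.Mz
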