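import Fermat.Agent.Mz.PlB
import Fermat.Agent.Places.Existence

/-!
# The rational point and its reductions
-/

set_option autoImplicit false
set_option linter.style.haveILetI false
set_option linter.unusedSectionVars false

noncomputable section

namespace Fermat.Agent.Mz

open ModularCurve Polynomial IntermediateField Fermat.Agent.ModPoly AlgebraicCurve
  Fermat.Agent.RR Fermat.Agent.Cusp Fermat.Agent.RedMod Fermat.Agent.Spec Fermat.Agent.Curve
  Fermat.Agent.Red Fermat.Agent.ThmC Fermat.Agent.CarM Fermat.Agent.CarE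
  WeierstrassCurve.Affine Fermat.Agent.EC Fermat.Agent.CL

set_option synthInstance.maxHeartbeats 400000

local notation "Qb" => AlgebraicClosure ℚ

attribute [local instance] algI isScalarTower_algI

variable {N : ℕ} [hNp : Fact N.Prime] [NeZero N]

theorem c6_ne {W : WeierstrassCurve ℤ} (h2c : ¬ (2 : ℤ) ∣ W.c₄) : W.c₆ ≠ 0 := by
  intro h
  have h1 := W.c_relation
  rw [h] at h1
  apply h2c
  apply Int.prime_two.dvd_of_dvd_pow (n := 3)
  exact ⟨864 * W.Δ, by linear_combination -h1⟩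

section Loc

variable {W : WeierstrassCurve ℤ} {A : ValuationSubring Qb} {ℓ : ℕ}

theorem val_N (hℓ : ℓ.Prime) (hℓN : ℓ ≠ N) (hA : A.LiesOverPrime ℓ) :
    A.valuation (N : Qb) = 1 := by
  have h1 : ¬ (ℓ : ℤ) ∣ (N : ℤ) := by
    intro h
    exact hℓN ((Nat.prime_dvd_prime_iff_eq hℓ hNp.out).1 (by exact_mod_cast h))
  have h2 : A.valuation (ℓ : Qb) < 1 := hA
  have := val_int_eq_one_of_not_dvd A.valuation hℓ h2 h1
  rwa [Int.cast_natCast] at this

theorem val_cj (hℓ : ℓ.Prime) (hΔ : W.Δ ≠ 0) (hd : (ℓ : ℤ) ∣ W.Δ) (hc : ¬ (ℓ : ℤ) ∣ W.c₄)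
    (hA : A.LiesOverPrime ℓ) : 1 < A.valuation (cjW W) := by
  have h2 : A.valuation (ℓ : Qb) < 1 := hA
  have h3 := val_int_eq_one_of_not_dvd A.valuation hℓ h2 hc
  have h4 := val_int_lt A.valuation h2 hd
  rw [cjW, map_div₀, map_pow, h3, one_pow]
  exact one_lt_div₀ (zero_lt_iff.2 ((_root_.map_ne_zero _).2 (by exact_mod_cast hΔ))) |>.2 h4

theorem val_eps {ε : ℤ} (hε : ε = 1 ∨ ε = -1) : A.valuation (ε : Qb) = 1 := by
  rcases hε with rfl | rfl
  · simp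
  · simp

theorem inZero_of_nsmul (hMlt : IsMult A.valuation (WQ W)) {Q : (WQ W).toAffine.Point}
    (hQ : addOrderOf Q = N) {m : ℕ} (hm0 : 0 < m) (hmN : m < N)
    (h : W.InZeroComponentAt A (m • Q)) : W.InZeroComponentAt A Q := by
  have hco : Nat.Coprime m N := by
    rw [Nat.coprime_comm, hNp.out.coprime_iff_not_dvd]
    intro h
    exact absurd (Nat.le_of_dvd hm0 h) (by omega)
  obtain ⟨m', hm'⟩ := Nat.exists_mul_mod_eq_one_of_coprime hco hNp.out.one_lt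
  have h1 := inZero_nsmul hMlt m' h
  have h2 : m' • m • Q = Q := by
    rw [← mul_nsmul, ← Nat.div_add_mod (m * m') N, hm'.2, add_nsmul, one_nsmul, mul_nsmul, ← hQ,
      addOrderOf_nsmul_eq_zero, smul_zero, zero_add]
  rwa [h2] at h1

theorem order_nsmul {Q : (WQ W).toAffine.Point}
    (hQ : addOrderOf Q = N) {m : ℕ} (hm0 : 0 < m) (hmN : m < N) : addOrderOf (m • Q) = N := by
  have hco : Nat.Coprime N m := by
    rw [hNp.out.coprime_iff_not_dvd]
    intro h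
    exact absurd (Nat.le_of_dvd hm0 h) (by omega)
  rw [← hQ] at hco
  rw [hco.addOrderOf_nsmul, hQ]

theorem val_cu_in (hodd : Odd N) (hℓ : ℓ.Prime) (hℓN : ℓ ≠ N) (hΔ : W.Δ ≠ 0) (hd : (ℓ : ℤ) ∣ W.Δ)
    (hc : ¬ (ℓ : ℤ) ∣ W.c₄) (hA : A.LiesOverPrime ℓ) {ε : ℤ} (hε : ε = 1 ∨ ε = -1)
    {P : (WQ W).toAffine.Point} (hP : addOrderOf P = N) (h : W.InZeroComponentAt A P) :
    A.valuation (cuW N W ε P) < 1 := by
  have h1 := hNp.out.one_lt
  have h2 : A.valuation (ℓ : Qb) < 1 := hA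
  have h4 := val_int_lt A.valuation h2 hd
  have hM := isMult_WQ hΔ hℓ hd hc hA
  rw [cuW, map_div₀, map_mul, map_mul, map_pow, map_pow, map_pow, val_N hℓ hℓN hA, val_eps hε,
    PiQ_unit hM hodd (val_N hℓ hℓN hA) hP h, one_pow, one_pow, one_mul, one_mul, div_one]
  exact pow_lt_one₀ zero_le h4 (by omega)

theorem val_cu_out (hodd : Odd N) (hℓ : ℓ.Prime) (hℓN : ℓ ≠ N) (hΔ : W.Δ ≠ 0)
    (hd : (ℓ : ℤ) ∣ W.Δ)
    (hc : ¬ (ℓ : ℤ) ∣ W.c₄) (hA : A.LiesOverPrime ℓ) {ε : ℤ} (hε : ε = 1 ∨ ε = -1)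
    {P : (WQ W).toAffine.Point} (hP : addOrderOf P = N) (h : ¬ W.InZeroComponentAt A P)
    (hPi : PiQ W N P ≠ 0) :
    1 < A.valuation (cuW N W ε P * cjW W ^ (N - 1)) := by
  have h1 := hNp.out.one_lt
  have h2 : A.valuation (ℓ : Qb) < 1 := hA
  have h3 := val_int_eq_one_of_not_dvd A.valuation hℓ h2 hc
  have hM := isMult_WQ hΔ hℓ hd hc hA
  have hΔ' : (W.Δ : Qb) ≠ 0 := by exact_mod_cast hΔ
  have hN0 : (N : Qb) ≠ 0 := Nat.cast_ne_zero.2 hNp.out.ne_zero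
  have e : cuW N W ε P * cjW W ^ (N - 1) =
      ε * ((W.c₄ : Qb) ^ 3) ^ (N - 1) / ((N : Qb) ^ 12 * PiQ W N P ^ 2) := by
    rw [cuW, cjW, div_pow, div_mul_div_comm, div_eq_div_iff (mul_ne_zero (mul_ne_zero
      (pow_ne_zero _ hN0) (pow_ne_zero _ hPi)) (pow_ne_zero _ hΔ')) (mul_ne_zero
      (pow_ne_zero _ hN0) (pow_ne_zero _ hPi))]
    ring
  rw [e, map_div₀, map_mul, map_mul, map_pow, map_pow, map_pow, map_pow, h3, val_N hℓ hℓN hA,
    val_eps hε, one_pow, one_pow, one_pow, one_mul, one_mul]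
  refine (one_lt_div₀ (zero_lt_iff.2 (pow_ne_zero _ ((_root_.map_ne_zero _).2 hPi)))).2 ?_
  exact pow_lt_one₀ zero_le (PiQ_small hM hodd h1 (val_N hℓ hℓN hA) hP h) two_ne_zero

end Loc

/-- the rational point attached to `(W, Q)`, and its reductions, general form -/
theorem point_spec_gen (hodd : Odd N) (hN3 : 3 ≤ N) (W : WeierstrassCurve ℤ) (hΔ : W.Δ ≠ 0)
    (Q : ((W.map (Int.castRingHom ℚ))⁄Qb).Point)
    (hfix : ∀ (σ : Qb ≃ₐ[ℚ] Qb) (ε : ℤ) (m : ℕ), 0 < m → m < N →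
      σ (cuW N W ε (m • Q)) = cuW N W ε (m • Q)) (hQord : addOrderOf Q = N)
    (h2Δ : (2 : ℤ) ∣ W.Δ) (h2c₄ : ¬ (2 : ℤ) ∣ W.c₄) [FunField Qb (EB Qb N)]
    (c : CuspData Qb N (EB Qb N)) :
    ∃ x : Place Qb (EB Qb N),
      (∀ σ : Qb ≃ₐ[ℚ] Qb, arithmeticGalois (modularFunctionFieldFull N) σ • x = x) ∧
      ∀ ℓ : ℕ, ℓ.Prime → ℓ ≠ N → (ℓ : ℤ) ∣ W.Δ → ¬ (ℓ : ℤ) ∣ W.c₄ → ∀ A : ValuationSubring Qb,
        A.LiesOverPrime ℓ → ∀ (_ : IsAlgClosed (IsLocalRing.ResidueField A))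
        (_ : FunField (IsLocalRing.ResidueField A) (FF (IsLocalRing.ResidueField A) N))
        (hk : Function.Surjective (algebraMap A (IsLocalRing.ResidueField A)))
        (S : LevelRed hk (EB Qb N) (FF (IsLocalRing.ResidueField A) N)),
        (W.InZeroComponentAt A Q →
          S.D.r (Finsupp.single x 1) = S.D.r (Finsupp.single c.cI 1)) ∧
        (¬ W.InZeroComponentAt A Q →
          S.D.r (Finsupp.single x 1) = S.D.r (Finsupp.single c.cZ 1)) := by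
  have hc4 : W.c₄ ≠ 0 := by
    intro h
    rw [h] at h2c₄
    exact h2c₄ (dvd_zero _)
  have hE : EB Qb N = FF Qb N := Fermat.Agent.X0Genus.baseChange_eq Qb N
  obtain ⟨m, hm0, hmN, hPi, ε, hε, x, hx1, hx2⟩ :=
    exists_place W hΔ hc4 (c6_ne h2c₄) hN3 c hQord
  refine ⟨x, ?_, ?_⟩
  · intro σ
    have h1 := gal_val σ hx1
    have h2 := gal_val σ hx2
    rw [gal_jE, cjW_fixed] at h1
    rw [gal_uE, hfix σ ε m hm0 hmN] at h2
    -- a prime of residue characteristic 2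
    obtain ⟨A, hA⟩ := Fermat.Agent.Places.exists_liesOverPrime Qb Nat.prime_two
    haveI : Fact (Nat.Prime 2) := ⟨Nat.prime_two⟩
    have hN2 : ¬ 2 ∣ N := by
      rw [← even_iff_two_dvd, Nat.not_even_iff_odd]; exact hodd
    have hNk : (N : IsLocalRing.ResidueField A) ≠ 0 := natCast_residue_ne_zero hA hN2
    haveI : IsAlgClosed (IsLocalRing.ResidueField A) := isAlgClosed_residueField A
    haveI := funField_FF (k := IsLocalRing.ResidueField A) (M := N) hNk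
    obtain ⟨S⟩ := nonempty_levelRed (A := A) (K := Qb) (k := IsLocalRing.ResidueField A)
      exists_ιC.some IsLocalRing.residue_surjective
      (N := N) hNk (EB Qb N) hE
    exact c.unique (A := A) (k := IsLocalRing.ResidueField A) hE hNk h1 h2 hx1 hx2
      (lg_iff.2 (val_cj Nat.prime_two hΔ h2Δ h2c₄ hA)) S
  · intro ℓ hℓ hℓN hd hc A hA _ _ hk S
    haveI : Fact ℓ.Prime := ⟨hℓ⟩
    have hℓN' : ¬ ℓ ∣ N := fun h => hℓN ((Nat.prime_dvd_prime_iff_eq hℓ hNp.out).1 h)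
    have hNk : (N : IsLocalRing.ResidueField A) ≠ 0 := natCast_residue_ne_zero hA hℓN'
    have hM := isMult_WQ hΔ hℓ hd hc hA
    have hmQ := order_nsmul hQord hm0 hmN
    have key := c.disc (A := A) hE S hNk hx1 hx2 (lg_iff.2 (val_cj hℓ hΔ hd hc hA))
    constructor
    · intro h
      rcases key with ⟨h1, -, -⟩ | ⟨-, h1⟩
      · exact h1
      · have h2 := val_cu_in hodd hℓ hℓN hΔ hd hc hA hε hmQ (inZero_nsmul hM m h)
        rw [lg_iff] at h1
        exact absurd h1 (not_lt.2 h2.le)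
    · intro h
      rcases key with ⟨-, -, h1⟩ | ⟨h1, -⟩
      · have h2 := val_cu_out hodd hℓ hℓN hΔ hd hc hA hε hmQ
          (fun h' => h (inZero_of_nsmul hM hQord hm0 hmN h')) hPi
        rw [un_iff] at h1
        exact absurd h2 (by rw [h1]; exact lt_irrefl _)
      · exact h1

/-- **The rational point attached to `(W, Q)`**, and its reductions. -/
theorem point_spec (hodd : Odd N) (hN3 : 3 ≤ N) (W : WeierstrassCurve ℤ) (hΔ : W.Δ ≠ 0)
    (Q : ((W.map (Int.castRingHom ℚ))⁄Qb).Point)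
    (hQfix : ∀ σ : Qb ≃ₐ[ℚ] Qb, σ • Q = Q) (hQord : addOrderOf Q = N)
    (h2Δ : (2 : ℤ) ∣ W.Δ) (h2c₄ : ¬ (2 : ℤ) ∣ W.c₄) [FunField Qb (EB Qb N)]
    (c : CuspData Qb N (EB Qb N)) :
    ∃ x : Place Qb (EB Qb N),
      (∀ σ : Qb ≃ₐ[ℚ] Qb, arithmeticGalois (modularFunctionFieldFull N) σ • x = x) ∧
      ∀ ℓ : ℕ, ℓ.Prime → ℓ ≠ N → (ℓ : ℤ) ∣ W.Δ → ¬ (ℓ : ℤ) ∣ W.c₄ → ∀ A : ValuationSubring Qb,
        A.LiesOverPrime ℓ → ∀ (_ : IsAlgClosed (IsLocalRing.ResidueField A))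
        (_ : FunField (IsLocalRing.ResidueField A) (FF (IsLocalRing.ResidueField A) N))
        (hk : Function.Surjective (algebraMap A (IsLocalRing.ResidueField A)))
        (S : LevelRed hk (EB Qb N) (FF (IsLocalRing.ResidueField A) N)),
        (W.InZeroComponentAt A Q →
          S.D.r (Finsupp.single x 1) = S.D.r (Finsupp.single c.cI 1)) ∧
        (¬ W.InZeroComponentAt A Q →
          S.D.r (Finsupp.single x 1) = S.D.r (Finsupp.single c.cZ 1)) :=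
  point_spec_gen hodd hN3 W hΔ Q
    (fun σ _ m _ _ => cuW_fixed (P := m • Q) σ (nsmul_fixed σ (hQfix σ) m) _)
    hQord h2Δ h2c₄ c

/-! ### Galois stable subgroups -/

theorem psq_equiv {W : WeierstrassCurve ℤ} (P : ((W.map (Int.castRingHom ℚ))⁄Qb).Point)
    (σ : Qb ≃ₐ[ℚ] Qb) : σ (psq (WQ W) P) = psq (WQ W) (σ • P) := by
  rcases P with _ | ⟨x, y, hns⟩
  · change σ 1 = 1
    exact map_one σ
  · change σ ((2 * y + (WQ W).a₁ * x + (WQ W).a₃) ^ 2) =
      (2 * σ y + (WQ W).a₁ * σ x + (WQ W).a₃) ^ 2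
    rw [c1, c3]
    simp only [map_pow, map_add, map_mul, map_ofNat, map_intCast]

theorem nsmul_equiv {W : WeierstrassCurve ℤ} (P : ((W.map (Int.castRingHom ℚ))⁄Qb).Point)
    (σ : Qb ≃ₐ[ℚ] Qb) (k : ℕ) : σ • (k • P) = k • (σ • P) := by
  have := Point.algEquiv_smul_zsmul σ (k : ℤ) P
  rwa [natCast_zsmul, natCast_zsmul] at this

theorem PiQ_equiv {W : WeierstrassCurve ℤ} (P : ((W.map (Int.castRingHom ℚ))⁄Qb).Point)
    (σ : Qb ≃ₐ[ℚ] Qb) : σ (PiQ W N P) = PiQ W N (show (WQ W).toAffine.Point from σ • P) := by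
  rw [PiQ, map_prod, PiQ]
  refine Finset.prod_congr rfl fun k _ => ?_
  refine (psq_equiv (W := W) (k • P) σ).trans ?_
  exact congrArg (psq (WQ W)) (nsmul_equiv P σ k)

/-- the product depends only on the subgroup -/
theorem PiQ_nsmul {W : WeierstrassCurve ℤ} {P : (WQ W).toAffine.Point} (hP : addOrderOf P = N)
    {m : ℕ} (hm : m.Coprime N) : PiQ W N (m • P) = PiQ W N P := by
  have hmod : ∀ a : ℕ, (a % N) • P = a • P := by
    intro a
    conv_rhs => rw [← Nat.div_add_mod a N, add_nsmul, mul_nsmul, ← hP, addOrderOf_nsmul_eq_zero,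
      smul_zero, zero_add]
    rw [hP]
  rw [PiQ, PiQ]
  refine Finset.prod_bij (fun k _ => (k * m) % N) ?_ ?_ ?_ ?_
  · intro k hk
    rw [Finset.mem_erase, Finset.mem_range] at hk ⊢
    refine ⟨?_, Nat.mod_lt _ hNp.out.pos⟩
    intro h0
    have h1 : N ∣ k * m := Nat.dvd_of_mod_eq_zero h0
    have h2 : N ∣ k := (hm.symm).dvd_of_dvd_mul_right h1
    have := Nat.le_of_dvd (Nat.pos_of_ne_zero hk.1) h2
    omega
  · intro k hk k' hk' h
    rw [Finset.mem_erase, Finset.mem_range] at hk hk'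
    have h1 : k * m ≡ k' * m [MOD N] := h
    have h2 := Nat.ModEq.cancel_right_of_coprime (by rwa [Nat.coprime_comm] at hm) h1
    have h3 : k % N = k' % N := h2
    rwa [Nat.mod_eq_of_lt hk.2, Nat.mod_eq_of_lt hk'.2] at h3
  · intro k hk
    rw [Finset.mem_erase, Finset.mem_range] at hk
    obtain ⟨m', hm'⟩ := Nat.exists_mul_mod_eq_one_of_coprime hm hNp.out.one_lt
    refine ⟨(k * m') % N, ?_, ?_⟩
    · rw [Finset.mem_erase, Finset.mem_range]
      refine ⟨?_, Nat.mod_lt _ hNp.out.pos⟩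
      intro h0
      have h1 : N ∣ k * m' := Nat.dvd_of_mod_eq_zero h0
      rcases (Nat.Prime.dvd_mul hNp.out).1 h1 with h2 | h2
      · have := Nat.le_of_dvd (Nat.pos_of_ne_zero hk.1) h2
        omega
      · have h3 : m * m' % N = 0 := Nat.mod_eq_zero_of_dvd (dvd_mul_of_dvd_right h2 m)
        rw [hm'.2] at h3
        exact one_ne_zero h3
    · rw [Nat.mod_mul_mod, mul_assoc, mul_comm m' m, Nat.mul_mod, hm'.2, mul_one, Nat.mod_mod,
        Nat.mod_eq_of_lt hk.2]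
  · intro k _
    rw [hmod, mul_comm, mul_nsmul]

/-- **The rational point attached to a rational subgroup `⟨Q⟩`**, and its reductions. -/
theorem point_spec_st (hodd : Odd N) (hN3 : 3 ≤ N) (W : WeierstrassCurve ℤ) (hΔ : W.Δ ≠ 0)
    (Q : ((W.map (Int.castRingHom ℚ))⁄Qb).Point)
    (hQst : ∀ σ : Qb ≃ₐ[ℚ] Qb, ∃ m : ℕ, σ • Q = m • Q) (hQord : addOrderOf Q = N)
    (h2Δ : (2 : ℤ) ∣ W.Δ) (h2c₄ : ¬ (2 : ℤ) ∣ W.c₄) [FunField Qb (EB Qb N)]
    (c : CuspData Qb N (EB Qb N)) :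
    ∃ x : Place Qb (EB Qb N),
      (∀ σ : Qb ≃ₐ[ℚ] Qb, arithmeticGalois (modularFunctionFieldFull N) σ • x = x) ∧
      ∀ ℓ : ℕ, ℓ.Prime → ℓ ≠ N → (ℓ : ℤ) ∣ W.Δ → ¬ (ℓ : ℤ) ∣ W.c₄ → ∀ A : ValuationSubring Qb,
        A.LiesOverPrime ℓ → ∀ (_ : IsAlgClosed (IsLocalRing.ResidueField A))
        (_ : FunField (IsLocalRing.ResidueField A) (FF (IsLocalRing.ResidueField A) N))
        (hk : Function.Surjective (algebraMap A (IsLocalRing.ResidueField A)))
        (S : LevelRed hk (EB Qb N) (FF (IsLocalRing.ResidueField A) N)),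
        (W.InZeroComponentAt A Q →
          S.D.r (Finsupp.single x 1) = S.D.r (Finsupp.single c.cI 1)) ∧
        (¬ W.InZeroComponentAt A Q →
          S.D.r (Finsupp.single x 1) = S.D.r (Finsupp.single c.cZ 1)) := by
  refine point_spec_gen hodd hN3 W hΔ Q ?_ hQord h2Δ h2c₄ c
  intro σ ε m hm0 hmN
  obtain ⟨t, ht⟩ := hQst σ
  have hmQ : addOrderOf (m • Q) = N := order_nsmul hQord hm0 hmN
  have hco : t.Coprime N := by
    rw [Nat.coprime_comm, hNp.out.coprime_iff_not_dvd]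
    rintro ⟨s, rfl⟩
    rw [mul_nsmul, ← hQord, addOrderOf_nsmul_eq_zero, smul_zero] at ht
    have h1 : Q = 0 := by
      have := congrArg (fun P => σ⁻¹ • P) ht
      simpa using this
    rw [h1, addOrderOf_zero] at hQord
    exact hNp.out.one_lt.ne hQord
  have h1 : σ • (m • Q) = t • (m • Q) := by
    rw [nsmul_equiv, ht, ← mul_nsmul', ← mul_nsmul', mul_comm]
  have h2 : σ (PiQ W N (m • Q)) = PiQ W N (m • Q) := by
    rw [PiQ_equiv, h1]
    exact PiQ_nsmul hmQ hco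
  rw [cuW, map_div₀, map_mul, map_mul, map_pow, map_pow, map_pow, map_natCast, map_intCast,
    map_intCast, h2]

end Fermat.Agent.Mz
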