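import Fermat.Agent.Mz.EisC
import Fermat.Agent.Mz.PlC

/-!
# Hecke stability of the kernel of reduction, and the Eisenstein property of the cuspidal class
-/

set_option autoImplicit false
set_option linter.style.haveILetI false
set_option linter.unusedSectionVars false
set_option synthInstance.maxHeartbeats 400000

noncomputable section

namespace Fermat.Agent.Mz

open ModularCurve Polynomial IntermediateField Fermat.Agent.ModPoly AlgebraicCurve
  Fermat.Agent.RR Fermat.Agent.Cusp Fermat.Agent.RedMod Fermat.Agent.Spec Fermat.Agent.Curve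
  Fermat.Agent.Red Fermat.Agent.HeckeProd LevelRed

local notation "Qb" => AlgebraicClosure ℚ

attribute [local instance] algI isScalarTower_algI

section Gen

variable {k : Type*} [Field k] {N : ℕ} [NeZero N] {ℓ : ℕ} [hℓ : Fact ℓ.Prime] [CharP k ℓ]
  [PerfectRing k ℓ]

theorem frob_zero : frobAut k N ℓ • (0 : Pic0 k (FF k N)) +
    ℓ • ((frobAut k N ℓ)⁻¹ • (0 : Pic0 k (FF k N))) = 0 := by
  have e1 : frobAut k N ℓ • (0 : Pic0 k (FF k N)) = 0 :=
    map_zero (DistribSMul.toAddMonoidHom (Pic0 k (FF k N)) (frobAut k N ℓ))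
  have e2 : (frobAut k N ℓ)⁻¹ • (0 : Pic0 k (FF k N)) = 0 :=
    map_zero (DistribSMul.toAddMonoidHom (Pic0 k (FF k N)) (frobAut k N ℓ)⁻¹)
  rw [e1, e2, nsmul_zero, add_zero]

end Gen

section Mk

variable (K : Type*) [Field K] [IsAlgClosed K] [CharZero K] [Algebra ℚ K] (N : ℕ) [NeZero N]
  (l : ℕ) [NeZero l]

theorem hecke_mk (D : Divisor.degZero (K := K) (F := EB K N)) :
    heckeOperatorAlong K N l (Pic0.mk D) = Pic0.mk (Pic0.degZeroCorrespondence
      (heckeBetaBar K N l) (heckeAlphaBar K N l)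
      (heckeBetaBarIntegral K N l) (heckeAlphaBarIntegral K N l)
      (fundamentalIdentityAlong_beta K N l) D) := by
  rw [heckeOperatorAlong_eq', heckePic0Bar]
  exact Pic0.correspondence_mk _ _ _ _ _ _ _ _

end Mk

section GenK

variable {K : Type*} [Field K] [IsAlgClosed K] [CharZero K] [Algebra ℚ K] {N : ℕ}
  [hNp : Fact N.Prime] [NeZero N] [FunField K (EB K N)] (c : CuspData K N (EB K N))

theorem CuspData.D0_mem : c.D0 ∈ Divisor.degZero (K := K) (F := EB K N) := by
  rw [Divisor.mem_degZero, CuspData.D0, map_sub, degree_single', degree_single', sub_self]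

/-- the cuspidal class -/
def CuspData.cl : Pic0 K (EB K N) := Pic0.mk ⟨c.D0, c.D0_mem⟩

theorem CuspData.hecke_cl' (l : ℕ) [hl : Fact l.Prime] [NeZero l] (hlN : l ≠ N)
    [FunField K (EB K (N * l))] [HasPrincipalDivisors K (EB K (N * l))] :
    heckeOperatorAlong K N l c.cl = ((l : ℤ) + 1) • c.cl := by
  rw [CuspData.cl, hecke_mk]
  have h1 := c.hecke_D0 l hlN (heckeAlphaBarIntegral K N l) (heckeBetaBarIntegral K N l)
  have h2 : Pic0.degZeroCorrespondence (heckeBetaBar K N l) (heckeAlphaBar K N l)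
      (heckeBetaBarIntegral K N l) (heckeAlphaBarIntegral K N l)
      (fundamentalIdentityAlong_beta K N l) ⟨c.D0, c.D0_mem⟩ =
      ((l : ℤ) + 1) • ⟨c.D0, c.D0_mem⟩ := Subtype.ext h1
  exact congrArg Pic0.mk h2

end GenK

section Ker

variable {A : ValuationSubring Qb} {ℓ : ℕ} [hℓ : Fact ℓ.Prime] {N : ℕ} [NeZero N]
  (hA : A.LiesOverPrime ℓ) (hN : ¬ ℓ ∣ N)
  [hac : IsAlgClosed (IsLocalRing.ResidueField A)]
  [FunField (IsLocalRing.ResidueField A) (FF (IsLocalRing.ResidueField A) N)]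
  {hk : Function.Surjective (algebraMap A (IsLocalRing.ResidueField A))}
  (S : LevelRed hk (EB Qb N) (FF (IsLocalRing.ResidueField A) N))

include hA hN in
theorem ker_ell [NeZero ℓ] (x : Pic0 Qb (EB Qb N)) (hx : S.D.sp x = 0) :
    S.D.sp (heckeOperatorAlong Qb N ℓ x) = 0 := by
  haveI : CharP (IsLocalRing.ResidueField A) ℓ := RedMod.charP_residue hA
  obtain ⟨ζ, hζ⟩ := exists_zeta_ell Qb ℓ
  haveI : PerfectRing (IsLocalRing.ResidueField A) ℓ := inferInstance
  have h1 := sp_hecke_ell S hN hζ (by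
    intro x y h
    rw [rd_iff_redTo] at h ⊢
    exact h.TT hζ) x
  rw [hx] at h1
  exact h1.trans frob_zero

include hA hN in
theorem ker_q (q : ℕ) [NeZero q] (hq : ¬ ℓ ∣ q) (x : Pic0 Qb (EB Qb N)) (hx : S.D.sp x = 0) :
    S.D.sp (heckeOperatorAlong Qb N q x) = 0 := by
  have hdvd : ∀ n : ℕ, ¬ ℓ ∣ n → (n : IsLocalRing.ResidueField A) ≠ 0 := fun n hn =>
    natCast_residue_ne_zero hA hn
  have hM : ((N * q : ℕ) : IsLocalRing.ResidueField A) ≠ 0 :=
    hdvd _ (fun h => by rcases (Nat.Prime.dvd_mul hℓ.out).1 h with h | h <;> contradiction)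
  haveI : NeZero (N * q) := ⟨mul_ne_zero (NeZero.ne N) (NeZero.ne (q : ℕ))⟩
  haveI := funField_FF (k := IsLocalRing.ResidueField A) (M := N * q) hM
  obtain ⟨S₁⟩ := nonempty_levelRed (A := A) (K := Qb) (k := IsLocalRing.ResidueField A)
    exists_ιC.some hk
    (N := N * q) hM (EB Qb (N * q)) (Fermat.Agent.X0Genus.baseChange_eq Qb (N * q))
  haveI : HasPrincipalDivisors (IsLocalRing.ResidueField A)
    (FF (IsLocalRing.ResidueField A) (N * q)) := hasPrincipalDivisors'
  exact sp_hecke_zero (q : ℕ) hM S S₁ x hx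

include hA hN in
theorem ker_hecke (q : Nat.Primes) (x : JZero N) (hx : S.D.sp x = 0) :
    S.D.sp (heckeOperatorBar N q x) = 0 := by
  obtain ⟨q, hqp⟩ := q
  haveI : NeZero q := ⟨hqp.ne_zero⟩
  by_cases hq : q = ℓ
  · subst hq
    exact ker_ell hA hN S x hx
  · exact ker_q hA hN S q (fun h => hq ((Nat.prime_dvd_prime_iff_eq hℓ.out hqp).1 h).symm) x hx

include hA hN in
/-- stability under the free algebra -/
theorem ker_free {I : Type*} (φ : I → Nat.Primes) (E : FreeAlgebra ℤ I) :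
    ∀ x : JZero N, S.D.sp x = 0 →
      S.D.sp ((FreeAlgebra.lift ℤ (fun l => heckeOperatorBar N (φ l)) E :
        Module.End ℤ (JZero N)) x) = 0 := by
  induction E using FreeAlgebra.induction with
  | grade0 a =>
    intro x hx
    rw [AlgHom.commutes, Module.algebraMap_end_apply, map_zsmul, hx, smul_zero]
  | grade1 i =>
    intro x hx
    rw [FreeAlgebra.lift_ι_apply]
    exact ker_hecke hA hN S _ x hx
  | mul a b ha hb =>
    intro x hx
    rw [map_mul, Module.End.mul_apply]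
    exact ha _ (hb _ hx)
  | add a b ha hb =>
    intro x hx
    rw [map_add, LinearMap.add_apply, map_add, ha x hx, hb x hx, add_zero]

end Ker

section Eig

variable {N : ℕ} [hNp : Fact N.Prime] [NeZero N] (c : CuspData Qb N (EB Qb N))

theorem CuspData.hecke_cl (l : Nat.Primes) (hlN : (l : ℕ) ≠ N) :
    heckeOperatorBar N l c.cl = ((l : ℤ) + 1) • c.cl := by
  obtain ⟨l, hlp⟩ := l
  haveI : NeZero l := ⟨hlp.ne_zero⟩
  haveI : Fact l.Prime := ⟨hlp⟩
  exact c.hecke_cl' l hlN

theorem CuspData.free_cl {I : Type*} (φ : I → Nat.Primes) (hφ : ∀ i, (φ i : ℕ) ≠ N)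
    (E : FreeAlgebra ℤ I) :
    (FreeAlgebra.lift ℤ (fun l => heckeOperatorBar N (φ l)) E : Module.End ℤ (JZero N)) c.cl =
      (FreeAlgebra.lift ℤ (fun l => ((φ l : ℕ) : ℤ) + 1) E : ℤ) • c.cl := by
  induction E using FreeAlgebra.induction with
  | grade0 a =>
    rw [AlgHom.commutes, AlgHom.commutes, Module.algebraMap_end_apply]
    rfl
  | grade1 i =>
    rw [FreeAlgebra.lift_ι_apply, FreeAlgebra.lift_ι_apply]
    exact c.hecke_cl _ (hφ i)
  | mul a b ha hb =>
    rw [map_mul, map_mul, Module.End.mul_apply, hb, map_zsmul, ha, smul_smul, mul_comm]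
  | add a b ha hb =>
    rw [map_add, map_add, LinearMap.add_apply, ha, hb]
    exact (add_zsmul _ _ _).symm

end Eig

end Fermat.Agent.Mz
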