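import Fermat.Agent.DS.Wp

/-!
# Elliptic functions without poles are constant
-/

set_option autoImplicit false

noncomputable section

open Filter Topology PeriodPair

namespace Fermat.Agent.Mz

variable (L : PeriodPair)

/-- entire periodic functions are constant -/
theorem liou_entire {g : ℂ → ℂ} (hd : Differentiable ℂ g)
    (hp : ∀ l ∈ L.lattice, ∀ z, g (z + l) = g z) : ∃ c, ∀ z, g z = c := by
  have hb : Bornology.IsBounded (Set.range g) := by
    have h1 : Set.range g ⊆ g '' closure (ZSpan.fundamentalDomain L.basis) := by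
      rintro _ ⟨z, rfl⟩
      refine ⟨ZSpan.fract L.basis z, subset_closure (ZSpan.fract_mem_fundamentalDomain _ _), ?_⟩
      have h2 : (ZSpan.floor L.basis z : ℂ) ∈ L.lattice := by
        rw [L.lattice_eq_span_range_basis]
        exact (ZSpan.floor L.basis z).2
      rw [ZSpan.fract_apply]
      have h3 := hp _ h2 (z - ZSpan.floor L.basis z)
      rw [sub_add_cancel] at h3
      exact h3.symm
    refine Bornology.IsBounded.subset ?_ h1
    have h4 : IsCompact (closure (ZSpan.fundamentalDomain L.basis)) :=
      (ZSpan.fundamentalDomain_isBounded L.basis).isCompact_closure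
    exact (h4.image hd.continuous).isBounded
  exact hd.exists_const_forall_eq_of_bounded hb

/-- **Liouville's theorem for elliptic functions** -/
theorem liou {f : ℂ → ℂ} (hm : ∀ z, MeromorphicAt f z)
    (hp : ∀ l ∈ L.lattice, ∀ z, f (z + l) = f z) (ho : ∀ z, 0 ≤ meromorphicOrderAt f z) :
    ∃ c, ∀ z, f =ᶠ[𝓝[≠] z] fun _ => c := by
  have hmo : MeromorphicOn f Set.univ := fun z _ => hm z
  let g := toMeromorphicNFOn f Set.univ
  have hgf : ∀ z, f =ᶠ[𝓝[≠] z] g := fun z =>
    (hmo.toMeromorphicNFOn_eq_self_on_nhdsNE (Set.mem_univ z)).symm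
  have hga : ∀ z, AnalyticAt ℂ g z := by
    intro z
    have h1 : MeromorphicNFAt g z := meromorphicNFOn_toMeromorphicNFOn f Set.univ (Set.mem_univ z)
    rw [← h1.meromorphicOrderAt_nonneg_iff_analyticAt, ← meromorphicOrderAt_congr (hgf z)]
    exact ho z
  have hgd : Differentiable ℂ g := fun z => (hga z).differentiableAt
  have hgp : ∀ l ∈ L.lattice, ∀ z, g (z + l) = g z := by
    intro l hl z
    have h1 : (fun w => g (w + l)) =ᶠ[𝓝[≠] z] g := by
      have h2 := hgf z
      have h3 : Tendsto (fun w => w + l) (𝓝[≠] z) (𝓝[≠] (z + l)) := by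
        refine tendsto_nhdsWithin_of_tendsto_nhds_of_eventually_within _ ?_ ?_
        · exact ((continuous_id.add continuous_const).tendsto z).mono_left nhdsWithin_le_nhds
        · filter_upwards [self_mem_nhdsWithin] with w hw
          intro h
          exact hw (add_right_cancel h)
      have h4 := h3.eventually (hgf (z + l))
      filter_upwards [h2, h4] with w hw1 hw2
      rw [← hw1, ← hw2, hp l hl]
    have h5 : Tendsto (fun w => g (w + l)) (𝓝[≠] z) (𝓝 (g (z + l))) := by
      have : Continuous (fun w => g (w + l)) := hgd.continuous.comp (by fun_prop)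
      exact (this.tendsto z).mono_left nhdsWithin_le_nhds
    have h6 : Tendsto g (𝓝[≠] z) (𝓝 (g z)) :=
      (hgd.continuous.tendsto z).mono_left nhdsWithin_le_nhds
    exact tendsto_nhds_unique (h5.congr' h1) h6
  obtain ⟨c, hc⟩ := liou_entire L hgd hgp
  refine ⟨c, fun z => (hgf z).trans ?_⟩
  exact Eventually.of_forall hc

end Fermat.Agent.Mz
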