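import Fermat.Agent.Mz.Unif
import Fermat.Agent.X0Genus.Upper

/-!
# The value of `Δ(Nτ)/Δ(τ)`
-/

set_option autoImplicit false
set_option linter.style.haveILetI false

noncomputable section

open UpperHalfPlane hiding I
open Filter Topology PeriodPair ModularForm EisensteinSeries
open scoped Real MatrixGroups

namespace Fermat.Agent.Mz

open Fermat.Agent.JFun Fermat.Agent.X0Genus WeierstrassCurve WeierstrassCurve.Affine

variable {ω : ℂ} {hω : ω ≠ 0} {τ : ℍ}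

theorem lat_le {L L' : PeriodPair} (h1 : L.ω₁ ∈ L'.lattice) (h2 : L.ω₂ ∈ L'.lattice) :
    L.lattice ≤ L'.lattice := by
  rw [lattice, Submodule.span_le]
  rintro x (rfl | rfl)
  · exact h1
  · exact h2

theorem int_comb_mem {L : PeriodPair} (m n : ℤ) : (m : ℂ) * L.ω₁ + n * L.ω₂ ∈ L.lattice :=
  mem_lattice.2 ⟨m, n, rfl⟩

/-- change of basis -/
theorem lat_smul (g : SL(2, ℤ)) (h : ω * (((g 1 0 : ℤ) : ℂ) * τ + ((g 1 1 : ℤ) : ℂ)) ≠ 0) :
    (lat (ω * (((g 1 0 : ℤ) : ℂ) * τ + ((g 1 1 : ℤ) : ℂ))) h (g • τ)).lattice =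
      (lat ω hω τ).lattice := by
  have hd := det_eq' g
  have hd' : ((g 0 0 : ℤ) : ℂ) * ((g 1 1 : ℤ) : ℂ) - ((g 0 1 : ℤ) : ℂ) * ((g 1 0 : ℤ) : ℂ) = 1 := by
    exact_mod_cast hd
  have hn := den_ne g τ
  set L := lat ω hω τ with hL
  set L' := lat (ω * (((g 1 0 : ℤ) : ℂ) * τ + ((g 1 1 : ℤ) : ℂ))) h (g • τ) with hL'
  have e1 : L.ω₁ = ω * τ := rfl
  have e2 : L.ω₂ = ω := rfl
  have e3 : L'.ω₁ = ((g 0 0 : ℤ) : ℂ) * L.ω₁ + ((g 0 1 : ℤ) : ℂ) * L.ω₂ := by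
    rw [e1, e2]
    change ω * (((g 1 0 : ℤ) : ℂ) * τ + ((g 1 1 : ℤ) : ℂ)) * ((g • τ : ℍ) : ℂ) = _
    rw [coe_smul']
    field_simp
  have e4 : L'.ω₂ = ((g 1 0 : ℤ) : ℂ) * L.ω₁ + ((g 1 1 : ℤ) : ℂ) * L.ω₂ := by
    rw [e1, e2]
    change ω * (((g 1 0 : ℤ) : ℂ) * τ + ((g 1 1 : ℤ) : ℂ)) = _
    ring
  apply le_antisymm
  · refine lat_le ?_ ?_
    · rw [e3]; exact int_comb_mem _ _
    · rw [e4]; exact int_comb_mem _ _
  · refine lat_le ?_ ?_
    · have : L.ω₁ = ((g 1 1 : ℤ) : ℂ) * L'.ω₁ + ((-(g 0 1) : ℤ) : ℂ) * L'.ω₂ := by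
        rw [e3, e4]
        push_cast
        linear_combination (-L.ω₁) * hd'
      rw [this]; exact int_comb_mem _ _
    · have : L.ω₂ = ((-(g 1 0) : ℤ) : ℂ) * L'.ω₁ + ((g 0 0 : ℤ) : ℂ) * L'.ω₂ := by
        rw [e3, e4]
        push_cast
        linear_combination (-L.ω₂) * hd'
      rw [this]; exact int_comb_mem _ _

/-- a basis adapted to a point of order `N` -/
theorem exists_basis {N : ℕ} (hN : N.Prime) {z : ℂ} (hz : (N : ℂ) * z ∈ (lat ω hω τ).lattice)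
    (hz' : z ∉ (lat ω hω τ).lattice) :
    ∃ m : ℕ, 0 < m ∧ m < N ∧ ∃ (ω' : ℂ) (hω' : ω' ≠ 0) (τ' : ℍ),
      (lat ω' hω' τ').lattice = (lat ω hω τ).lattice ∧
      ω' / N - m * z ∈ (lat ω hω τ).lattice := by
  haveI := Fact.mk hN
  have hN0 : (N : ℂ) ≠ 0 := Nat.cast_ne_zero.2 hN.ne_zero
  obtain ⟨a, b, hab⟩ := mem_lattice.1 hz
  have e1 : (lat ω hω τ).ω₁ = ω * τ := rfl
  have e2 : (lat ω hω τ).ω₂ = ω := rfl
  have hinv : ∀ c : ℤ, ¬ (N : ℤ) ∣ c → ∃ m : ℕ, 0 < m ∧ m < N ∧ ∃ t : ℤ, (m : ℤ) * c = 1 + N * t := by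
    intro c hc
    have hc0 : (c : ZMod N) ≠ 0 := by rwa [Ne, ZMod.intCast_zmod_eq_zero_iff_dvd]
    refine ⟨((c : ZMod N)⁻¹).val, ?_, ZMod.val_lt _, ?_⟩
    · rw [Nat.pos_iff_ne_zero]
      intro h
      rw [ZMod.val_eq_zero] at h
      exact inv_ne_zero hc0 h
    · have h1 : ((((c : ZMod N)⁻¹).val * c - 1 : ℤ) : ZMod N) = 0 := by
        push_cast
        rw [ZMod.natCast_zmod_val, inv_mul_cancel₀ hc0, sub_self]
      rw [ZMod.intCast_zmod_eq_zero_iff_dvd] at h1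
      obtain ⟨t, ht⟩ := h1
      exact ⟨t, by linarith⟩
  by_cases hb : (N : ℤ) ∣ b
  · have ha : ¬ (N : ℤ) ∣ a := by
      rintro ⟨a', ha'⟩
      obtain ⟨b', hb'⟩ := hb
      apply hz'
      refine mem_lattice.2 ⟨a', b', ?_⟩
      rw [ha', hb'] at hab
      push_cast at hab
      apply mul_left_cancel₀ hN0
      rw [← hab]; ring
    obtain ⟨m, hm0, hmN, t, ht⟩ := hinv a ha
    obtain ⟨b', hb'⟩ := hb
    refine ⟨m, hm0, hmN, ω * (((ModularGroup.S 1 0 : ℤ) : ℂ) * τ + ((ModularGroup.S 1 1 : ℤ) : ℂ)),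
      mul_ne_zero hω (den_ne _ τ), ModularGroup.S • τ, lat_smul _ _, ?_⟩
    refine mem_lattice.2 ⟨-t, -(m * b'), ?_⟩
    have hab' : (a : ℂ) * (ω * τ) + b * ω = N * z := hab
    have s1 : ((ModularGroup.S 1 0 : ℤ) : ℂ) = 1 := by simp [ModularGroup.S]
    have s2 : ((ModularGroup.S 1 1 : ℤ) : ℂ) = 0 := by simp [ModularGroup.S]
    have ht' : (m : ℂ) * a = 1 + N * t := by exact_mod_cast ht
    rw [hb'] at hab'
    rw [e1, e2, s1, s2]
    push_cast at hab' ⊢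
    have h1 : (N : ℂ) * (ω * (1 * τ + 0) / N) = ω * τ := by field_simp; ring
    apply mul_left_cancel₀ hN0
    linear_combination (ω * τ) * ht' - m * hab' - h1
  · obtain ⟨m, hm0, hmN, t, ht⟩ := hinv b hb
    have hdet : Matrix.det !![(1 : ℤ), 0; m * a, 1] = 1 := by simp
    let g : SL(2, ℤ) := ⟨!![(1 : ℤ), 0; m * a, 1], hdet⟩
    refine ⟨m, hm0, hmN, ω * (((g 1 0 : ℤ) : ℂ) * τ + ((g 1 1 : ℤ) : ℂ)),
      mul_ne_zero hω (den_ne _ τ), g • τ, lat_smul _ _, ?_⟩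
    refine mem_lattice.2 ⟨0, -t, ?_⟩
    have hab' : (a : ℂ) * (ω * τ) + b * ω = N * z := hab
    have s1 : g 1 0 = m * a := rfl
    have s2 : g 1 1 = 1 := rfl
    have ht' : (m : ℂ) * b = 1 + N * t := by exact_mod_cast ht
    rw [e1, e2, s1, s2]
    push_cast
    have h1 : (N : ℂ) * (ω * (m * a * τ + 1) / N) = ω * (m * a * τ + 1) := by field_simp
    apply mul_left_cancel₀ hN0
    linear_combination ω * ht' - m * hab' - h1

theorem wp_of_lattice {L L' : PeriodPair} (h : L.lattice = L'.lattice) : ℘[L] = ℘[L'] := by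
  funext z
  exact congrArg (fun S : Submodule ℤ ℂ => ∑' l : S, (1 / (z - l) ^ 2 - 1 / (l : ℂ) ^ 2)) h

theorem G_of_lattice {L L' : PeriodPair} (h : L.lattice = L'.lattice) (n : ℕ) : L.G n = L'.G n :=
  congrArg (fun S : Submodule ℤ ℂ => ∑' l : S, ((l : ℂ) ^ n)⁻¹) h

theorem g₂_of_lattice {L L' : PeriodPair} (h : L.lattice = L'.lattice) : L.g₂ = L'.g₂ := by
  rw [g₂, g₂, G_of_lattice h]

theorem g₃_of_lattice {L L' : PeriodPair} (h : L.lattice = L'.lattice) : L.g₃ = L'.g₃ := by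
  rw [g₃, g₃, G_of_lattice h]

/-- the superlattice -/
theorem subL_lat {N : ℕ} (hN : N ≠ 0) [NeZero N] (h : ω / N ≠ 0) :
    subL (lat (ω / N) h (mulD N τ)) N hN = lat ω hω τ := by
  have hN' : (N : ℂ) ≠ 0 := Nat.cast_ne_zero.2 hN
  have e1 : (subL (lat (ω / N) h (mulD N τ)) N hN).ω₁ = (lat ω hω τ).ω₁ := by
    change ω / N * ((mulD N τ : ℍ) : ℂ) = ω * τ
    rw [coe_mulD]
    field_simp
  have e2 : (subL (lat (ω / N) h (mulD N τ)) N hN).ω₂ = (lat ω hω τ).ω₂ := by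
    change (N : ℂ) * (ω / N) = ω
    field_simp
  rcases hA : subL (lat (ω / N) h (mulD N τ)) N hN with ⟨x, y, _⟩
  rcases hB : lat ω hω τ with ⟨x', y', _⟩
  rw [hA, hB] at e1 e2
  simp only at e1 e2
  subst e1 e2
  rfl

theorem disc_mulD {N : ℕ} [NeZero N] (h : ω / N ≠ 0) :
    disc (lat (ω / N) h (mulD N τ)) * discriminant τ =
      N ^ 12 * discriminant (mulD N τ) * disc (lat ω hω τ) := by
  have hN' : (N : ℂ) ≠ 0 := Nat.cast_ne_zero.2 (NeZero.ne N)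
  rw [disc_lat, disc_lat]
  field_simp

variable {F : Type*} [Field F]

/-- the square of `2 y + a₁ x + a₃` -/
def psq (W : WeierstrassCurve F) : W.toAffine.Point → F
  | 0 => 1
  | .some x y _ => (2 * y + W.a₁ * x + W.a₃) ^ 2

variable [DecidableEq F]

/-- **the value of `Δ(Nτ)/Δ(τ)`** -/
theorem unif (W : WeierstrassCurve F) (ι : F →+* ℂ) (hc4 : W.c₄ ≠ 0) (hc6 : W.c₆ ≠ 0)
    (hΔ : W.Δ ≠ 0) {N : ℕ} (hN : N.Prime) (hN3 : 3 ≤ N) [NeZero N] {P : W.toAffine.Point}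
    (hP : addOrderOf P = N) :
    ∃ m : ℕ, 0 < m ∧ m < N ∧ ∃ τ : ℍ, jfun τ = ι W.c₄ ^ 3 / ι W.Δ ∧
      (N ^ 12 * (discriminant (mulD N τ) / discriminant τ) *
        ι (∏ k ∈ (Finset.range N).erase 0, psq W (k • m • P)) ^ 2) ^ 2 =
          (ι W.Δ ^ (N - 1)) ^ 2 := by
  have hN0 : N ≠ 0 := hN.ne_zero
  have hNC : (N : ℂ) ≠ 0 := Nat.cast_ne_zero.2 hN0
  have hc4' : ι W.c₄ / 12 ≠ 0 := div_ne_zero ((map_ne_zero ι).2 hc4) (by norm_num)
  have hc6' : ι W.c₆ / 216 ≠ 0 := div_ne_zero ((map_ne_zero ι).2 hc6) (by norm_num)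
  have hrel : ι W.Δ = (ι W.c₄ / 12) ^ 3 - 27 * (ι W.c₆ / 216) ^ 2 := by
    have h := congrArg ι W.c_relation
    simp only [map_mul, map_sub, map_pow, map_ofNat] at h
    linear_combination (1 / 1728) * h
  have hΔ' : ι W.Δ ≠ 0 := (map_ne_zero ι).2 hΔ
  obtain ⟨ω₀, hω₀, τ₀, h2, h3⟩ := exists_lat hc4' hc6' (by rw [← hrel]; exact hΔ')
  obtain ⟨z, hz, hzk⟩ := tors_link ι (L := lat ω₀ hω₀ τ₀) (W := W) (by rw [h2]; ring)
    (by rw [h3]; ring) hN3 hP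
  have hz1 : z ∉ (lat ω₀ hω₀ τ₀).lattice := by
    have := (hzk 1 (by norm_num) (by omega)).1
    simpa using this
  obtain ⟨m, hm0, hmN, ω, hω, τ, hlat, hmz⟩ := exists_basis hN hz hz1
  have hωN : ω / N ≠ 0 := div_ne_zero hω hNC
  refine ⟨m, hm0, hmN, τ, ?_, ?_⟩
  · -- the value of j
    have e2 : (lat ω hω τ).g₂ = ι W.c₄ / 12 := by rw [← h2, g₂_of_lattice hlat]
    have e3 : (lat ω hω τ).g₃ = ι W.c₆ / 216 := by rw [← h3, g₃_of_lattice hlat]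
    have e4 : disc (lat ω hω τ) = ι W.Δ := by rw [disc, e2, e3, hrel]
    have e5 : (lat ω hω τ).g₂ ^ 3 = (ω ^ 12)⁻¹ * ((4 * π ^ 4 / 3) ^ 3 * E₄ τ ^ 3) := by
      rw [g₂_lat]; ring
    have hpi : (π : ℂ) ≠ 0 := by exact_mod_cast Real.pi_ne_zero
    have hD := discriminant_ne_zero τ
    have e6 : ι W.c₄ ^ 3 = 1728 * (lat ω hω τ).g₂ ^ 3 := by rw [e2]; ring
    rw [jfun, div_eq_div_iff hD hΔ', ← e4, e6, e5, disc_lat]
    ring
  · -- the value of Δ(Nτ)/Δ(τ)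
    set M := lat (ω / N) hωN (mulD N τ) with hM
    have hsub : subL M N hN0 = lat ω hω τ := subL_lat hN0 hωN
    have e2 : (lat ω hω τ).g₂ = ι W.c₄ / 12 := by rw [← h2, g₂_of_lattice hlat]
    have e3 : (lat ω hω τ).g₃ = ι W.c₆ / 216 := by rw [← h3, g₃_of_lattice hlat]
    have e4 : disc (lat ω hω τ) = ι W.Δ := by rw [disc, e2, e3, hrel]
    have hodd : Odd N := hN.odd_of_ne_two (by omega)
    have hcF : cF M N hN0 ^ 2 = ι (∏ k ∈ (Finset.range N).erase 0, psq W (k • m • P)) := by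
      rw [cF, ← Finset.prod_pow, map_prod]
      refine Finset.prod_congr rfl fun k hk => ?_
      rw [Finset.mem_erase, Finset.mem_range] at hk
      -- reduce `k m` modulo `N`
      have hkm : ¬ N ∣ k * m := by
        rw [hN.dvd_mul]
        push Not
        exact ⟨Nat.not_dvd_of_pos_of_lt (Nat.pos_of_ne_zero hk.1) hk.2,
          Nat.not_dvd_of_pos_of_lt hm0 hmN⟩
      have hr0 : 0 < k * m % N := Nat.pos_of_ne_zero fun h => hkm (Nat.dvd_of_mod_eq_zero h)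
      have hrN : k * m % N < N := Nat.mod_lt _ hN.pos
      obtain ⟨f1, x, y, hns, f2, f3⟩ := hzk (k * m % N) hr0 hrN
      have f4 : k • m • P = Point.some x y hns := by
        rw [← f2, ← mul_nsmul', ← mod_addOrderOf_nsmul P (k * m), hP]
      have f5 : (k : ℂ) * M.ω₂ - ((k * m % N : ℕ) : ℂ) * z ∈ (lat ω hω τ).lattice := by
        rw [hlat]
        have g1 : (k : ℂ) * (ω / N - m * z) ∈ (lat ω₀ hω₀ τ₀).lattice := by
          have := (lat ω₀ hω₀ τ₀).lattice.smul_mem (k : ℤ) hmz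
          simpa [zsmul_eq_mul] using this
        have g2 : ((k * m / N : ℕ) : ℂ) * ((N : ℂ) * z) ∈ (lat ω₀ hω₀ τ₀).lattice := by
          have := (lat ω₀ hω₀ τ₀).lattice.smul_mem ((k * m / N : ℕ) : ℤ) hz
          rw [zsmul_eq_mul, Int.cast_natCast] at this
          exact this
        have g3 := add_mem g1 g2
        have g4 : ((k * m % N : ℕ) : ℂ) + N * ((k * m / N : ℕ) : ℂ) = k * m := by
          exact_mod_cast Nat.mod_add_div (k * m) N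
        have g5 : M.ω₂ = ω / N := rfl
        have g6 : (k : ℂ) * M.ω₂ - ((k * m % N : ℕ) : ℂ) * z =
            (k : ℂ) * (ω / N - m * z) + ((k * m / N : ℕ) : ℂ) * ((N : ℂ) * z) := by
          rw [g5]
          linear_combination (-z) * g4
        rw [g6]
        exact g3
      rw [hsub, wp'_congr f5, (lat ω hω τ).derivWeierstrassP_sq _ (by rw [hlat]; exact f1),
        wp_of_lattice hlat, f3, f4]
      rw [psq, map_pow, ← psi_sq_alg ι (L := lat ω hω τ) (W := W) (by rw [e2]; ring)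
        (by rw [e3]; ring) hns.1]
    have hrel2 := D4_rel (M := M) (N := N) (hN := hN0) hodd
    have hrel3 : cF M N hN0 ^ 8 * disc M ^ 2 = disc (lat ω hω τ) ^ (2 * N) := by
      rw [← D4_sq (L := M), pow_mul, ← D4_sq (L := lat ω hω τ), ← pow_mul, ← hsub]
      calc cF M N hN0 ^ 8 * D4 M ^ 2 = (cF M N hN0 ^ 4 * D4 M) ^ 2 := by ring
        _ = _ := by rw [hrel2, ← pow_mul, mul_comm N 2]
    have hdm := disc_mulD (ω := ω) (hω := hω) (τ := τ) hωN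
    rw [← hM, e4] at hdm
    rw [e4] at hrel3
    have hD := discriminant_ne_zero τ
    obtain ⟨n, rfl⟩ := Nat.exists_eq_succ_of_ne_zero hN0
    have f6 : cF M (n + 1) hN0 ^ 8 = (cF M (n + 1) hN0 ^ 2) ^ 4 := by ring
    rw [f6, hcF] at hrel3
    set Pr := ι (∏ k ∈ (Finset.range (n + 1)).erase 0, psq W (k • m • P))
    have hdM : disc M = ((n + 1 : ℕ) : ℂ) ^ 12 *
        (discriminant (mulD (n + 1) τ) / discriminant τ) * ι W.Δ := by
      field_simp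
      linear_combination hdm
    rw [hdM] at hrel3
    have h7 : ι W.Δ ^ 2 ≠ 0 := pow_ne_zero 2 hΔ'
    apply mul_right_cancel₀ h7
    simp only [Nat.succ_eq_add_one, Nat.add_sub_cancel]
    have h8 : ι W.Δ ^ (2 * (n + 1)) = (ι W.Δ ^ n) ^ 2 * ι W.Δ ^ 2 := by ring
    rw [← h8, ← hrel3]
    ring

end Fermat.Agent.Mz
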