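import Fermat.Agent.CL.Node
import Fermat.Agent.EC.IntTorsion
import Fermat.Agent.Mz.Unif2
import Fermat.Prelude.Def_EllipticCurve_ZeroComponentAt
import Fermat.Prelude.Def_FLTPrelim_Ramification

/-!
# Local analysis at a prime of multiplicative reduction
-/

set_option autoImplicit false
set_option linter.unusedSectionVars false
set_option linter.style.haveILetI false

noncomputable section

namespace Fermat.Agent.Mz

open WeierstrassCurve WeierstrassCurve.Affine WeierstrassCurve.Affine.Point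
open Fermat.Agent.EC Fermat.Agent.CL

section Gen

variable {K : Type*} [Field K] {Γ₀ : Type*} [LinearOrderedCommGroupWithZero Γ₀]
  {v : Valuation K Γ₀} {W : WeierstrassCurve K} {r t : K}

/-- duplication in the coordinate `x - r` -/
theorem dup_T [DecidableEq K] (M : TModel W r t) {x y x' y' : K} (h : W.toAffine.Nonsingular x y)
    (h' : W.toAffine.Nonsingular x' y')
    (he : (Point.some x y h : W.toAffine.Point) + Point.some x y h = Point.some x' y' h') :
    (x' - r) * (2 * y + W.a₁ * x + W.a₃) ^ 2 = ((x - r) ^ 2 - tA4 W r t) ^ 2 := by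
  have h1 := double_x h h' he
  have h2 := psi_two_sq h.1
  rw [h2, psi_three] at h1
  rw [psi_two] at h2
  have h3 := M.two
  have h4 := M.eqn
  rw [equation_iff] at h4
  have ha3 : W.a₃ = -2 * t - W.a₁ * r := by linear_combination h3
  have ha6 : W.a₆ = t ^ 2 + W.a₁ * r * t + W.a₃ * t - r ^ 3 - W.a₂ * r ^ 2 - W.a₄ * r := by
    linear_combination -h4
  rw [ha3] at ha6
  rw [h2]
  have h5 : (x' - r) * (4 * x ^ 3 + W.b₂ * x ^ 2 + 2 * W.b₄ * x + W.b₆) =
      (x - r) * (4 * x ^ 3 + W.b₂ * x ^ 2 + 2 * W.b₄ * x + W.b₆) -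
      (3 * x ^ 4 + W.b₂ * x ^ 3 + 3 * W.b₄ * x ^ 2 + 3 * W.b₆ * x + W.b₈) := by
    linear_combination h1
  rw [h5]
  simp only [WeierstrassCurve.b₂, WeierstrassCurve.b₄, WeierstrassCurve.b₆, WeierstrassCurve.b₈,
    tA4]
  rw [ha3, ha6]
  ring

/-- the `ψ₂`-values at points of `E⁰` of odd order are units -/
theorem psq_unit [DecidableEq K] (hW : IsInt v W) (M : IntT v W r t) (hm : v (tA4 W r t) < 1)
    (hnat : ∀ n : ℕ, v (n : K) ≤ 1)
    {N : ℕ} (hN : Odd N) (hvN : v (N : K) = 1) {P : W.toAffine.Point} (hP : N • P = 0)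
    (hP0 : P ≠ 0) (hE : P ∈ M.E0 hm) : v (psq W P) = 1 := by
  rcases P with _ | ⟨x, y, h⟩
  · exact absurd rfl hP0
  have hx : v x ≤ 1 := hW.torsion_integral hN hvN h hP
  have hy : v y ≤ 1 := hW.y_integral h.1 hx
  have hxr : 1 ≤ v (x - r) := (M.mem_E0_some hm h).1 hE
  have hxr1 : v (x - r) = 1 := le_antisymm ((v.map_sub _ _).trans (max_le hx M.vr)) hxr
  have h2 : (Point.some x y h : W.toAffine.Point) + Point.some x y h ≠ 0 := by
    intro h0
    apply hP0
    obtain ⟨n, hn⟩ := hN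
    have h3 : (2 * n + 1) • (Point.some x y h : W.toAffine.Point) = Point.some x y h := by
      rw [add_nsmul, mul_nsmul', two_nsmul, ← nsmul_add, h0, smul_zero, zero_add, one_nsmul]
    rw [← h3, ← hn]
    exact hP
  obtain ⟨x', y', h', he⟩ : ∃ x' y' h', (Point.some x y h : W.toAffine.Point) + Point.some x y h =
      Point.some x' y' h' := by
    rcases hQ : (Point.some x y h : W.toAffine.Point) + Point.some x y h with _ | ⟨x', y', h'⟩
    · exact absurd hQ h2
    · exact ⟨x', y', h', rfl⟩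
  have hx' : v x' ≤ 1 := by
    refine hW.torsion_integral hN hvN h' ?_
    rw [← he, nsmul_add]
    have : N • (Point.some x y h : W.toAffine.Point) = 0 := hP
    rw [this, add_zero]
  have h5 := congrArg v (dup_T M.toTModel h h' he)
  have h6 : v (((x - r) ^ 2 - tA4 W r t) ^ 2) = 1 := by
    rw [map_pow, Valuation.map_sub_eq_of_lt_left, map_pow, hxr1, one_pow, one_pow]
    rw [map_pow, hxr1, one_pow]
    exact hm
  rw [h6, map_mul] at h5
  have h7 : v (x' - r) ≤ 1 := (v.map_sub _ _).trans (max_le hx' M.vr)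
  have h8 : v ((2 * y + W.a₁ * x + W.a₃) ^ 2) ≤ 1 := by
    rw [map_pow]
    refine pow_le_one' (v.map_add_le (v.map_add_le ?_ ?_) hW.a₃) 2
    · rw [map_mul]; exact mul_le_one' (by exact_mod_cast hnat 2) hy
    · rw [map_mul]; exact mul_le_one' hW.a₁ hx
  change v ((2 * y + W.a₁ * x + W.a₃) ^ 2) = 1
  refine le_antisymm h8 ?_
  by_contra hlt
  push Not at hlt
  have : v (x' - r) * v ((2 * y + W.a₁ * x + W.a₃) ^ 2) < 1 := by
    calc v (x' - r) * v ((2 * y + W.a₁ * x + W.a₃) ^ 2) ≤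
        1 * v ((2 * y + W.a₁ * x + W.a₃) ^ 2) := by gcongr
      _ < 1 := by rwa [one_mul]
  rw [h5] at this
  exact lt_irrefl _ this

theorem psq_le [DecidableEq K] (hW : IsInt v W) (hnat : ∀ n : ℕ, v (n : K) ≤ 1)
    {N : ℕ} (hN : Odd N) (hvN : v (N : K) = 1) {P : W.toAffine.Point} (hP : N • P = 0) :
    v (psq W P) ≤ 1 := by
  rcases P with _ | ⟨x, y, h⟩
  · change v 1 ≤ 1
    rw [_root_.map_one]
  have hx : v x ≤ 1 := hW.torsion_integral hN hvN h hP
  have hy : v y ≤ 1 := hW.y_integral h.1 hx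
  change v ((2 * y + W.a₁ * x + W.a₃) ^ 2) ≤ 1
  rw [map_pow]
  refine pow_le_one' (v.map_add_le (v.map_add_le ?_ ?_) hW.a₃) 2
  · rw [map_mul]; exact mul_le_one' (by exact_mod_cast hnat 2) hy
  · rw [map_mul]; exact mul_le_one' hW.a₁ hx

end Gen

section Model

local notation "Qb" => AlgebraicClosure ℚ

variable {W : WeierstrassCurve ℤ} {A : ValuationSubring Qb}

/-- the curve over `Q̄` -/
abbrev WQ (W : WeierstrassCurve ℤ) : WeierstrassCurve Qb := (W.map (Int.castRingHom ℚ))⁄Qb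

theorem WQ_eq (W : WeierstrassCurve ℤ) : WQ W = W.map (Int.castRingHom Qb) := by
  change (W.map (Int.castRingHom ℚ)).map (algebraMap ℚ Qb) = _
  rw [WeierstrassCurve.map_map]
  congr 1

theorem isMult_WQ (hΔ : W.Δ ≠ 0) {q : ℕ} (hq : q.Prime) (hd : (q : ℤ) ∣ W.Δ)
    (hc : ¬ (q : ℤ) ∣ W.c₄) (hA : A.LiesOverPrime q) : IsMult A.valuation (WQ W) := by
  have hv : A.valuation (q : Qb) < 1 := hA
  rw [WQ_eq]
  refine ⟨⟨val_int_le _ _, val_int_le _ _, val_int_le _ _, val_int_le _ _, val_int_le _ _⟩,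
    ?_, ?_, ?_, val_nat_le _⟩
  · rw [WeierstrassCurve.map_Δ, eq_intCast]
    exact val_int_lt _ hv hd
  · rw [WeierstrassCurve.map_c₄, eq_intCast]
    exact val_int_eq_one_of_not_dvd _ hq hv hc
  · rw [WeierstrassCurve.map_Δ, eq_intCast]
    exact_mod_cast hΔ

/-- the reduction of an affine point -/
theorem nonsing_red_iff {r t x y : Qb} (M : IntT A.valuation (WQ W) r t)
    (hm : A.valuation (tA4 (WQ W) r t) < 1) (hE : (WQ W).toAffine.Equation x y)
    (hx : x ∈ A) (hy : y ∈ A) :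
    (W.map (Int.castRingHom (IsLocalRing.ResidueField A))).toAffine.Nonsingular
          (IsLocalRing.residue A ⟨x, hx⟩) (IsLocalRing.residue A ⟨y, hy⟩) ↔
      1 ≤ A.valuation (x - r) := by
  have hint : IsInt A.valuation (WQ W) := by
    rw [WQ_eq]
    exact ⟨val_int_le _ _, val_int_le _ _, val_int_le _ _, val_int_le _ _, val_int_le _ _⟩
  have hr : r ∈ A := (A.valuation_le_one_iff r).1 M.vr
  have ht : t ∈ A := (A.valuation_le_one_iff t).1 (hint.y_integral M.eqn M.vr)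
  set κ := IsLocalRing.ResidueField A
  set X : κ := IsLocalRing.residue A ⟨x, hx⟩ with hX
  set Y : κ := IsLocalRing.residue A ⟨y, hy⟩ with hY
  set R : κ := IsLocalRing.residue A ⟨r, hr⟩ with hR
  set T : κ := IsLocalRing.residue A ⟨t, ht⟩ with hT
  -- transport of integral relations
  have key : ∀ a : A, A.valuation (a : Qb) < 1 ↔ IsLocalRing.residue A a = 0 := by
    intro a
    rw [IsLocalRing.residue_eq_zero_iff, A.valuation_lt_one_iff]
  have e1 : X = R ↔ A.valuation (x - r) < 1 := by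
    rw [← sub_eq_zero, hX, hR, ← map_sub, ← key]
    rfl
  have c1 : (WQ W).a₁ = (W.a₁ : Qb) := by rw [WQ_eq]; rfl
  have c2 : (WQ W).a₂ = (W.a₂ : Qb) := by rw [WQ_eq]; rfl
  have c3 : (WQ W).a₃ = (W.a₃ : Qb) := by rw [WQ_eq]; rfl
  have c4 : (WQ W).a₄ = (W.a₄ : Qb) := by rw [WQ_eq]; rfl
  have c6 : (WQ W).a₆ = (W.a₆ : Qb) := by rw [WQ_eq]; rfl
  have hEx : Y ^ 2 + (W.a₁ : κ) * X * Y + (W.a₃ : κ) * Y =
      X ^ 3 + (W.a₂ : κ) * X ^ 2 + (W.a₄ : κ) * X + (W.a₆ : κ) := by
    rw [equation_iff] at hE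
    have h1 : (⟨y, hy⟩ : A) ^ 2 + (W.a₁ : A) * ⟨x, hx⟩ * ⟨y, hy⟩ + (W.a₃ : A) * ⟨y, hy⟩ =
        ⟨x, hx⟩ ^ 3 + (W.a₂ : A) * ⟨x, hx⟩ ^ 2 + (W.a₄ : A) * ⟨x, hx⟩ + (W.a₆ : A) := by
      apply Subtype.ext
      push_cast
      rw [c1, c2, c3, c4, c6] at hE
      exact hE
    have h2 := congrArg (IsLocalRing.residue A) h1
    simp only [map_add, map_sub, map_mul, map_pow, map_intCast, map_ofNat, _root_.map_zero] at h2
    exact h2
  have hEr : T ^ 2 + (W.a₁ : κ) * R * T + (W.a₃ : κ) * T =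
      R ^ 3 + (W.a₂ : κ) * R ^ 2 + (W.a₄ : κ) * R + (W.a₆ : κ) := by
    have hE := M.eqn
    rw [equation_iff] at hE
    have h1 : (⟨t, ht⟩ : A) ^ 2 + (W.a₁ : A) * ⟨r, hr⟩ * ⟨t, ht⟩ + (W.a₃ : A) * ⟨t, ht⟩ =
        ⟨r, hr⟩ ^ 3 + (W.a₂ : A) * ⟨r, hr⟩ ^ 2 + (W.a₄ : A) * ⟨r, hr⟩ + (W.a₆ : A) := by
      apply Subtype.ext
      push_cast
      rw [c1, c2, c3, c4, c6] at hE
      exact hE
    have h2 := congrArg (IsLocalRing.residue A) h1
    simp only [map_add, map_sub, map_mul, map_pow, map_intCast, map_ofNat, _root_.map_zero] at h2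
    exact h2
  have h2T : 2 * T + (W.a₁ : κ) * R + (W.a₃ : κ) = 0 := by
    have hE := M.two
    have h1 : 2 * (⟨t, ht⟩ : A) + (W.a₁ : A) * ⟨r, hr⟩ + (W.a₃ : A) = 0 := by
      apply Subtype.ext
      push_cast
      rw [c1, c3] at hE
      exact hE
    have h2 := congrArg (IsLocalRing.residue A) h1
    simp only [map_add, map_sub, map_mul, map_pow, map_intCast, map_ofNat, _root_.map_zero] at h2
    exact h2
  have hA4 : 3 * R ^ 2 + 2 * (W.a₂ : κ) * R + (W.a₄ : κ) - (W.a₁ : κ) * T = 0 := by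
    have h1 : ((3 * (⟨r, hr⟩ : A) ^ 2 + 2 * (W.a₂ : A) * ⟨r, hr⟩ + (W.a₄ : A) -
        (W.a₁ : A) * ⟨t, ht⟩ : A) : Qb) = tA4 (WQ W) r t := by
      rw [tA4, c1, c2, c4]
      push_cast
      rfl
    have h2 := (key _).1 (by rw [h1]; exact hm)
    simp only [map_add, map_sub, map_mul, map_pow, map_intCast, map_ofNat, _root_.map_zero] at h2
    exact h2
  rw [← not_iff_not, not_le, ← e1]
  rw [nonsingular_iff, equation_iff]
  simp only [WeierstrassCurve.map_a₁, WeierstrassCurve.map_a₂, WeierstrassCurve.map_a₃,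
    WeierstrassCurve.map_a₄, WeierstrassCurve.map_a₆, eq_intCast]
  constructor
  · intro h
    rw [not_and_or] at h
    rcases h with h | h
    · exact absurd hEx h
    push Not at h
    obtain ⟨h3, h4⟩ := h
    -- singular point: X = R
    have h5 : 2 * Y + (W.a₁ : κ) * X + (W.a₃ : κ) = 0 := by linear_combination h4
    have h6 : (X - R) ^ 3 = 0 := by
      linear_combination 2 * hEx - 2 * hEr - (Y - T) * h2T - (Y - T) * h5 + (X - R) * hA4 -
        (X - R) * h3
    exact sub_eq_zero.1 (pow_eq_zero_iff three_ne_zero |>.1 h6)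
  · intro hXR
    rw [hXR] at hEx ⊢
    have h5 : (Y - T) ^ 2 = 0 := by linear_combination hEx - hEr - (Y - T) * h2T
    have h6 : Y = T := sub_eq_zero.1 (pow_eq_zero_iff two_ne_zero |>.1 h5)
    rw [h6, not_and_or]
    right
    push Not
    constructor
    · linear_combination -hA4
    · linear_combination h2T

theorem c1 (W : WeierstrassCurve ℤ) : (WQ W).a₁ = (W.a₁ : Qb) := by rw [WQ_eq]; rfl
theorem c3 (W : WeierstrassCurve ℤ) : (WQ W).a₃ = (W.a₃ : Qb) := by rw [WQ_eq]; rfl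

/-- a point with singular reduction has small `ψ₂` -/
theorem psi_small {x y : Qb} (hE : (WQ W).toAffine.Equation x y) (hx : x ∈ A) (hy : y ∈ A)
    (h : ¬ (W.map (Int.castRingHom (IsLocalRing.ResidueField A))).toAffine.Nonsingular
          (IsLocalRing.residue A ⟨x, hx⟩) (IsLocalRing.residue A ⟨y, hy⟩)) :
    A.valuation (2 * y + (WQ W).a₁ * x + (WQ W).a₃) < 1 := by
  set κ := IsLocalRing.ResidueField A
  set X : κ := IsLocalRing.residue A ⟨x, hx⟩ with hX
  set Y : κ := IsLocalRing.residue A ⟨y, hy⟩ with hY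
  have hEx : Y ^ 2 + (W.a₁ : κ) * X * Y + (W.a₃ : κ) * Y =
      X ^ 3 + (W.a₂ : κ) * X ^ 2 + (W.a₄ : κ) * X + (W.a₆ : κ) := by
    have c2 : (WQ W).a₂ = (W.a₂ : Qb) := by rw [WQ_eq]; rfl
    have c4 : (WQ W).a₄ = (W.a₄ : Qb) := by rw [WQ_eq]; rfl
    have c6 : (WQ W).a₆ = (W.a₆ : Qb) := by rw [WQ_eq]; rfl
    rw [equation_iff] at hE
    have h1 : (⟨y, hy⟩ : A) ^ 2 + (W.a₁ : A) * ⟨x, hx⟩ * ⟨y, hy⟩ + (W.a₃ : A) * ⟨y, hy⟩ =
        ⟨x, hx⟩ ^ 3 + (W.a₂ : A) * ⟨x, hx⟩ ^ 2 + (W.a₄ : A) * ⟨x, hx⟩ + (W.a₆ : A) := by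
      apply Subtype.ext
      push_cast
      rw [c1, c2, c3, c4, c6] at hE
      exact hE
    have h2 := congrArg (IsLocalRing.residue A) h1
    simp only [map_add, map_sub, map_mul, map_pow, map_intCast, map_ofNat, _root_.map_zero] at h2
    exact h2
  rw [nonsingular_iff, equation_iff, not_and_or] at h
  simp only [WeierstrassCurve.map_a₁, WeierstrassCurve.map_a₂, WeierstrassCurve.map_a₃,
    WeierstrassCurve.map_a₄, WeierstrassCurve.map_a₆, eq_intCast] at h
  rcases h with h | h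
  · exact absurd hEx h
  push Not at h
  obtain ⟨-, h4⟩ := h
  have h5 : 2 * Y + (W.a₁ : κ) * X + (W.a₃ : κ) = 0 := by linear_combination h4
  have h6 : ((2 * (⟨y, hy⟩ : A) + (W.a₁ : A) * ⟨x, hx⟩ + (W.a₃ : A) : A) : Qb) =
      2 * y + (WQ W).a₁ * x + (WQ W).a₃ := by
    rw [c1, c3]
    push_cast
    rfl
  rw [← h6, ← A.valuation_lt_one_iff, ← IsLocalRing.residue_eq_zero_iff]
  simp only [map_add, map_mul, map_intCast, map_ofNat]
  exact h5

/-- the identity component -/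
theorem inZero_iff {r t : Qb} (M : IntT A.valuation (WQ W) r t)
    (hm : A.valuation (tA4 (WQ W) r t) < 1) (P : (WQ W).toAffine.Point) :
    W.InZeroComponentAt A P ↔ P ∈ M.E0 hm := by
  have hint : IsInt A.valuation (WQ W) := by
    rw [WQ_eq]
    exact ⟨val_int_le _ _, val_int_le _ _, val_int_le _ _, val_int_le _ _, val_int_le _ _⟩
  constructor
  · rintro (rfl | ⟨x, y, h, rfl, h1⟩)
    · exact zero_mem _
    · refine (M.mem_E0_some hm h).2 ?_
      rcases h1 with h1 | ⟨hx, hy, h1⟩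
      · have h2 : 1 < A.valuation x := by
          rw [← not_le, A.valuation_le_one_iff]; exact h1
        have h3 : A.valuation (x - r) = A.valuation x :=
          Valuation.map_sub_eq_of_lt_left _ (M.vr.trans_lt h2)
        rw [h3]; exact h2.le
      · exact (nonsing_red_iff M hm h.1 hx hy).1 h1
  · intro hP
    rcases P with _ | ⟨x, y, h⟩
    · exact Or.inl rfl
    · replace hP := (M.mem_E0_some hm h).1 hP
      refine Or.inr ⟨x, y, h, rfl, ?_⟩
      by_cases hx : x ∈ A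
      · right
        have hy : y ∈ A := (A.valuation_le_one_iff y).1
          (hint.y_integral h.1 ((A.valuation_le_one_iff x).2 hx))
        exact ⟨hx, hy, (nonsing_red_iff M hm h.1 hx hy).2 hP⟩
      · exact Or.inl hx

/-- the product of the `ψ₂²` over the multiples -/
def PiQ (W : WeierstrassCurve ℤ) (N : ℕ) (P : (WQ W).toAffine.Point) : Qb :=
  ∏ k ∈ (Finset.range N).erase 0, psq (WQ W) (k • P)

variable {N : ℕ} {q : ℕ}

/-- **identity component: unit product** -/
theorem PiQ_unit (hMlt : IsMult A.valuation (WQ W)) (hodd : Odd N)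
    (hvN : A.valuation (N : Qb) = 1) {P : (WQ W).toAffine.Point} (hP : addOrderOf P = N)
    (h : W.InZeroComponentAt A P) : A.valuation (PiQ W N P) = 1 := by
  obtain ⟨r, t, M, hm, -, -, -⟩ := hMlt.exists_pt
  rw [inZero_iff M hm] at h
  rw [PiQ, map_prod]
  refine Finset.prod_eq_one fun k hk => ?_
  rw [Finset.mem_erase, Finset.mem_range] at hk
  refine psq_unit hMlt.int M hm hMlt.nat hodd hvN (P := k • P) ?_ ?_ (nsmul_mem h k)
  · rw [← mul_nsmul', mul_comm, mul_nsmul', ← hP, addOrderOf_nsmul_eq_zero, smul_zero]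
  · intro h0
    have h1 := addOrderOf_dvd_of_nsmul_eq_zero h0
    rw [hP] at h1
    have := Nat.le_of_dvd (Nat.pos_of_ne_zero hk.1) h1
    omega

/-- **outside the identity component: small product** -/
theorem PiQ_small (hMlt : IsMult A.valuation (WQ W)) (hodd : Odd N) (hN1 : 1 < N)
    (hvN : A.valuation (N : Qb) = 1) {P : (WQ W).toAffine.Point} (hP : addOrderOf P = N)
    (h : ¬ W.InZeroComponentAt A P) : A.valuation (PiQ W N P) < 1 := by
  have hN0 : N • P = 0 := by rw [← hP]; exact addOrderOf_nsmul_eq_zero P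
  have h1 : (1 : ℕ) ∈ (Finset.range N).erase 0 := by
    rw [Finset.mem_erase, Finset.mem_range]; exact ⟨one_ne_zero, hN1⟩
  rw [PiQ, ← Finset.mul_prod_erase _ _ h1, map_mul, one_nsmul]
  have h2 : A.valuation (psq (WQ W) P) < 1 := by
    rcases P with _ | ⟨x, y, hns⟩
    · exact absurd (Or.inl rfl) h
    · have hx : x ∈ A := by
        by_contra hx
        exact h (Or.inr ⟨x, y, hns, rfl, Or.inl hx⟩)
      have hy : y ∈ A := (A.valuation_le_one_iff y).1
          (hMlt.int.y_integral hns.1 ((A.valuation_le_one_iff x).2 hx))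
      have h3 := psi_small hns.1 hx hy (fun h4 => h (Or.inr ⟨x, y, hns, rfl, Or.inr ⟨hx, hy, h4⟩⟩))
      change A.valuation ((2 * y + (WQ W).a₁ * x + (WQ W).a₃) ^ 2) < 1
      rw [map_pow]
      exact pow_lt_one₀ zero_le h3 two_ne_zero
  have h3 : A.valuation (∏ k ∈ ((Finset.range N).erase 0).erase 1, psq (WQ W) (k • P)) ≤ 1 := by
    rw [map_prod]
    refine Finset.prod_le_one' fun k _ => ?_
    refine psq_le hMlt.int hMlt.nat hodd hvN (P := k • P) ?_
    rw [← mul_nsmul', mul_comm, mul_nsmul', hN0, smul_zero]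
  calc _ ≤ A.valuation (psq (WQ W) P) * 1 := by gcongr
    _ < 1 := by rwa [mul_one]

/-- the identity component is a subgroup -/
theorem inZero_nsmul (hMlt : IsMult A.valuation (WQ W)) {P : (WQ W).toAffine.Point} (m : ℕ)
    (h : W.InZeroComponentAt A P) : W.InZeroComponentAt A (m • P) := by
  obtain ⟨r, t, M, hm, -, -, -⟩ := hMlt.exists_pt
  rw [inZero_iff M hm] at h ⊢
  exact nsmul_mem h m

end Model

end Fermat.Agent.Mz
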