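import Fermat.Agent.Mz.Liou

/-!
# Lower bounds for orders of meromorphic functions
-/

set_option autoImplicit false

noncomputable section

open Filter Topology PeriodPair

namespace Fermat.Agent.Mz

/-- `f` is meromorphic of order at least `n` at `z` -/
def GO (f : ℂ → ℂ) (z : ℂ) (n : ℤ) : Prop := MeromorphicAt f z ∧ (n : WithTop ℤ) ≤ meromorphicOrderAt f z

namespace GO

variable {f g : ℂ → ℂ} {z : ℂ} {n m : ℤ}

theorem mono (h : GO f z n) (hm : m ≤ n) : GO f z m :=
  ⟨h.1, le_trans (by exact_mod_cast hm) h.2⟩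

theorem mul (hf : GO f z n) (hg : GO g z m) : GO (fun x => f x * g x) z (n + m) := by
  refine ⟨hf.1.mul hg.1, ?_⟩
  have h1 := meromorphicOrderAt_mul hf.1 hg.1
  change _ ≤ meromorphicOrderAt (f * g) z
  rw [h1, WithTop.coe_add]
  exact add_le_add hf.2 hg.2

theorem add (hf : GO f z n) (hg : GO g z n) : GO (fun x => f x + g x) z n := by
  refine ⟨hf.1.add hg.1, ?_⟩
  exact (le_min hf.2 hg.2).trans (meromorphicOrderAt_add hf.1 hg.1)

theorem neg (hf : GO f z n) : GO (fun x => -f x) z n := by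
  refine ⟨hf.1.neg, ?_⟩
  have : meromorphicOrderAt (fun x => -f x) z = meromorphicOrderAt f z :=
    meromorphicOrderAt_fun_neg.symm
  rw [this]
  exact hf.2

theorem sub (hf : GO f z n) (hg : GO g z n) : GO (fun x => f x - g x) z n := by
  simp only [sub_eq_add_neg]
  exact hf.add hg.neg

theorem of_analytic (hf : AnalyticAt ℂ f z) : GO f z 0 :=
  ⟨hf.meromorphicAt, by exact_mod_cast hf.meromorphicOrderAt_nonneg⟩

theorem const (c : ℂ) (z : ℂ) : GO (fun _ => c) z 0 := of_analytic analyticAt_const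

theorem smul (c : ℂ) (hf : GO f z n) : GO (fun x => c * f x) z n := by
  simpa using (const c z).mul hf

theorem sq (hf : GO f z n) : GO (fun x => f x ^ 2) z (n + n) := by
  simpa [pow_two] using hf.mul hf

theorem comp_add {a : ℂ} (hf : GO f (z + a) n) : GO (fun x => f (x + a)) z n := by
  have h := meromorphicOrderAt_comp_add_const_eq_meromorphicOrderAt (x := z) (c := a) (f := f)
  refine ⟨?_, ?_⟩
  · exact hf.1.comp_analyticAt (g := fun x => x + a) (by fun_prop)
  · have h2 : meromorphicOrderAt (fun x => f (x + a)) z = meromorphicOrderAt f (z + a) := h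
    rw [h2]
    exact hf.2

theorem congr (hf : GO f z n) (h : f =ᶠ[𝓝[≠] z] g) : GO g z n :=
  ⟨hf.1.congr h, by rw [← meromorphicOrderAt_congr h]; exact hf.2⟩

theorem of_order {f : ℂ → ℂ} {z : ℂ} {n : ℕ} (hf : AnalyticAt ℂ f z)
    (h : (n : ℕ∞) ≤ analyticOrderAt f z) : GO f z n := by
  refine ⟨hf.meromorphicAt, ?_⟩
  rw [hf.meromorphicOrderAt_eq]
  cases h1 : analyticOrderAt f z with
  | top => exact le_top
  | coe m =>
    rw [h1] at h
    have : n ≤ m := by exact_mod_cast h
    change ((n : ℤ) : WithTop ℤ) ≤ ((m : ℤ) : WithTop ℤ)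
    exact_mod_cast this

theorem of_zero (hf : AnalyticAt ℂ f z) (h0 : f z = 0) : GO f z 1 := by
  have h1 : (1 : ℕ∞) ≤ analyticOrderAt f z := by
    rw [Order.one_le_iff_ne_zero, hf.analyticOrderAt_ne_zero]
    exact h0
  exact_mod_cast of_order (n := 1) hf (by exact_mod_cast h1)

theorem of_zero2 (hf : AnalyticAt ℂ f z) (h0 : f z = 0) (h1 : deriv f z = 0) : GO f z 2 := by
  have h2 : ((2 : ℕ) : ℕ∞) ≤ analyticOrderAt f z := by
    rw [natCast_le_analyticOrderAt_iff_iteratedDeriv_eq_zero hf]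
    intro i hi
    interval_cases i
    · simpa using h0
    · simpa [iteratedDeriv_one] using h1
  exact_mod_cast of_order (n := 2) hf h2

theorem of_tendsto_zero {f : ℂ → ℂ} {z : ℂ} (hf : MeromorphicAt f z) (h : Tendsto f (𝓝[≠] z) (𝓝 0)) :
    GO f z 1 := by
  refine ⟨hf, ?_⟩
  have h1 := (tendsto_zero_iff_meromorphicOrderAt_pos hf).1 h
  cases h2 : meromorphicOrderAt f z with
  | top => exact le_top
  | coe m =>
    rw [h2] at h1
    have : 0 < m := by exact_mod_cast h1
    exact_mod_cast this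

end GO

/-- **Liouville's theorem** -/
theorem liou' (L : PeriodPair) {f : ℂ → ℂ} (hp : ∀ l ∈ L.lattice, ∀ z, f (z + l) = f z)
    (ho : ∀ z, GO f z 0) : ∃ c, ∀ z, f =ᶠ[𝓝[≠] z] fun _ => c :=
  liou L (fun z => (ho z).1) hp (fun z => by exact_mod_cast (ho z).2)

theorem eq_of_evt {f : ℂ → ℂ} {c z : ℂ} (h : f =ᶠ[𝓝[≠] z] fun _ => c) (hf : ContinuousAt f z) :
    f z = c := by
  have h1 : Tendsto f (𝓝[≠] z) (𝓝 (f z)) := hf.tendsto.mono_left nhdsWithin_le_nhds
  exact tendsto_nhds_unique (h1.congr' h) tendsto_const_nhds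

theorem lim_of_evt {f : ℂ → ℂ} {c z d : ℂ} (h : f =ᶠ[𝓝[≠] z] fun _ => c)
    (hf : Tendsto f (𝓝[≠] z) (𝓝 d)) : d = c :=
  tendsto_nhds_unique (hf.congr' h) tendsto_const_nhds

/-- an even meromorphic function has even order -/
theorem even_order {f : ℂ → ℂ} (he : ∀ z, f (-z) = f z) {n : ℤ} (hf : MeromorphicAt f 0)
    (h : meromorphicOrderAt f 0 = n) : Even n := by
  obtain ⟨g, hg, hg0, hgf⟩ := (meromorphicOrderAt_eq_int_iff hf).1 h
  simp only [sub_zero, smul_eq_mul] at hgf
  by_contra hodd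
  rw [Int.not_even_iff_odd] at hodd
  have h1 : Tendsto (fun z : ℂ => -z) (𝓝[≠] 0) (𝓝[≠] 0) := by
    refine tendsto_nhdsWithin_of_tendsto_nhds_of_eventually_within _ ?_ ?_
    · have := (continuous_neg (G := ℂ)).tendsto 0
      rw [neg_zero] at this
      exact this.mono_left nhdsWithin_le_nhds
    · filter_upwards [self_mem_nhdsWithin] with w hw
      simpa using hw
  have h2 := h1.eventually hgf
  have h3 : ∀ᶠ z in 𝓝[≠] (0 : ℂ), g (-z) + g z = 0 := by
    filter_upwards [h2, hgf, self_mem_nhdsWithin] with z hz1 hz2 hz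
    have hz0 : z ≠ 0 := hz
    rw [he, hz2, hodd.neg_zpow] at hz1
    have h4 : z ^ n ≠ 0 := zpow_ne_zero _ hz0
    have h5 : z ^ n * (g (-z) + g z) = 0 := by linear_combination hz1
    exact (mul_eq_zero.1 h5).resolve_left h4
  have h4 : Tendsto (fun z => g (-z) + g z) (𝓝[≠] 0) (𝓝 (g 0 + g 0)) := by
    have hc : ContinuousAt (fun z => g (-z) + g z) 0 := by
      have h6 : ContinuousAt g (-0) := by rw [neg_zero]; exact hg.continuousAt
      exact (ContinuousAt.comp (f := fun z : ℂ => -z) h6 continuous_neg.continuousAt).add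
        hg.continuousAt
    have := hc.tendsto
    simp only [neg_zero] at this
    exact this.mono_left nhdsWithin_le_nhds
  have h5 := tendsto_nhds_unique (h4.congr' h3) tendsto_const_nhds
  apply hg0
  have : (2 : ℂ) * g 0 = 0 := by linear_combination h5
  exact (mul_eq_zero.1 this).resolve_left two_ne_zero

theorem GO.even {f : ℂ → ℂ} (he : ∀ z, f (-z) = f z) {n : ℤ} (h : GO f 0 (2 * n - 1)) :
    GO f 0 (2 * n) := by
  refine ⟨h.1, ?_⟩
  have h2 := h.2
  cases h1 : meromorphicOrderAt f 0 with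
  | top => exact le_top
  | coe m =>
    rw [h1] at h2
    have h3 : 2 * n - 1 ≤ m := by exact_mod_cast h2
    have h4 := even_order he h.1 h1
    obtain ⟨k, hk⟩ := h4
    have : 2 * n ≤ m := by omega
    exact_mod_cast this

end Fermat.Agent.Mz
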