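import Fermat.Agent.Mz.Disc2
import Fermat.Agent.Spec.Main

/-!
# The cusps of the base change of the modular function field
-/

set_option autoImplicit false
set_option linter.style.haveILetI false
set_option linter.unusedSectionVars false

noncomputable section

namespace Fermat.Agent.Mz

open ModularCurve Polynomial IntermediateField Fermat.Agent.ModPoly AlgebraicCurve
  Fermat.Agent.RR Fermat.Agent.Cusp Fermat.Agent.RedMod Fermat.Agent.Spec Fermat.Agent.Curve
  Fermat.Agent.Red Fermat.Agent.ThmC Fermat.Agent.CarM Fermat.Agent.CarE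

/-- the function `j`, the modular unit, and the cusps -/
structure CuspData (K : Type*) [Field K] [IsAlgClosed K] (N : ℕ) [hNp : Fact N.Prime] [NeZero N]
    (E : IntermediateField K (LaurentSeries K)) where
  jE : E
  hj : (jE : LaurentSeries K) = Jc 1 1
  uE : E
  hu : (uE : LaurentSeries K) = rm K (pp N)
  cI : Place K E
  hI : ∀ f : E, cI.ord f = (f : LaurentSeries K).order
  cZ : Place K E
  hZ : cZ.ord jE = -(N : ℤ)

section Basic

variable {K : Type*} [Field K] [IsAlgClosed K] {N : ℕ} [hNp : Fact N.Prime] [NeZero N]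
  {E : IntermediateField K (LaurentSeries K)}

theorem exists_cuspData (hNK : (N : K) ≠ 0) (hE : E = FF K N) : Nonempty (CuspData K N E) := by
  subst hE
  exact ⟨⟨jF' K N, rfl, uN hNK, rfl, cuspInf K N, cuspInf_ord, cusp0 hNK, cusp0_ord_j hNK⟩⟩

/-- comparison with the standard cusps -/
theorem CuspData.eqs [FunField K (FF K N)] (hNK : (N : K) ≠ 0) (c : CuspData K N (FF K N)) :
    c.jE = jF' K N ∧ c.uE = uN hNK ∧ c.cI = cuspInf K N ∧ c.cZ = cusp0 hNK := by
  have h1 := hNp.out.one_lt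
  have e1 : c.jE = jF' K N := Subtype.ext c.hj
  have e2 : c.uE = uN hNK := Subtype.ext c.hu
  refine ⟨e1, e2, ?_, ?_⟩
  · have h2 : c.cI.ord (jF' K N) = -1 := (c.hI _).trans order_jF
    rcases cusp_or hNK (v := c.cI) (by rw [h2]; norm_num) with h | h
    · exact h
    · rw [h, cusp0_ord_j] at h2
      omega
  · have h2 : c.cZ.ord (jF' K N) = -(N : ℤ) := by rw [← e1]; exact c.hZ
    rcases cusp_or hNK (v := c.cZ) (by rw [h2]; omega) with h | h
    · rw [h, ord_j_inf] at h2
      omega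
    · exact h

theorem CuspData.divisor_u (hE : E = FF K N) [FunField K E] (hNK : (N : K) ≠ 0)
    (c : CuspData K N E) : divisor K c.uE = Finsupp.single c.cI ((N : ℤ) - 1) -
      Finsupp.single c.cZ ((N : ℤ) - 1) := by
  subst hE
  obtain ⟨-, e2, e3, e4⟩ := c.eqs hNK
  rw [e2, e3, e4, Mz.divisor_u]

theorem CuspData.uE_ne (c : CuspData K N E) : c.uE ≠ 0 := by
  intro h
  have := c.hu
  rw [h] at this
  exact rm_ne_zero (k := K) (pp N) this.symm

theorem CuspData.ne (hE : E = FF K N) [FunField K E] (hNK : (N : K) ≠ 0)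
    (c : CuspData K N E) : c.cI ≠ c.cZ := by
  subst hE
  obtain ⟨-, e2, e3, e4⟩ := c.eqs hNK
  rw [e3, e4]
  exact inf_ne_zero hNK

theorem CuspData.cusp_or (hE : E = FF K N) [FunField K E] (hNK : (N : K) ≠ 0)
    (c : CuspData K N E) {v : Place K E} (hv : v.ord c.jE < 0) : v = c.cI ∨ v = c.cZ := by
  subst hE
  obtain ⟨e1, e2, e3, e4⟩ := c.eqs hNK
  rw [e1] at hv
  rw [e3, e4]
  exact Mz.cusp_or hNK hv

end Basic

section Red

attribute [local instance] algI isScalarTower_algI

variable {A K k : Type*} [CommRing A] [IsDomain A] [ValuationRing A]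
  [Field K] [IsAlgClosed K] [CharZero K] [Algebra A K] [IsFractionRing A K] [Field k]
  [IsAlgClosed k] [Algebra A k] {hk : Function.Surjective (algebraMap A k)} {N : ℕ}
  {E : IntermediateField K (LaurentSeries K)} [FunField K E]
  [FunField k (FF k N)] (hE : E = FF K N) (S : LevelRed hk E (FF k N))
  [hNp : Fact N.Prime] [NeZero N] (hNk : (N : k) ≠ 0) (c : CuspData K N E)

include hE in
theorem CuspData.r_cusps : S.D.r (Finsupp.single c.cI 1) = Finsupp.single (cuspInf k N) 1 ∧
    S.D.r (Finsupp.single c.cZ 1) = Finsupp.single (cusp0 hNk) 1 := by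
  subst hE
  have hNK : (N : K) ≠ 0 := Nat.cast_ne_zero.2 (NeZero.ne N)
  obtain ⟨e1, e2, e3, e4⟩ := c.eqs hNK
  rw [e3, e4]
  exact Mz.r_cusps S hNK hNk

include hE hNk in
theorem CuspData.disc {P : Place K E} {cj cu : K} (hj : IsVal P c.jE cj) (hu : IsVal P c.uE cu)
    (hl : Lg A cj) :
    (S.D.r (Finsupp.single P 1) = S.D.r (Finsupp.single c.cI 1) ∧ Sm A cu ∧
      Un A (cu * cj ^ (N - 1))) ∨
    (S.D.r (Finsupp.single P 1) = S.D.r (Finsupp.single c.cZ 1) ∧ Lg A cu) := by
  subst hE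
  have hNK : (N : K) ≠ 0 := Nat.cast_ne_zero.2 (NeZero.ne N)
  obtain ⟨h1, h2⟩ := c.r_cusps rfl S hNk
  rw [h1, h2]
  obtain ⟨e1, e2, e3, e4⟩ := c.eqs hNK
  rw [e1] at hj
  rw [e2] at hu
  exact disc_cases hNK hNk hj hu hl

include hE hNk in
theorem CuspData.unique {P P' : Place K E} {cj cu : K} (hj : IsVal P c.jE cj)
    (hu : IsVal P c.uE cu) (hj' : IsVal P' c.jE cj) (hu' : IsVal P' c.uE cu) (hl : Lg A cj)
    (S : LevelRed hk E (FF k N)) : P = P' := by
  subst hE
  have hNK : (N : K) ≠ 0 := Nat.cast_ne_zero.2 (NeZero.ne N)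
  obtain ⟨e1, e2, e3, e4⟩ := c.eqs hNK
  rw [e1] at hj hj'
  rw [e2] at hu hu'
  exact disc_unique hNK hNk hj hu hj' hu' hl S

end Red

section Size

variable {K : Type*} [Field K] {A : ValuationSubring K}

theorem lg_iff {c : K} : Lg A c ↔ 1 < A.valuation c := by
  constructor
  · rintro ⟨a, ha, h⟩
    have h1 : (a : K) * c = 1 := h
    have h2 : A.valuation (a : K) < 1 := (A.valuation_lt_one_iff a).1 (by
      rwa [IsLocalRing.mem_maximalIdeal, mem_nonunits_iff])
    have h3 : A.valuation (a : K) * A.valuation c = 1 := by rw [← map_mul, h1, map_one]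
    by_contra hcon
    push Not at hcon
    have h4 : A.valuation (a : K) * A.valuation c < 1 := mul_lt_one_of_lt_of_le h2 hcon
    rw [h3] at h4
    exact lt_irrefl _ h4
  · intro h
    have hc : c ≠ 0 := by
      rintro rfl
      rw [map_zero] at h
      exact not_lt_zero' h
    have h1 : A.valuation c⁻¹ < 1 := by
      rw [map_inv₀]
      exact inv_lt_one_of_one_lt₀ h
    have h2 : c⁻¹ ∈ A := (A.valuation_le_one_iff _).1 h1.le
    refine ⟨⟨c⁻¹, h2⟩, ?_, inv_mul_cancel₀ hc⟩
    rw [← mem_nonunits_iff, ← IsLocalRing.mem_maximalIdeal, A.valuation_lt_one_iff]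
    exact h1

theorem sm_iff {c : K} : Sm A c ↔ A.valuation c < 1 := by
  constructor
  · rintro ⟨a, ha, h⟩
    have h1 : (a : K) = c := h
    rw [← h1]
    exact (A.valuation_lt_one_iff a).1 (by rwa [IsLocalRing.mem_maximalIdeal, mem_nonunits_iff])
  · intro h
    have h2 : c ∈ A := (A.valuation_le_one_iff _).1 h.le
    refine ⟨⟨c, h2⟩, ?_, rfl⟩
    rw [← mem_nonunits_iff, ← IsLocalRing.mem_maximalIdeal, A.valuation_lt_one_iff]
    exact h

theorem un_iff {c : K} : Un A c ↔ A.valuation c = 1 := by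
  constructor
  · rintro ⟨a, ha, h⟩
    have h1 : (a : K) = c := h
    rw [← h1]
    exact (A.valuation_eq_one_iff a).1 ha
  · intro h
    have h2 : c ∈ A := (A.valuation_le_one_iff _).1 h.le
    exact ⟨⟨c, h2⟩, (A.valuation_eq_one_iff _).2 h, rfl⟩

end Size

end Fermat.Agent.Mz
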