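import Fermat.Agent.Mz.Disc2
import Fermat.Agent.X0Genus.Analytic
import Fermat.Agent.Spec.Main

/-!
# The point of the modular curve attached to `τ`
-/

set_option autoImplicit false
set_option linter.style.haveILetI false
set_option linter.unusedSectionVars false

noncomputable section

open UpperHalfPlane hiding I
open Complex ModularCurve Filter ModularForm IntermediateField
open scoped Topology Manifold MatrixGroups

namespace Fermat.Agent.Mz

open Fermat.Agent.JFun Fermat.Agent.ModPoly Fermat.Agent.X0Genus AlgebraicCurve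
  Fermat.Agent.Curve Fermat.Agent.RR Fermat.Agent.Spec

theorem thetaL_pos (τ₀ : ℍ) {f : hol} (hf : f ≠ 0) (h0 : (f : ℍ → ℂ) τ₀ = 0) :
    0 < (thetaL τ₀ f).order := by
  have hne' : (f : ℍ → ℂ) ≠ 0 := fun h => hf (Subtype.ext h)
  obtain ⟨n, hn⟩ := ENat.ne_top_iff_exists.1 (ordAt_ne_top τ₀ f.2 hne')
  rw [order_thetaL τ₀ hn.symm]
  have h1 : n ≠ 0 := by
    rintro rfl
    have h2 : analyticOrderAt ((f : ℍ → ℂ) ∘ ofComplex) (τ₀ : ℂ) = 0 := hn.symm
    rw [AnalyticAt.analyticOrderAt_eq_zero (analyticAt_of_mdiff f.2 τ₀)] at h2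
    apply h2
    simpa [ofComplex_apply] using h0
  exact_mod_cast Nat.pos_of_ne_zero h1

theorem Dc_one_eq' (m : ℕ+) [NeZero (m : ℕ)] : (Dc 1 m : LaurentSeries ℂ) = qExpand ℂ m (deltaC ℂ) :=
  (qExpand_eq_Sb (m : ℕ) m rfl (deltaC ℂ)).symm

theorem rm_eq (m : ℕ+) [NeZero (m : ℕ)] :
    rm ℂ m = qExpand ℂ m (deltaC ℂ) * deltaInvC ℂ := by
  haveI : NeZero (((1 : ℕ+) : ℕ)) := ⟨one_ne_zero⟩
  have h1 : (Dc 1 1 : LaurentSeries ℂ) = deltaC ℂ := by
    rw [Dc_one_eq']
    exact qExpand_one_apply _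
  rw [rm, Dc_one_eq', h1, deltaInvC_eq_inv]

theorem conv_rm (m : ℕ+) : Conv (rm ℂ m) := by
  haveI : NeZero (m : ℕ) := ⟨m.ne_zero⟩
  rw [rm_eq]
  exact (Conv.qExpand conv_deltaC _).mul conv_deltaInvC

/-- the value of the modular unit -/
theorem evz_rm (m : ℕ+) [NeZero (m : ℕ)] (τ : ℍ) :
    evz (rm ℂ m) (qpp 1 τ) = discriminant (mulD m τ) / discriminant τ := by
  have h1 : (Function.Periodic.qParam 1 τ) ^ (m : ℕ) = Function.Periodic.qParam 1 (mulD m τ) := by
    rw [Function.Periodic.qParam, Function.Periodic.qParam, ← Complex.exp_nat_mul, coe_mulD]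
    congr 1
    ring
  rw [rm_eq, qpp_one, evz_mul (Conv.qExpand conv_deltaC _) conv_deltaInvC (qParam_one_ne_zero τ)
    (norm_qParam_one_lt τ), evz_deltaInvC, evz_qExpand, h1, evz_deltaC, div_eq_mul_inv]

variable {K : Type*} [Field K] [IsAlgClosed K] [CharZero K] [Algebra ℚ K] {N : ℕ} [NeZero N]
  (ι : K →+* ℂ)

/-- **points of the upper half plane give places** -/
theorem exists_pt (m : ℕ+) (uE : EB K N) (huE : (uE : LaurentSeries K) = rm K m) (τ : ℍ) {cj cu : K}
    (hj : jfun τ = ι cj) [NeZero (m : ℕ)]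
    (hu : discriminant (mulD m τ) / discriminant τ = ι cu) [FunField K (EB K N)] :
    ∃ P : Place K (EB K N), IsVal P (jj K N) cj ∧ IsVal P uE cu := by
  obtain ⟨v, e, he, hv⟩ := exists_place_of_point N ι (QuotientGroup.mk 1) τ cj hj
  have hphi : ∀ f : EB K N, phiX N ι (QuotientGroup.mk 1) f = phi0 N ι f := by
    intro f
    rw [phiX_mk, phiM]
    have : act (1 : SL(2, ℤ)) = RingHom.id MF := act_one
    simp only [RingHom.comp_apply, this, RingHom.id_apply]
  have key : ∀ (f : EB K N) (c : K) (g : hol), phi0 N ι f = algebraMap hol MF g →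
      (g : ℍ → ℂ) τ = ι c → IsVal v f c := by
    intro f c g hg hgc
    by_cases h0 : f - algebraMap K _ c = 0
    · exact Or.inl h0
    · right
      have h1 := hv _ h0
      have h2 : phi0 N ι (f - algebraMap K _ c) = algebraMap hol MF (g - constH (ι c)) := by
        rw [map_sub, hg, phi0_const, map_sub]
      rw [hphi, h2, thetaM_algebraMap] at h1
      have h3 : 0 < (thetaL τ (g - constH (ι c))).order := by
        refine thetaL_pos τ ?_ ?_
        · intro h4
          rw [h4, map_zero] at h2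
          exact h0 ((map_eq_zero (phi0 N ι)).1 h2)
        · change (g : ℍ → ℂ) τ - ι c = 0
          rw [hgc, sub_self]
      rw [h1] at h3
      have h5 : 0 < v.ord (f - algebraMap K _ c) := by
        by_contra h6
        push Not at h6
        exact (not_lt.2 (mul_nonpos_of_nonneg_of_nonpos he.le h6)) h3
      exact h5
  refine ⟨v, key _ _ jH ?_ hj, key _ _ (evPh 1 ⟨rm ℂ m, conv_rm m⟩) ?_ ?_⟩
  · have := phiM_jj N ι (1 : SL(2, ℤ))
    rw [← phiX_mk, hphi] at this
    exact this
  · refine phi0_of_conv N ι uE _ ?_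
    change coeffMap ι (uE : LaurentSeries K) = rm ℂ m
    rw [huE, CarM.coeffMap_rm]
  · rw [evPh_apply]
    rw [← hu]
    exact evz_rm m τ

end Fermat.Agent.Mz
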