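import Fermat.Agent.Mz.PlA
import Fermat.Agent.Mz.Pt
import Fermat.Agent.Mz.Unif2
import Fermat.Agent.Mz.Loc

/-!
# The point of the modular curve attached to a rational torsion point
-/

set_option autoImplicit false
set_option linter.style.haveILetI false
set_option linter.unusedSectionVars false

noncomputable section

namespace Fermat.Agent.Mz

open ModularCurve Polynomial IntermediateField Fermat.Agent.ModPoly AlgebraicCurve
  Fermat.Agent.RR Fermat.Agent.Cusp Fermat.Agent.RedMod Fermat.Agent.Spec Fermat.Agent.Curve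
  Fermat.Agent.Red Fermat.Agent.ThmC Fermat.Agent.CarM Fermat.Agent.CarE
  WeierstrassCurve.Affine

local notation "Qb" => AlgebraicClosure ℚ

variable {N : ℕ} [hNp : Fact N.Prime] [NeZero N]

theorem WQ_Δ (W : WeierstrassCurve ℤ) : (WQ W).Δ = (W.Δ : Qb) := by
  rw [WQ_eq, WeierstrassCurve.map_Δ, eq_intCast]

theorem WQ_c4 (W : WeierstrassCurve ℤ) : (WQ W).c₄ = (W.c₄ : Qb) := by
  rw [WQ_eq, WeierstrassCurve.map_c₄, eq_intCast]

theorem WQ_c6 (W : WeierstrassCurve ℤ) : (WQ W).c₆ = (W.c₆ : Qb) := by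
  rw [WQ_eq, WeierstrassCurve.map_c₆, eq_intCast]

/-- the value of `j` -/
def cjW (W : WeierstrassCurve ℤ) : Qb := (W.c₄ : Qb) ^ 3 / (W.Δ : Qb)

/-- the value of `u` -/
def cuW (N : ℕ) (W : WeierstrassCurve ℤ) (ε : ℤ) (P : (WQ W).toAffine.Point) : Qb :=
  (ε : Qb) * (W.Δ : Qb) ^ (N - 1) / ((N : Qb) ^ 12 * PiQ W N P ^ 2)

theorem exists_place (W : WeierstrassCurve ℤ) (hΔ : W.Δ ≠ 0) (hc4 : W.c₄ ≠ 0) (hc6 : W.c₆ ≠ 0)
    (hN3 : 3 ≤ N) [FunField Qb (EB Qb N)] (c : CuspData Qb N (EB Qb N))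
    {Q : (WQ W).toAffine.Point} (hQ : addOrderOf Q = N) :
    ∃ m : ℕ, 0 < m ∧ m < N ∧ PiQ W N (m • Q) ≠ 0 ∧ ∃ ε : ℤ, (ε = 1 ∨ ε = -1) ∧
      ∃ x : Place Qb (EB Qb N), IsVal x c.jE (cjW W) ∧ IsVal x c.uE (cuW N W ε (m • Q)) := by
  obtain ⟨ι⟩ := (exists_ιC : Nonempty (Qb →+* ℂ))
  have hΔ' : (WQ W).Δ ≠ 0 := by rw [WQ_Δ]; exact_mod_cast hΔ
  have hc4' : (WQ W).c₄ ≠ 0 := by rw [WQ_c4]; exact_mod_cast hc4
  have hc6' : (WQ W).c₆ ≠ 0 := by rw [WQ_c6]; exact_mod_cast hc6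
  obtain ⟨m, hm0, hmN, τ, h1, h2⟩ := unif (WQ W) ι hc4' hc6' hΔ' hNp.out hN3 hQ
  have h2' : (N ^ 12 * (ModularForm.discriminant (Fermat.Agent.X0Genus.mulD N τ) / ModularForm.discriminant τ) *
        ι (PiQ W N (m • Q)) ^ 2) ^ 2 = (ι (WQ W).Δ ^ (N - 1)) ^ 2 := h2
  have hD : ι (WQ W).Δ ^ (N - 1) ≠ 0 := pow_ne_zero _ ((map_ne_zero ι).2 hΔ')
  have hPi : PiQ W N (m • Q) ≠ 0 := by
    intro h0
    rw [h0, map_zero] at h2'
    apply hD
    have : (ι (WQ W).Δ ^ (N - 1)) ^ 2 = 0 := by rw [← h2']; ring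
    exact pow_eq_zero_iff two_ne_zero |>.1 this
  have hPi' : ι (PiQ W N (m • Q)) ≠ 0 := (map_ne_zero ι).2 hPi
  have hNC : (N : ℂ) ≠ 0 := Nat.cast_ne_zero.2 hNp.out.ne_zero
  obtain ⟨ε, hε, h3⟩ : ∃ ε : ℤ, (ε = 1 ∨ ε = -1) ∧
      N ^ 12 * (ModularForm.discriminant (Fermat.Agent.X0Genus.mulD N τ) / ModularForm.discriminant τ) *
        ι (PiQ W N (m • Q)) ^ 2 = ε * ι (WQ W).Δ ^ (N - 1) := by
    rcases sq_eq_sq_iff_eq_or_eq_neg.1 h2' with h | h
    · exact ⟨1, Or.inl rfl, by rw [h]; push_cast; ring⟩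
    · exact ⟨-1, Or.inr rfl, by rw [h]; push_cast; ring⟩
  refine ⟨m, hm0, hmN, hPi, ε, hε, ?_⟩
  haveI : NeZero ((pp N : ℕ+) : ℕ) := ⟨(pp N).ne_zero⟩
  have e1 : Fermat.Agent.JFun.jfun τ = ι (cjW W) := by
    rw [h1, cjW, map_div₀, map_pow, WQ_c4, WQ_Δ]
  have e2 : ModularForm.discriminant (Fermat.Agent.X0Genus.mulD N τ) /
      ModularForm.discriminant τ = ι (cuW N W ε (m • Q)) := by
    rw [cuW, map_div₀, map_mul, map_mul, map_pow, map_pow, map_pow, map_natCast, map_intCast,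
      map_intCast, eq_div_iff (mul_ne_zero (pow_ne_zero _ hNC) (pow_ne_zero _ hPi'))]
    rw [WQ_Δ, map_intCast] at h3
    rw [← h3]
    ring
  obtain ⟨x, hx1, hx2⟩ := exists_pt (N := N) ι (pp N) c.uE c.hu τ e1 e2
  refine ⟨x, ?_, hx2⟩
  have h4 : c.jE = Fermat.Agent.X0Genus.jj Qb N := by
    apply Subtype.ext
    rw [c.hj, Fermat.Agent.X0Genus.coe_jj, Jc_one_one]
  rw [h4]
  exact hx1

/-! ### Galois invariance -/

theorem psq_fixed {W : WeierstrassCurve ℤ} {P : (WQ W).toAffine.Point} (σ : Qb ≃ₐ[ℚ] Qb)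
    (h : (show ((W.map (Int.castRingHom ℚ))⁄Qb).Point from σ • P) = P) :
    σ (psq (WQ W) P) = psq (WQ W) P := by
  rcases P with _ | ⟨x, y, hns⟩
  · change σ 1 = 1
    exact map_one σ
  · have h1 : σ x = x ∧ σ y = y := by
      have h2 : Point.some (W' := (WQ W).toAffine) (σ x) (σ y) _ = Point.some x y hns := h
      exact (Point.some.injEq _ _ _ _ _ _).mp h2
    change σ ((2 * y + (WQ W).a₁ * x + (WQ W).a₃) ^ 2) = (2 * y + (WQ W).a₁ * x + (WQ W).a₃) ^ 2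
    rw [c1, c3]
    simp only [map_pow, map_add, map_mul, map_ofNat, map_intCast, h1.1, h1.2]

theorem nsmul_fixed {W : WeierstrassCurve ℤ} {P : ((W.map (Int.castRingHom ℚ))⁄Qb).Point}
    (σ : Qb ≃ₐ[ℚ] Qb) (h : σ • P = P) (k : ℕ) : σ • (k • P) = k • P := by
  have := Point.algEquiv_smul_zsmul σ (k : ℤ) P
  rw [h, natCast_zsmul] at this
  exact this

theorem cuW_fixed {W : WeierstrassCurve ℤ} {P : ((W.map (Int.castRingHom ℚ))⁄Qb).Point}
    (σ : Qb ≃ₐ[ℚ] Qb) (h : σ • P = P) (ε : ℤ) : σ (cuW N W ε P) = cuW N W ε P := by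
  have h1 : σ (PiQ W N P) = PiQ W N P := by
    rw [PiQ, map_prod]
    exact Finset.prod_congr rfl fun k _ => psq_fixed σ (nsmul_fixed σ h k)
  rw [cuW, map_div₀, map_mul, map_mul, map_pow, map_pow, map_pow, map_natCast, map_intCast,
    map_intCast, h1]

theorem cjW_fixed (W : WeierstrassCurve ℤ) (σ : Qb ≃ₐ[ℚ] Qb) : σ (cjW W) = cjW W := by
  rw [cjW, map_div₀, map_pow, map_intCast, map_intCast]

theorem gal_val {K : Type*} [Field K] [Algebra ℚ K] {N : ℕ} (σ : K ≃ₐ[ℚ] K) {P : Place K (EB K N)}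
    {f : EB K N} {c : K} (h : IsVal P f c) :
    IsVal (arithmeticGalois (modularFunctionFieldFull N) σ • P)
      (arithmeticGalois (modularFunctionFieldFull N) σ • f) (σ c) := by
  have e : arithmeticGalois (modularFunctionFieldFull N) σ • f -
      algebraMap K (EB K N) (σ c) = arithmeticGalois (modularFunctionFieldFull N) σ •
        (f - algebraMap K (EB K N) c) := by
    rw [smul_sub]
    congr 1
    exact (arithmeticRingAut_algebraMap (modularFunctionFieldFull N) σ c).symm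
  rcases h with h | h
  · left
    rw [e, h, smul_zero]
  · right
    rw [e, SemilinearAut.ord_smul]
    exact h

theorem gal_jE [CharZero Qb] (c : CuspData Qb N (EB Qb N)) (σ : Qb ≃ₐ[ℚ] Qb) :
    arithmeticGalois (modularFunctionFieldFull N) σ • c.jE = c.jE := by
  apply Subtype.ext
  rw [coe_arithmeticGalois_smul, c.hj]
  exact coeffMap_Jc_one _ 1

theorem gal_uE (c : CuspData Qb N (EB Qb N)) (σ : Qb ≃ₐ[ℚ] Qb) :
    arithmeticGalois (modularFunctionFieldFull N) σ • c.uE = c.uE := by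
  apply Subtype.ext
  rw [coe_arithmeticGalois_smul, c.hu]
  exact CarM.coeffMap_rm _ _

end Fermat.Agent.Mz
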