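import Fermat.Agent.Mz.WpF
import Fermat.Agent.EC.DivPoly

/-!
# Torsion points and the Weierstrass function
-/

set_option autoImplicit false

noncomputable section

open Filter Topology PeriodPair WeierstrassCurve WeierstrassCurve.Affine

namespace Fermat.Agent.Mz

open Fermat.Agent.EC

variable {F : Type*} [Field F] [DecidableEq F] {W : WeierstrassCurve F} (ι : F →+* ℂ) {L : PeriodPair}

/-- the shifted `x`-coordinate -/
def Xi (W : WeierstrassCurve F) (ι : F →+* ℂ) (x : F) : ℂ := ι x + ι W.b₂ / 12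

omit [DecidableEq F] in
theorem Xi_inj {x x' : F} (h : Xi W ι x = Xi W ι x') : x = x' := by
  unfold Xi at h
  exact ι.injective (add_right_cancel h)

variable (h4 : ι W.c₄ = 12 * L.g₂) (h6 : ι W.c₆ = 216 * L.g₃)

include h4 h6

omit [DecidableEq F] in
theorem sum_alg {x₁ x₂ x₃ x₄ : F} (h : (x₃ + x₄) * (x₁ - x₂) ^ 2 =
    2 * x₁ * x₂ * (x₁ + x₂) + W.b₂ * x₁ * x₂ + W.b₄ * (x₁ + x₂) + W.b₆) :
    (Xi W ι x₃ + Xi W ι x₄) * (Xi W ι x₁ - Xi W ι x₂) ^ 2 =
      (2 * Xi W ι x₁ * Xi W ι x₂ - L.g₂ / 2) * (Xi W ι x₁ + Xi W ι x₂) - L.g₃ := by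
  have h' := congrArg ι h
  rw [WeierstrassCurve.c₄] at h4
  rw [WeierstrassCurve.c₆] at h6
  simp only [map_sub, map_mul, map_pow, map_add, map_neg, map_ofNat] at h4 h6 h'
  unfold Xi
  linear_combination h' - (1 / 24) * (ι x₁ + ι x₂ + ι W.b₂ / 6) * h4 - (1 / 216) * h6

omit [DecidableEq F] in
theorem psi_sq_alg {x y : F} (h : W.toAffine.Equation x y) :
    ι (2 * y + W.a₁ * x + W.a₃) ^ 2 = 4 * Xi W ι x ^ 3 - L.g₂ * Xi W ι x - L.g₃ := by
  have h2 := psi_two_sq h
  rw [psi_two] at h2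
  have h' := congrArg ι h2
  rw [map_pow] at h'
  rw [h']
  rw [WeierstrassCurve.c₄] at h4
  rw [WeierstrassCurve.c₆] at h6
  simp only [map_sub, map_mul, map_pow, map_add, map_neg, map_ofNat] at h4 h6 ⊢
  unfold Xi
  linear_combination - (1 / 12) * (ι x + ι W.b₂ / 12) * h4 - (1 / 216) * h6

omit [DecidableEq F] in
theorem dup_alg {x y x' : F} (he : W.toAffine.Equation x y)
    (h : x' * psi W x y 2 ^ 2 = x * psi W x y 2 ^ 2 - psi W x y 3) :
    Xi W ι x' * (4 * Xi W ι x ^ 3 - L.g₂ * Xi W ι x - L.g₃) =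
      (Xi W ι x ^ 2 + L.g₂ / 4) ^ 2 + 2 * L.g₃ * Xi W ι x := by
  rw [← psi_sq_alg ι h4 h6 he]
  have h2 := psi_two_sq he
  rw [h2, psi_three] at h
  rw [psi_two] at h2
  have h' := congrArg ι h
  have h2' := congrArg ι h2
  rw [map_pow] at h2'
  rw [h2']
  have hb := congrArg ι W.b_relation
  rw [WeierstrassCurve.c₄] at h4
  rw [WeierstrassCurve.c₆] at h6
  simp only [map_sub, map_mul, map_pow, map_add, map_neg, map_ofNat] at h4 h6 h' hb ⊢
  have e4 : L.g₂ = (ι W.b₂ ^ 2 - 24 * ι W.b₄) / 12 := by linear_combination (-1 / 12) * h4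
  have e6 : L.g₃ = (-ι W.b₂ ^ 3 + 36 * ι W.b₂ * ι W.b₄ - 216 * ι W.b₆) / 216 := by
    linear_combination (-1 / 216) * h6
  unfold Xi
  rw [e4, e6]
  linear_combination h' - (1 / 4) * hb

/-- **torsion points correspond to torsion points of the torus** -/
theorem tors_link {N : ℕ} (hN : 3 ≤ N) {P : W.toAffine.Point} (hP : addOrderOf P = N) :
    ∃ z : ℂ, (N : ℂ) * z ∈ L.lattice ∧ ∀ k : ℕ, 0 < k → k < N →
      (k : ℂ) * z ∉ L.lattice ∧ ∃ x y h, k • P = Point.some x y h ∧ ℘[L] (k * z) = Xi W ι x := by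
  have hzero : ∀ k : ℕ, k • P = 0 ↔ N ∣ k := by
    intro k; rw [← hP]; exact addOrderOf_dvd_iff_nsmul_eq_zero.symm
  have hne : ∀ k : ℕ, 0 < k → k < N → k • P ≠ 0 := by
    intro k h1 h2 h3
    have := Nat.le_of_dvd h1 ((hzero k).1 h3)
    omega
  have hex : ∀ k : ℕ, 0 < k → k < N → ∃ x y h, k • P = Point.some x y h := by
    intro k h1 h2
    have h3 := hne k h1 h2
    rcases hQ : k • P with _ | ⟨x, y, h⟩
    · exact absurd hQ h3
    · exact ⟨x, y, h, rfl⟩
  obtain ⟨x₁, y₁, hns₁, hP1⟩ := hex 1 (by norm_num) (by omega)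
  rw [one_nsmul] at hP1
  obtain ⟨z, hz, hzx⟩ := wp_surj (L := L) (Xi W ι x₁)
  have hP2 : P + P ≠ 0 := by
    have := hne 2 (by norm_num) (by omega)
    rwa [two_nsmul] at this
  have hpsi : psi W x₁ y₁ 2 ≠ 0 := by
    intro h
    apply hP2
    rw [hP1]
    exact (some_add_some_eq_zero_iff hns₁).2 h
  have hz2 : z + z ∉ L.lattice := by
    intro h
    have h1 : ℘'[L] z = 0 := Half.wp' ⟨hz, h⟩
    have h2 := L.derivWeierstrassP_sq z hz
    rw [h1, hzx, ← psi_sq_alg ι h4 h6 hns₁.1] at h2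
    have h3 : ι (2 * y₁ + W.a₁ * x₁ + W.a₃) ≠ 0 := by
      rw [← psi_two]
      exact (map_ne_zero ι).2 hpsi
    exact pow_ne_zero 2 h3 (by rw [← h2]; ring)
  -- the induction statement
  let S : ℕ → Prop := fun k => (k : ℂ) * z ∉ L.lattice ∧ ∃ x y h, k • P = Point.some x y h ∧
    ℘[L] (k * z) = Xi W ι x
  have S1 : S 1 := by
    refine ⟨by simpa using hz, x₁, y₁, hns₁, by rw [one_nsmul, hP1], ?_⟩
    simpa using hzx
  have S2 : S 2 := by
    obtain ⟨x₂, y₂, hns₂, hP2'⟩ := hex 2 (by norm_num) (by omega)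
    have e : ((2 : ℕ) : ℂ) * z = z + z := by push_cast; ring
    refine ⟨by rw [e]; exact hz2, x₂, y₂, hns₂, hP2', ?_⟩
    rw [two_nsmul, hP1] at hP2'
    have h1 := dup_alg ι h4 h6 hns₁.1 (double_x hns₁ hns₂ hP2')
    have h2 := wp_dup hz hz2
    rw [L.derivWeierstrassP_sq z hz, hzx] at h2
    have h3 : 4 * Xi W ι x₁ ^ 3 - L.g₂ * Xi W ι x₁ - L.g₃ ≠ 0 := by
      rw [← psi_sq_alg ι h4 h6 hns₁.1, ← psi_two]
      exact pow_ne_zero 2 ((map_ne_zero ι).2 hpsi)
    rw [e]
    exact mul_right_cancel₀ h3 (h2.trans h1.symm)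
  have step : ∀ k : ℕ, 2 ≤ k → k + 1 < N → S (k - 1) → S k → S (k + 1) := by
    intro k hk2 hkN ⟨m1, a₀, b₀, ha₀, hPa, hwa⟩ ⟨m2, a, b, ha, hPb, hwb⟩
    obtain ⟨c, d, hc, hPc⟩ := hex (k + 1) (by omega) hkN
    -- x (k P) ≠ x (P)
    have hxne : a ≠ x₁ := by
      intro h
      subst h
      have h1 := hne (k + 1) (by omega) hkN
      have h2 := hne (k - 1) (by omega) (by omega)
      have e1 : (k + 1) • P = k • P + P := succ_nsmul P k
      have e2 : k • P = (k - 1) • P + P := by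
        have := succ_nsmul P (k - 1)
        rwa [Nat.sub_add_cancel (by omega : 1 ≤ k)] at this
      rcases Y_eq_of_X_eq ha.1 hns₁.1 rfl with h3 | h3
      · apply h2
        have h4 : k • P = P := by rw [hPb, hP1, Point.some.injEq]; exact ⟨rfl, h3⟩
        rw [h4] at e2
        exact add_eq_right.1 e2.symm
      · apply h1
        have h4 : k • P = -P := by
          rw [hPb, hP1, Point.neg_some, Point.some.injEq]; exact ⟨rfl, h3⟩
        rw [e1, h4, neg_add_cancel]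
    have hwne : ℘[L] (k * z) ≠ ℘[L] z := by
      rw [hwb, hzx]
      exact fun h => hxne (Xi_inj ι h)
    have m3 : (k : ℂ) * z + z ∉ L.lattice := fun h => hwne (wp_congr' h)
    have m4 : (k : ℂ) * z - z ∉ L.lattice := fun h => hwne (wp_congr h)
    have e3 : ((k + 1 : ℕ) : ℂ) * z = k * z + z := by push_cast; ring
    have e4 : ((k - 1 : ℕ) : ℂ) * z = k * z - z := by
      rw [Nat.cast_sub (by omega : 1 ≤ k)]; push_cast; ring
    refine ⟨by rw [e3]; exact m3, c, d, hc, hPc, ?_⟩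
    have h1 := wp_sum m2 hz hz2 m3 m4
    rw [← e3, ← e4, hwa, hwb, hzx] at h1
    -- the curve side
    have hx := addX_add_addX_neg ha.1 hns₁.1 hxne
    have h3 : c = W.toAffine.addX a x₁ (W.toAffine.slope a x₁ b y₁) := by
      have h5 : (k + 1) • P = k • P + P := succ_nsmul P k
      rw [hPc, hPb, hP1, Point.add_of_X_ne hxne, Point.some.injEq] at h5
      exact h5.1
    have h3' : a₀ = W.toAffine.addX a x₁ (W.toAffine.slope a x₁ b (W.toAffine.negY x₁ y₁)) := by
      have h5 : k • P + -P = (k - 1) • P := by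
        have := succ_nsmul P (k - 1)
        rw [Nat.sub_add_cancel (by omega : 1 ≤ k)] at this
        rw [this, add_neg_cancel_right]
      rw [hPa, hPb, hP1, Point.neg_some, Point.add_of_X_ne hxne, Point.some.injEq] at h5
      exact h5.1.symm
    rw [← h3, ← h3'] at hx
    have h6' := sum_alg ι h4 h6 hx
    have h7 : (Xi W ι a - Xi W ι x₁) ^ 2 ≠ 0 :=
      pow_ne_zero 2 (sub_ne_zero.2 fun h => hxne (Xi_inj ι h))
    have h8 := mul_right_cancel₀ h7 (h1.trans h6'.symm)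
    exact add_right_cancel h8
  have all : ∀ k : ℕ, 0 < k → k < N → S k := by
    intro k
    induction k using Nat.strong_induction_on with
    | _ k ih =>
      intro h0 hk
      match k, h0, hk, ih with
      | 1, _, _, _ => exact S1
      | 2, _, _, _ => exact S2
      | (k + 3), _, hk, ih =>
        refine step (k + 2) (by omega) hk ?_ (ih (k + 2) (by omega) (by omega) (by omega))
        exact ih (k + 1) (by omega) (by omega) (by omega)
  refine ⟨z, ?_, all⟩
  obtain ⟨m1, a, b, ha, hPa, hwa⟩ := all (N - 1) (by omega) (by omega)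
  have h1 : a = x₁ := by
    have h5 : (N - 1) • P = -P := by
      have h6 : (N - 1 + 1) • P = (N - 1) • P + P := succ_nsmul P (N - 1)
      rw [Nat.sub_add_cancel (by omega : 1 ≤ N), (hzero N).2 dvd_rfl] at h6
      exact eq_neg_of_add_eq_zero_left h6.symm
    rw [hPa, hP1, Point.neg_some, Point.some.injEq] at h5
    exact h5.1
  rw [h1, ← hzx] at hwa
  have e1 : ((N - 1 : ℕ) : ℂ) * z = N * z - z := by
    rw [Nat.cast_sub (by omega : 1 ≤ N)]; push_cast; ring
  rcases wp_inj m1 hz hwa with h | h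
  · exfalso
    have h7 := (all (N - 2) (by omega) (by omega)).1
    apply h7
    have e2 : ((N - 2 : ℕ) : ℂ) * z = ((N - 1 : ℕ) : ℂ) * z - z := by
      rw [Nat.cast_sub (by omega : 1 ≤ N), Nat.cast_sub (by omega : 2 ≤ N)]; push_cast; ring
    rw [e2]; exact h
  · rw [e1] at h
    simpa using h

end Fermat.Agent.Mz
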