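import Fermat.Agent.Mz.Tor
import Fermat.Agent.JFun.Orders

/-!
# Uniformisation
-/

set_option autoImplicit false

noncomputable section

open UpperHalfPlane hiding I
open Filter Topology PeriodPair ModularForm EisensteinSeries
open scoped Real MatrixGroups

namespace Fermat.Agent.Mz

open Fermat.Agent.JFun

/-- the lattice `ω (ℤ τ + ℤ)` -/
def lat (ω : ℂ) (hω : ω ≠ 0) (τ : ℍ) : PeriodPair where
  ω₁ := ω * τ
  ω₂ := ω
  indep := by
    rw [LinearIndependent.pair_iff]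
    intro s t h
    simp only [Complex.real_smul] at h
    have h0 : ω * ((s : ℂ) * τ + t) = 0 := by linear_combination h
    have h1 := (mul_eq_zero.1 h0).resolve_left hω
    have h2 := congrArg Complex.im h1
    have h3 := congrArg Complex.re h1
    simp only [Complex.add_im, Complex.mul_im, Complex.ofReal_re, Complex.ofReal_im, zero_mul,
      add_zero, Complex.zero_im, Complex.add_re, Complex.mul_re, sub_zero, Complex.zero_re] at h2 h3
    have hs : s = 0 := (mul_eq_zero.1 h2).resolve_right τ.im_ne_zero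
    rw [hs, zero_mul, zero_add] at h3
    exact ⟨hs, h3⟩

variable {ω : ℂ} {hω : ω ≠ 0} {τ : ℍ}

theorem G_lat (k : ℕ) : (lat ω hω τ).G k = (ω ^ k)⁻¹ * ∑' v : Fin 2 → ℤ, eisSummand k v τ := by
  rw [G, ← ((lat ω hω τ).latticeEquivProd.symm.toEquiv).tsum_eq,
    ← (finTwoArrowEquiv ℤ).symm.tsum_eq, ← tsum_mul_left]
  refine tsum_congr fun x => ?_
  have h1 : (((lat ω hω τ).latticeEquivProd.symm.toEquiv x : (lat ω hω τ).lattice) : ℂ) =
    x.1 * (lat ω hω τ).ω₁ + x.2 * (lat ω hω τ).ω₂ := (lat ω hω τ).latticeEquiv_symm_apply x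
  rw [h1]
  have h2 : (lat ω hω τ).ω₁ = ω * τ := rfl
  have h3 : (lat ω hω τ).ω₂ = ω := rfl
  have h4 : eisSummand k ((finTwoArrowEquiv ℤ).symm x) τ = (((x.1 : ℂ) * τ + x.2) ^ k)⁻¹ := by
    rw [eisSummand, _root_.zpow_neg, zpow_natCast]
    rfl
  rw [h2, h3, h4, ← mul_inv, ← mul_pow]
  congr 2
  ring

theorem G_lat' {k : ℕ} (hk : 3 ≤ k) : (lat ω hω τ).G k = (ω ^ k)⁻¹ * (2 * riemannZeta k * E hk τ) := by
  rw [G_lat, tsum_eisSummand_eq_riemannZeta_mul_eisensteinSeries hk,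
    show E hk τ = (1 / 2 : ℂ) • eisensteinSeriesSIF (N := 1) 0 k τ from rfl,
    eisensteinSeriesSIF_apply 0 k τ, smul_eq_mul]
  ring

theorem zeta_six : riemannZeta 6 = π ^ 6 / 945 := by
  have h := riemannZeta_two_mul_nat (k := 3) (by norm_num)
  have e : (2 : ℂ) * ((3 : ℕ) : ℂ) = 6 := by norm_num
  rw [e] at h
  rw [h, show bernoulli (2 * 3) = 1 / 42 by decide +kernel]
  norm_num [Nat.factorial]
  ring

theorem g₂_lat : (lat ω hω τ).g₂ = (ω ^ 4)⁻¹ * (4 * π ^ 4 / 3 * E₄ τ) := by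
  rw [g₂, G_lat' (k := 4) (by norm_num)]
  have : riemannZeta ((4 : ℕ) : ℂ) = π ^ 4 / 90 := riemannZeta_four
  rw [this]
  ring

theorem g₃_lat : (lat ω hω τ).g₃ = (ω ^ 6)⁻¹ * (8 * π ^ 6 / 27 * E₆ τ) := by
  rw [g₃, G_lat' (k := 6) (by norm_num)]
  have : riemannZeta ((6 : ℕ) : ℂ) = π ^ 6 / 945 := zeta_six
  rw [this]
  ring

theorem disc_lat : disc (lat ω hω τ) = (ω ^ 12)⁻¹ * ((2 * π) ^ 12 * discriminant τ) := by
  rw [disc, g₂_lat, g₃_lat, discriminant_eq_E₄_cube_sub_E₆_sq]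
  field_simp
  ring

/-- **uniformisation** -/
theorem exists_lat {A B : ℂ} (hA : A ≠ 0) (hB : B ≠ 0) (hD : A ^ 3 - 27 * B ^ 2 ≠ 0) :
    ∃ (ω : ℂ) (hω : ω ≠ 0) (τ : ℍ), (lat ω hω τ).g₂ = A ∧ (lat ω hω τ).g₃ = B := by
  obtain ⟨τ, hτ⟩ := jfun_surjective (1728 * A ^ 3 / (A ^ 3 - 27 * B ^ 2))
  obtain ⟨a, ha⟩ : ∃ a, a = 4 * (π : ℂ) ^ 4 / 3 * E₄ τ := ⟨_, rfl⟩
  obtain ⟨b, hb⟩ : ∃ b, b = 8 * (π : ℂ) ^ 6 / 27 * E₆ τ := ⟨_, rfl⟩
  have hpi : (π : ℂ) ≠ 0 := by exact_mod_cast Real.pi_ne_zero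
  have hΔ := discriminant_ne_zero τ
  have h1 : a ^ 3 - 27 * b ^ 2 = (2 * π) ^ 12 * discriminant τ := by
    rw [ha, hb, discriminant_eq_E₄_cube_sub_E₆_sq]
    ring
  rw [jfun, div_eq_div_iff hΔ hD] at hτ
  have h2 : a ^ 3 * B ^ 2 = A ^ 3 * b ^ 2 := by
    have e1 : a ^ 3 * (A ^ 3 - 27 * B ^ 2) = A ^ 3 * (a ^ 3 - 27 * b ^ 2) := by
      rw [h1, ha]
      linear_combination (4 * (π : ℂ) ^ 4 / 3) ^ 3 * hτ
    linear_combination (-1 / 27) * e1
  have ha0 : a ≠ 0 := by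
    intro h
    have h3 : b = 0 := by
      rw [h, zero_pow three_ne_zero, zero_mul] at h2
      have := (mul_eq_zero.1 h2.symm).resolve_left (pow_ne_zero 3 hA)
      exact pow_eq_zero_iff two_ne_zero |>.1 this
    rw [h, h3] at h1
    have h4 : (2 * (π : ℂ)) ^ 12 * discriminant τ ≠ 0 :=
      mul_ne_zero (pow_ne_zero _ (mul_ne_zero two_ne_zero hpi)) hΔ
    exact h4 (by rw [← h1]; ring)
  have hb0 : b ≠ 0 := by
    intro h
    rw [h, zero_pow two_ne_zero, mul_zero] at h2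
    rcases mul_eq_zero.1 h2 with h3 | h3
    · exact ha0 (pow_eq_zero_iff three_ne_zero |>.1 h3)
    · exact hB (pow_eq_zero_iff two_ne_zero |>.1 h3)
  obtain ⟨ω, hω2⟩ := IsAlgClosed.exists_pow_nat_eq (b * A / (a * B)) (n := 2) (by norm_num)
  have hω : ω ≠ 0 := by
    intro h
    rw [h, zero_pow two_ne_zero] at hω2
    have : b * A / (a * B) ≠ 0 := div_ne_zero (mul_ne_zero hb0 hA) (mul_ne_zero ha0 hB)
    exact this hω2.symm
  have e4 : ω ^ 4 * A = a := by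
    have : ω ^ 4 = (ω ^ 2) ^ 2 := by ring
    rw [this, hω2]
    field_simp
    linear_combination -h2
  have e6 : ω ^ 6 * B = b := by
    have : ω ^ 6 = (ω ^ 2) ^ 3 := by ring
    rw [this, hω2]
    field_simp
    linear_combination -h2
  refine ⟨ω, hω, τ, ?_, ?_⟩
  · rw [g₂_lat, ← ha, ← e4]
    field_simp
  · rw [g₃_lat, ← hb, ← e6]
    field_simp

end Fermat.Agent.Mz
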