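import Fermat.Agent.Mz.Cu

/-!
# Values of functions and reduction
-/

set_option autoImplicit false
set_option linter.style.haveILetI false
set_option linter.unusedSectionVars false

noncomputable section

namespace Fermat.Agent.Mz

open ModularCurve Polynomial IntermediateField Fermat.Agent.ModPoly AlgebraicCurve
  Fermat.Agent.RR Fermat.Agent.Cusp Fermat.Agent.RedMod Fermat.Agent.Spec Fermat.Agent.Curve
  Fermat.Agent.Red Fermat.Agent.ThmC

/-- `f - c` has no poles outside the poles of `f` -/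
theorem sub_pole_nonneg {K F : Type*} [Field K] [IsAlgClosed K] [Field F] [Algebra K F]
    [FunField K F] (f : F) (c : K) (hne : f - algebraMap K F c ≠ 0) (v : Place K F) :
    0 ≤ v.ord (f - algebraMap K F c) + poleDiv K f v := by
  rw [poleDiv_apply]
  rcases lt_or_ge (v.ord f) 0 with h | h
  · rw [(ord_sub_eq_of_neg h c).2]
    have := le_max_left (-v.ord f) 0
    omega
  · have g1 : Ge v 0 f := Ge.of_le h
    have g2 : Ge v 0 (algebraMap K F c) := Ge.of_le (by rw [ord_algebraMap])
    have h3 := (g1.sub g2).le_ord hne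
    have := le_max_right (-v.ord f) 0
    omega

theorem ord_nonneg_of_sub {K F : Type*} [Field K] [IsAlgClosed K] [Field F] [Algebra K F]
    [FunField K F] {f : F} {c : K} {v : Place K F} (h : 0 < v.ord (f - algebraMap K F c)) :
    0 ≤ v.ord f := by
  by_contra hneg
  push Not at hneg
  rw [(ord_sub_eq_of_neg hneg c).2] at h
  omega

section DivRed

variable {A K F k R : Type*} [CommRing A] [IsDomain A] [ValuationRing A]
  [Field K] [Algebra A K] [IsFractionRing A K] [Field F] [Algebra K F] [Algebra A F]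
  [IsScalarTower A K F] [Field k] [Algebra A k] [Field R] [Algebra k R] [Algebra A R]
  [IsScalarTower A k R] [IsAlgClosed K] [IsAlgClosed k] [FunField K F] [FunField k R]
  {M : RedModel A K F k R} {hk : Function.Surjective (algebraMap A k)}
  (𝓓 : DivRed A K F k R M hk)

theorem pi_sub {f : F} (hf : f ∈ M.W) (a : A) :
    ∃ hmem : f - algebraMap K F (algebraMap A K a) ∈ M.W,
      M.π ⟨f - algebraMap K F (algebraMap A K a), hmem⟩ =
        M.π ⟨f, hf⟩ - algebraMap k R (algebraMap A k a) := by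
  have hmem : f - algebraMap A F a ∈ M.W := sub_mem hf (M.W.algebraMap_mem a)
  have e1 : M.π ⟨f - algebraMap A F a, hmem⟩ =
      M.π ⟨f, hf⟩ - algebraMap k R (algebraMap A k a) := by
    have h1 : (⟨f - algebraMap A F a, hmem⟩ : M.W) = ⟨f, hf⟩ - algebraMap A M.W a := rfl
    rw [h1, map_sub, AlgHom.commutes, IsScalarTower.algebraMap_apply A k R]
  simp only [← IsScalarTower.algebraMap_apply A K F]
  exact ⟨hmem, e1⟩

/-- the divisor of `f - a` plus the poles of `f`, and its reduction -/
theorem r_sub {f : F} (hf : f ∈ M.W) (h0 : M.π ⟨f, hf⟩ ≠ 0)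
    (hdeg : Divisor.degree (poleDiv k (M.π ⟨f, hf⟩)) = Divisor.degree (poleDiv K f)) {a : A}
    (hne : M.π ⟨f, hf⟩ - algebraMap k R (algebraMap A k a) ≠ 0) :
    𝓓.r (divisor K (f - algebraMap K F (algebraMap A K a)) + poleDiv K f) =
      divisor k (M.π ⟨f, hf⟩ - algebraMap k R (algebraMap A k a)) + poleDiv k (M.π ⟨f, hf⟩) := by
  obtain ⟨hmem, e1⟩ := pi_sub hf a
  rw [map_add, r_poleDiv 𝓓 hf h0 hdeg, 𝓓.r_divisor hmem (by rw [e1]; exact hne), e1]

/-- **values reduce** -/
theorem val_red {f : F} (hf : f ∈ M.W) (h0 : M.π ⟨f, hf⟩ ≠ 0)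
    (hdeg : Divisor.degree (poleDiv k (M.π ⟨f, hf⟩)) = Divisor.degree (poleDiv K f)) {a : A}
    (hne : M.π ⟨f, hf⟩ - algebraMap k R (algebraMap A k a) ≠ 0) {P : Place K F} {Q : Place k R}
    (hP : 𝓓.r (Finsupp.single P 1) = Finsupp.single Q 1)
    (h : 0 < P.ord (f - algebraMap K F (algebraMap A K a))) :
    0 < Q.ord (M.π ⟨f, hf⟩ - algebraMap k R (algebraMap A k a)) := by
  classical
  have hne' : f - algebraMap K F (algebraMap A K a) ≠ 0 := by
    intro h1
    rw [h1, P.ord_zero] at h
    exact lt_irrefl _ h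
  have h1 := r_sub 𝓓 hf h0 hdeg hne
  have h2 : Finsupp.single P 1 ≤
      divisor K (f - algebraMap K F (algebraMap A K a)) + poleDiv K f := by
    intro v
    rw [Finsupp.single_apply, Finsupp.add_apply, divisor_apply]
    split_ifs with h3
    · subst h3
      have := poleDiv_nonneg (K := K) f P
      simp only [Finsupp.coe_zero, Pi.zero_apply] at this
      omega
    · exact sub_pole_nonneg f _ hne' v
  have h3 := 𝓓.r_mono h2 Q
  rw [hP, h1, Finsupp.single_eq_same, Finsupp.add_apply, divisor_apply] at h3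
  by_contra hcon
  push Not at hcon
  have h4 : 0 < poleDiv k (M.π ⟨f, hf⟩) Q := by omega
  rw [poleDiv_apply] at h4
  have h5 : Q.ord (M.π ⟨f, hf⟩) < 0 := by
    by_contra h6
    rw [max_eq_right (by omega)] at h4
    exact lt_irrefl _ h4
  rw [(ord_sub_eq_of_neg h5 _).2, poleDiv_apply, max_eq_left (by omega)] at h3
  omega

/-- non integral values reduce to infinity -/
theorem val_red_inf {f : F} (hf : f ∈ M.W) (h0 : M.π ⟨f, hf⟩ ≠ 0)
    (hdeg : Divisor.degree (poleDiv k (M.π ⟨f, hf⟩)) = Divisor.degree (poleDiv K f)) {b : A}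
    (hb : ¬ IsUnit b) {c : K} (hbc : algebraMap A K b * c = 1) {P : Place K F} {Q : Place k R}
    (hP : 𝓓.r (Finsupp.single P 1) = Finsupp.single Q 1)
    (h : 0 < P.ord (f - algebraMap K F c)) : Q.ord (M.π ⟨f, hf⟩) < 0 := by
  classical
  have hb0 := algebraMap_eq_zero_of_not_isUnit hk hb
  have hne' : f - algebraMap K F c ≠ 0 := by
    intro h1
    rw [h1, P.ord_zero] at h
    exact lt_irrefl _ h
  have hbK : algebraMap A K b ≠ 0 := left_ne_zero_of_mul_eq_one hbc
  have hmem : algebraMap A F b * f - 1 ∈ M.W :=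
    sub_mem (mul_mem (M.W.algebraMap_mem b) hf) (one_mem _)
  have e1 : M.π ⟨algebraMap A F b * f - 1, hmem⟩ = -1 := by
    have h1 : (⟨algebraMap A F b * f - 1, hmem⟩ : M.W) = algebraMap A M.W b * ⟨f, hf⟩ - 1 := rfl
    rw [h1, map_sub, map_mul, AlgHom.commutes, map_one, IsScalarTower.algebraMap_apply A k R,
      hb0, map_zero, zero_mul, zero_sub]
  have h3 : M.π ⟨algebraMap A F b * f - 1, hmem⟩ ≠ 0 := by
    rw [e1]; exact neg_ne_zero.2 one_ne_zero
  have h4 := 𝓓.r_divisor hmem h3
  have e2 : algebraMap A F b * f - 1 = algebraMap A K b • (f - algebraMap K F c) := by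
    rw [IsScalarTower.algebraMap_apply A K F, Algebra.smul_def, mul_sub, ← map_mul, hbc, map_one]
  have e3 : divisor k (M.π ⟨algebraMap A F b * f - 1, hmem⟩) = 0 := by
    ext v
    rw [e1, divisor_apply, show (-1 : R) = algebraMap k R (-1) by rw [map_neg, map_one],
      ord_algebraMap]
    rfl
  have e4 : divisor K (algebraMap A F b * f - 1) = divisor K (f - algebraMap K F c) := by
    rw [e2, divisor_smul hbK]
  have h5 : 𝓓.r (divisor K (f - algebraMap K F c) + poleDiv K f) = poleDiv k (M.π ⟨f, hf⟩) := by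
    rw [map_add, r_poleDiv 𝓓 hf h0 hdeg, ← e4, h4, e3, zero_add]
  have h2 : Finsupp.single P 1 ≤ divisor K (f - algebraMap K F c) + poleDiv K f := by
    intro v
    rw [Finsupp.single_apply, Finsupp.add_apply, divisor_apply]
    split_ifs with h3
    · subst h3
      have := poleDiv_nonneg (K := K) f P
      simp only [Finsupp.coe_zero, Pi.zero_apply] at this
      omega
    · exact sub_pole_nonneg f _ hne' v
  have h6 := 𝓓.r_mono h2 Q
  rw [hP, h5, Finsupp.single_eq_same, poleDiv_apply] at h6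
  by_contra h7
  rw [max_eq_right (by omega)] at h6
  omega

/-- **uniqueness in a residue disc** -/
theorem val_unique {f : F} (hf : f ∈ M.W) (h0 : M.π ⟨f, hf⟩ ≠ 0)
    (hdeg : Divisor.degree (poleDiv k (M.π ⟨f, hf⟩)) = Divisor.degree (poleDiv K f)) {a : A}
    (hne : M.π ⟨f, hf⟩ - algebraMap k R (algebraMap A k a) ≠ 0) {P P' : Place K F} {Q : Place k R}
    (hP : 𝓓.r (Finsupp.single P 1) = Finsupp.single Q 1)
    (hP' : 𝓓.r (Finsupp.single P' 1) = Finsupp.single Q 1)
    (h : 0 < P.ord (f - algebraMap K F (algebraMap A K a)))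
    (h' : 0 < P'.ord (f - algebraMap K F (algebraMap A K a)))
    (h1 : Q.ord (M.π ⟨f, hf⟩ - algebraMap k R (algebraMap A k a)) ≤ 1) : P = P' := by
  classical
  by_contra hPP
  have hne' : f - algebraMap K F (algebraMap A K a) ≠ 0 := by
    intro h1
    rw [h1, P.ord_zero] at h
    exact lt_irrefl _ h
  have h2 : Finsupp.single P 1 + Finsupp.single P' 1 ≤
      divisor K (f - algebraMap K F (algebraMap A K a)) + poleDiv K f := by
    intro v
    rw [Finsupp.add_apply, Finsupp.single_apply, Finsupp.single_apply, Finsupp.add_apply,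
      divisor_apply]
    have h5 := poleDiv_nonneg (K := K) f v
    simp only [Finsupp.coe_zero, Pi.zero_apply] at h5
    by_cases h3 : P = v
    · subst h3
      rw [if_pos rfl, if_neg (Ne.symm hPP)]
      omega
    · rw [if_neg h3]
      by_cases h4 : P' = v
      · subst h4
        rw [if_pos rfl]
        omega
      · rw [if_neg h4, add_zero]
        exact sub_pole_nonneg f _ hne' v
  have h3 := 𝓓.r_mono h2 Q
  rw [map_add, hP, hP', r_sub 𝓓 hf h0 hdeg hne, Finsupp.add_apply, Finsupp.single_eq_same,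
    Finsupp.add_apply, divisor_apply] at h3
  have h4 := val_red 𝓓 hf h0 hdeg hne hP h
  have h5 := ord_nonneg_of_sub h4
  rw [poleDiv_apply, max_eq_right (by omega)] at h3
  omega

/-- poles reduce to poles -/
theorem pole_red {f : F} (hf : f ∈ M.W) (h0 : M.π ⟨f, hf⟩ ≠ 0)
    (hdeg : Divisor.degree (poleDiv k (M.π ⟨f, hf⟩)) = Divisor.degree (poleDiv K f))
    {P : Place K F} {Q : Place k R} (hP : 𝓓.r (Finsupp.single P 1) = Finsupp.single Q 1)
    (h : P.ord f < 0) : Q.ord (M.π ⟨f, hf⟩) < 0 := by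
  by_contra hcon
  push Not at hcon
  have := nonneg_of_to 𝓓 hf h0 hdeg hP hcon
  omega

end DivRed

end Fermat.Agent.Mz
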