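import Fermat.Agent.Mz.Ord

/-!
# The values of `℘` at the half periods
-/

set_option autoImplicit false

noncomputable section

open Filter Topology PeriodPair

namespace Fermat.Agent.Mz

variable (L : PeriodPair)

theorem wp_add {l : ℂ} (hl : l ∈ L.lattice) (z : ℂ) : ℘[L] (z + l) = ℘[L] z :=
  L.weierstrassP_add_coe z ⟨l, hl⟩

theorem wp'_add {l : ℂ} (hl : l ∈ L.lattice) (z : ℂ) : ℘'[L] (z + l) = ℘'[L] z :=
  L.derivWeierstrassP_add_coe z ⟨l, hl⟩

variable {L}

theorem wp_congr {z w : ℂ} (h : z - w ∈ L.lattice) : ℘[L] z = ℘[L] w := by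
  rw [← wp_add L h w, add_sub_cancel]

theorem wp'_congr {z w : ℂ} (h : z - w ∈ L.lattice) : ℘'[L] z = ℘'[L] w := by
  rw [← wp'_add L h w, add_sub_cancel]

theorem wp_congr' {z w : ℂ} (h : z + w ∈ L.lattice) : ℘[L] z = ℘[L] w := by
  rw [← L.weierstrassP_neg w]
  exact wp_congr (by rwa [sub_neg_eq_add])

theorem wp'_congr' {z w : ℂ} (h : z + w ∈ L.lattice) : ℘'[L] z = -℘'[L] w := by
  rw [← L.derivWeierstrassP_neg w]
  exact wp'_congr (by rwa [sub_neg_eq_add])

theorem notMem_iff {z w : ℂ} (h : z - w ∈ L.lattice) : z ∉ L.lattice ↔ w ∉ L.lattice := by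
  have h1 : z ∈ L.lattice ↔ w ∈ L.lattice := by
    constructor
    · intro hz
      have := sub_mem hz h
      rwa [sub_sub_cancel] at this
    · intro hw
      have := add_mem h hw
      rwa [sub_add_cancel] at this
  rw [h1]

theorem an_wp {z : ℂ} (hz : z ∉ L.lattice) : AnalyticAt ℂ ℘[L] z := L.analyticOnNhd_weierstrassP z hz

theorem an_wp' {z : ℂ} (hz : z ∉ L.lattice) : AnalyticAt ℂ ℘'[L] z :=
  L.analyticOnNhd_derivWeierstrassP z hz

theorem go_wp_lat {z : ℂ} (hz : z ∈ L.lattice) : GO ℘[L] z (-2) :=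
  ⟨L.meromorphic_weierstrassP z, (L.order_weierstrassP z hz).ge⟩

theorem go_wp'_lat {z : ℂ} (hz : z ∈ L.lattice) : GO ℘'[L] z (-3) := by
  refine ⟨L.meromorphic_derivWeierstrassP z, ?_⟩
  rw [← deriv_weierstrassP]
  exact (meromorphicOrderAt_deriv_eq_sub_one (n := -2) (by norm_num)
    (L.order_weierstrassP z hz)).ge

theorem go_wp (z : ℂ) : GO ℘[L] z (-2) := by
  by_cases hz : z ∈ L.lattice
  · exact go_wp_lat hz
  · exact (GO.of_analytic (an_wp hz)).mono (by norm_num)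

theorem go_wp' (z : ℂ) : GO ℘'[L] z (-3) := by
  by_cases hz : z ∈ L.lattice
  · exact go_wp'_lat hz
  · exact (GO.of_analytic (an_wp' hz)).mono (by norm_num)

theorem go_sub (e z : ℂ) : GO (fun x => ℘[L] x - e) z (-2) :=
  (go_wp z).sub ((GO.const e z).mono (by norm_num))

theorem an_sub (e : ℂ) {z : ℂ} (hz : z ∉ L.lattice) : AnalyticAt ℂ (fun x => ℘[L] x - e) z :=
  (an_wp hz).sub analyticAt_const

theorem go_sub0 (e : ℂ) {z : ℂ} (hz : z ∉ L.lattice) : GO (fun x => ℘[L] x - e) z 0 :=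
  GO.of_analytic (an_sub e hz)

theorem go_sub1 {w z : ℂ} (hw : w ∉ L.lattice) (h : z - w ∈ L.lattice ∨ z + w ∈ L.lattice) :
    GO (fun x => ℘[L] x - ℘[L] w) z 1 := by
  have hz : z ∉ L.lattice := by
    rcases h with h | h
    · exact (notMem_iff h).2 hw
    · intro hz
      have := sub_mem h hz
      rw [add_sub_cancel_left] at this
      exact hw this
  refine GO.of_zero (an_sub _ hz) ?_
  rcases h with h | h
  · rw [wp_congr h, sub_self]
  · rw [wp_congr' h, sub_self]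

/-- `w` is a half period -/
def Half (L : PeriodPair) (w : ℂ) : Prop := w ∉ L.lattice ∧ w + w ∈ L.lattice

theorem Half.wp' {w : ℂ} (h : Half L w) : ℘'[L] w = 0 := by
  have h1 := wp'_congr' (L := L) h.2
  have : (2 : ℂ) * ℘'[L] w = 0 := by linear_combination h1
  exact (mul_eq_zero.1 this).resolve_left two_ne_zero

theorem Half.congr {w z : ℂ} (h : Half L w) (hz : z - w ∈ L.lattice) : Half L z := by
  refine ⟨(notMem_iff hz).2 h.1, ?_⟩
  have := add_mem (add_mem hz hz) h.2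
  have e : z - w + (z - w) + (w + w) = z + z := by ring
  rwa [e] at this

theorem go_half {w z : ℂ} (h : Half L w) (hz : z - w ∈ L.lattice) :
    GO (fun x => ℘[L] x - ℘[L] w) z 2 := by
  have h1 := h.congr hz
  refine GO.of_zero2 (an_sub _ h1.1) ?_ ?_
  · rw [wp_congr hz, sub_self]
  · rw [deriv_sub_const, deriv_weierstrassP]
    exact h1.wp'

theorem go_half' {z : ℂ} (h : Half L z) : GO ℘'[L] z 1 := GO.of_zero (an_wp' h.1) h.wp'

theorem half_sub {w z : ℂ} (h : Half L w) (hz : z + w ∈ L.lattice) : z - w ∈ L.lattice := by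
  have := sub_mem hz h.2
  have e : z + w - (w + w) = z - w := by ring
  rwa [e] at this

theorem go_mul_half {w : ℂ} (h : Half L w) (z : ℂ) :
    GO (fun x => (℘[L] x - ℘[L] w) * (℘[L] (x + w) - ℘[L] w)) z 0 := by
  by_cases hz : z ∈ L.lattice
  · have h1 : GO (fun x => ℘[L] x - ℘[L] w) (z + w) 2 := go_half h (by rwa [add_sub_cancel_right])
    exact ((go_sub _ z).mul h1.comp_add).mono (by norm_num)
  by_cases hz2 : z + w ∈ L.lattice
  · have h1 : GO (fun x => ℘[L] x - ℘[L] w) z 2 := go_half h (half_sub h hz2)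
    have h2 : GO (fun x => ℘[L] x - ℘[L] w) (z + w) (-2) := go_sub _ _
    exact (h1.mul h2.comp_add).mono (by norm_num)
  · have h1 : GO (fun x => ℘[L] x - ℘[L] w) z 0 := go_sub0 _ hz
    have h2 : GO (fun x => ℘[L] x - ℘[L] w) (z + w) 0 := go_sub0 _ hz2
    exact (h1.mul h2.comp_add).mono (by norm_num)

theorem an_comp {f : ℂ → ℂ} {z w : ℂ} (h : AnalyticAt ℂ f (z + w)) :
    AnalyticAt ℂ (fun x => f (x + w)) z :=
  AnalyticAt.comp (g := f) (f := fun x => x + w) h (by fun_prop)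

/-- translation by a half period -/
theorem exists_half_mul {w : ℂ} (h : Half L w) :
    ∃ A, (∀ z, (fun x => (℘[L] x - ℘[L] w) * (℘[L] (x + w) - ℘[L] w)) =ᶠ[𝓝[≠] z] fun _ => A) ∧
      ∀ z, z ∉ L.lattice → z + w ∉ L.lattice →
        (℘[L] z - ℘[L] w) * (℘[L] (z + w) - ℘[L] w) = A := by
  obtain ⟨A, hA⟩ := liou' L (f := fun x => (℘[L] x - ℘[L] w) * (℘[L] (x + w) - ℘[L] w)) (by
    intro l hl z
    have h1 : z + l + w = z + w + l := by ring
    simp only [wp_add L hl, h1]) (go_mul_half h)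
  refine ⟨A, hA, fun z hz hzw => ?_⟩
  have h1 : ContinuousAt (fun x => (℘[L] x - ℘[L] w) * (℘[L] (x + w) - ℘[L] w)) z := by
    have h2 : AnalyticAt ℂ (fun x => ℘[L] x - ℘[L] w) (z + w) := an_sub _ hzw
    exact ((an_sub _ hz).mul (an_comp h2)).continuousAt
  exact eq_of_evt (f := fun x => (℘[L] x - ℘[L] w) * (℘[L] (x + w) - ℘[L] w)) (hA z) h1

/-- the product of the values of `℘ - e` at the other half periods -/
def Ah (L : PeriodPair) (w : ℂ) (h : Half L w) : ℂ := (exists_half_mul h).choose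

theorem Ah_evt {w : ℂ} (h : Half L w) (z : ℂ) :
    (fun x => (℘[L] x - ℘[L] w) * (℘[L] (x + w) - ℘[L] w)) =ᶠ[𝓝[≠] z] fun _ => Ah L w h :=
  (exists_half_mul h).choose_spec.1 z

theorem Ah_eq {w : ℂ} (h : Half L w) {z : ℂ} (hz : z ∉ L.lattice) (hzw : z + w ∉ L.lattice) :
    (℘[L] z - ℘[L] w) * (℘[L] (z + w) - ℘[L] w) = Ah L w h :=
  (exists_half_mul h).choose_spec.2 z hz hzw

/-- `℘` is not locally constant -/
theorem wp_order_ne_top (e z : ℂ) : meromorphicOrderAt (fun x => ℘[L] x - e) z ≠ ⊤ := by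
  have hm : MeromorphicOn (fun x => ℘[L] x - e) Set.univ := fun x _ => (go_sub e x).1
  refine hm.meromorphicOrderAt_ne_top_of_isPreconnected (x := 0) isPreconnected_univ
    (Set.mem_univ _) (Set.mem_univ _) ?_
  intro h
  rw [meromorphicOrderAt_eq_top_iff] at h
  have h1 := tendsto_cobounded_of_meromorphicOrderAt_neg (f := ℘[L]) (x := 0)
    (by rw [L.order_weierstrassP 0 (zero_mem _)]; decide)
  have h2 : Tendsto ℘[L] (𝓝[≠] 0) (𝓝 e) := by
    refine tendsto_const_nhds.congr' ?_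
    filter_upwards [h] with x hx
    exact (sub_eq_zero.1 hx).symm
  exact not_tendsto_atTop_of_tendsto_nhds h2.norm (tendsto_norm_cobounded_atTop.comp h1)

end Fermat.Agent.Mz
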