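import Fermat.Agent.Mz.WpA

/-!
# The three half periods
-/

set_option autoImplicit false

noncomputable section

open Filter Topology PeriodPair

namespace Fermat.Agent.Mz

variable {L : PeriodPair}

theorem Ah_ne {w : ℂ} (h : Half L w) : Ah L w h ≠ 0 := by
  intro h0
  have h1 := Ah_evt h 0
  rw [h0] at h1
  have h2 : meromorphicOrderAt (fun x => (℘[L] x - ℘[L] w) * (℘[L] (x + w) - ℘[L] w)) 0 = ⊤ := by
    rw [meromorphicOrderAt_eq_top_iff]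
    exact h1
  have h3 := go_sub (L := L) (℘[L] w) 0
  have h4 : GO (fun x => ℘[L] (x + w) - ℘[L] w) 0 (-2) :=
    GO.comp_add (f := fun x => ℘[L] x - ℘[L] w) (go_sub _ _)
  have h5 := meromorphicOrderAt_mul h3.1 h4.1
  have h6 : meromorphicOrderAt (fun x => ℘[L] (x + w) - ℘[L] w) 0 ≠ ⊤ := by
    have h7 := meromorphicOrderAt_comp_add_const_eq_meromorphicOrderAt (x := 0) (c := w)
      (f := fun x => ℘[L] x - ℘[L] w)
    change meromorphicOrderAt ((fun x => ℘[L] x - ℘[L] w) ∘ (· + w)) 0 ≠ ⊤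
    rw [h7]
    exact wp_order_ne_top _ _
  have h7 : meromorphicOrderAt ((fun x => ℘[L] x - ℘[L] w) * fun x => ℘[L] (x + w) - ℘[L] w) 0 = ⊤ := h2
  rw [h5, WithTop.add_eq_top] at h7
  rcases h7 with h7 | h7
  · exact wp_order_ne_top _ _ h7
  · exact h6 h7

theorem wp_half_ne {w w' : ℂ} (h : Half L w) (h' : w' ∉ L.lattice) (hs : w' + w ∉ L.lattice) :
    ℘[L] w' ≠ ℘[L] w := by
  intro h0
  have h1 := Ah_eq h h' hs
  rw [h0, sub_self, zero_mul] at h1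
  exact Ah_ne h h1.symm

theorem mem_iff (α β : ℚ) : (α : ℂ) * L.ω₁ + β * L.ω₂ ∈ L.lattice ↔ α.den = 1 ∧ β.den = 1 :=
  mul_ω₁_add_mul_ω₂_mem_lattice

theorem half1 : Half L (L.ω₁ / 2) := by
  refine ⟨L.ω₁_div_two_notMem_lattice, ?_⟩
  rw [add_halves]
  exact L.ω₁_mem_lattice

theorem half2 : Half L (L.ω₂ / 2) := by
  refine ⟨L.ω₂_div_two_notMem_lattice, ?_⟩
  rw [add_halves]
  exact L.ω₂_mem_lattice

theorem half3 : Half L (L.ω₁ / 2 + L.ω₂ / 2) := by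
  refine ⟨?_, ?_⟩
  · have := (mem_iff (L := L) (1 / 2) (1 / 2)).not.2 (by norm_num)
    intro h
    apply this
    push_cast
    have e : (1 / 2 : ℂ) * L.ω₁ + 1 / 2 * L.ω₂ = L.ω₁ / 2 + L.ω₂ / 2 := by ring
    rwa [e]
  · have := add_mem L.ω₁_mem_lattice L.ω₂_mem_lattice
    have e : L.ω₁ / 2 + L.ω₂ / 2 + (L.ω₁ / 2 + L.ω₂ / 2) = L.ω₁ + L.ω₂ := by ring
    rwa [e]

variable (L) in
/-- values at the half periods -/
def e1 : ℂ := ℘[L] (L.ω₁ / 2)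

variable (L) in
/-- values at the half periods -/
def e2 : ℂ := ℘[L] (L.ω₂ / 2)

variable (L) in
/-- values at the half periods -/
def e3 : ℂ := ℘[L] (L.ω₁ / 2 + L.ω₂ / 2)

theorem sum12 : ℘[L] (L.ω₂ / 2 + L.ω₁ / 2) = e3 L := by rw [add_comm]; rfl

theorem sum13 : ℘[L] (L.ω₁ / 2 + L.ω₂ / 2 + L.ω₁ / 2) = e2 L := by
  refine wp_congr ?_
  have e : L.ω₁ / 2 + L.ω₂ / 2 + L.ω₁ / 2 - L.ω₂ / 2 = L.ω₁ := by ring
  rw [e]
  exact L.ω₁_mem_lattice

theorem sum23 : ℘[L] (L.ω₁ / 2 + L.ω₂ / 2 + L.ω₂ / 2) = e1 L := by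
  refine wp_congr ?_
  have e : L.ω₁ / 2 + L.ω₂ / 2 + L.ω₂ / 2 - L.ω₁ / 2 = L.ω₂ := by ring
  rw [e]
  exact L.ω₂_mem_lattice

theorem nm12 : L.ω₂ / 2 + L.ω₁ / 2 ∉ L.lattice := by rw [add_comm]; exact half3.1

theorem nm13 : L.ω₁ / 2 + L.ω₂ / 2 + L.ω₁ / 2 ∉ L.lattice := by
  refine (notMem_iff ?_).2 half2.1
  have e : L.ω₁ / 2 + L.ω₂ / 2 + L.ω₁ / 2 - L.ω₂ / 2 = L.ω₁ := by ring
  rw [e]
  exact L.ω₁_mem_lattice

theorem nm23 : L.ω₁ / 2 + L.ω₂ / 2 + L.ω₂ / 2 ∉ L.lattice := by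
  refine (notMem_iff ?_).2 half1.1
  have e : L.ω₁ / 2 + L.ω₂ / 2 + L.ω₂ / 2 - L.ω₁ / 2 = L.ω₂ := by ring
  rw [e]
  exact L.ω₂_mem_lattice

theorem e21 : e2 L ≠ e1 L := wp_half_ne half1 half2.1 nm12

theorem e31 : e3 L ≠ e1 L := wp_half_ne half1 half3.1 nm13

theorem e32 : e3 L ≠ e2 L := wp_half_ne half2 half3.1 nm23

/-- the half period values are roots of the cubic -/
theorem cubic_half {w : ℂ} (h : Half L w) : 4 * ℘[L] w ^ 3 - L.g₂ * ℘[L] w - L.g₃ = 0 := by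
  have h1 := L.derivWeierstrassP_sq w h.1
  rw [h.wp'] at h1
  rw [← h1]; ring

theorem vieta {a b c p q : ℂ} (hab : b ≠ a) (hac : c ≠ a) (hbc : c ≠ b)
    (ha : 4 * a ^ 3 - p * a - q = 0) (hb : 4 * b ^ 3 - p * b - q = 0)
    (hc : 4 * c ^ 3 - p * c - q = 0) :
    a + b + c = 0 ∧ p = -4 * (a * b + a * c + b * c) ∧ q = 4 * a * b * c := by
  have h1 : 4 * (a ^ 2 + a * b + b ^ 2) - p = 0 := by
    have : (b - a) * (4 * (a ^ 2 + a * b + b ^ 2) - p) = 0 := by linear_combination hb - ha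
    exact (mul_eq_zero.1 this).resolve_left (sub_ne_zero.2 hab)
  have h2 : 4 * (a ^ 2 + a * c + c ^ 2) - p = 0 := by
    have : (c - a) * (4 * (a ^ 2 + a * c + c ^ 2) - p) = 0 := by linear_combination hc - ha
    exact (mul_eq_zero.1 this).resolve_left (sub_ne_zero.2 hac)
  have h3 : a + b + c = 0 := by
    have : (c - b) * (a + b + c) = 0 := by linear_combination (h2 - h1) / 4
    exact (mul_eq_zero.1 this).resolve_left (sub_ne_zero.2 hbc)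
  have h4 : p = -4 * (a * b + a * c + b * c) := by
    have hcc : c = -a - b := by linear_combination h3
    rw [hcc]
    linear_combination -h1
  refine ⟨h3, h4, ?_⟩
  have hcc : c = -a - b := by linear_combination h3
  rw [h4] at ha
  rw [hcc] at ha ⊢
  linear_combination -ha

theorem vieta_e : e1 L + e2 L + e3 L = 0 ∧ L.g₂ = -4 * (e1 L * e2 L + e1 L * e3 L + e2 L * e3 L) ∧
    L.g₃ = 4 * e1 L * e2 L * e3 L :=
  vieta e21 e31 e32 (cubic_half half1) (cubic_half half2) (cubic_half half3)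

/-- the discriminant -/
def disc (L : PeriodPair) : ℂ := L.g₂ ^ 3 - 27 * L.g₃ ^ 2

theorem disc_eq : disc L = 16 * ((e2 L - e1 L) * (e3 L - e1 L) * (e3 L - e2 L)) ^ 2 := by
  obtain ⟨h1, h2, h3⟩ := vieta_e (L := L)
  have h4 : e3 L = -e1 L - e2 L := by linear_combination h1
  rw [disc, h2, h3, h4]
  ring

theorem disc_ne : disc L ≠ 0 := by
  rw [disc_eq]
  have h1 := sub_ne_zero.2 (e21 (L := L))
  have h2 := sub_ne_zero.2 (e31 (L := L))
  have h3 := sub_ne_zero.2 (e32 (L := L))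
  exact mul_ne_zero (by norm_num) (pow_ne_zero _ (mul_ne_zero (mul_ne_zero h1 h2) h3))

theorem Ah1 : Ah L (L.ω₁ / 2) half1 = (e2 L - e1 L) * (e3 L - e1 L) := by
  have := Ah_eq (L := L) half1 half2.1 nm12
  rw [sum12] at this
  exact this.symm

theorem Ah2 : Ah L (L.ω₂ / 2) half2 = (e3 L - e2 L) * (e1 L - e2 L) := by
  have := Ah_eq (L := L) half2 half3.1 nm23
  rw [sum23] at this
  exact this.symm

theorem Ah3 : Ah L (L.ω₁ / 2 + L.ω₂ / 2) half3 = (e1 L - e3 L) * (e2 L - e3 L) := by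
  have h1 : L.ω₁ / 2 + (L.ω₁ / 2 + L.ω₂ / 2) = L.ω₁ / 2 + L.ω₂ / 2 + L.ω₁ / 2 := by ring
  have := Ah_eq (L := L) half3 (z := L.ω₁ / 2) half1.1 (by rw [h1]; exact nm13)
  rw [h1, sum13] at this
  exact this.symm

/-- the three special cases -/
theorem Ah_g1 : Ah L (L.ω₁ / 2) half1 = 3 * e1 L ^ 2 - L.g₂ / 4 := by
  obtain ⟨h1, h2, h3⟩ := vieta_e (L := L)
  have h4 : e3 L = -e1 L - e2 L := by linear_combination h1
  rw [Ah1, h2, h4]
  ring

theorem Ah_g2 : Ah L (L.ω₂ / 2) half2 = 3 * e2 L ^ 2 - L.g₂ / 4 := by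
  obtain ⟨h1, h2, h3⟩ := vieta_e (L := L)
  have h4 : e3 L = -e1 L - e2 L := by linear_combination h1
  rw [Ah2, h2, h4]
  ring

end Fermat.Agent.Mz
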