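import Fermat.Agent.Mz.WpB

/-!
# Addition formulas for `℘`
-/

set_option autoImplicit false

noncomputable section

open Filter Topology PeriodPair

namespace Fermat.Agent.Mz

variable {L : PeriodPair}

theorem tendsto_sq_mul_wp : Tendsto (fun z => z ^ 2 * ℘[L] z) (𝓝[≠] 0) (𝓝 1) := by
  have h1 : AnalyticAt ℂ ℘[L - (0 : ℂ)] 0 := L.analyticOnNhd_weierstrassPExcept 0 0 (by simp)
  have h2 : ContinuousAt (fun z : ℂ => (z - 0) ^ 2 * ℘[L - (0 : ℂ)] z + 1 - (z - 0) ^ 2 / (0 : ℂ) ^ 2) 0 := by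
    have := h1.continuousAt
    fun_prop
  have h3 := h2.tendsto.mono_left (nhdsWithin_le_nhds (s := {0}ᶜ))
  simp only [sub_zero, ne_eq, OfNat.ofNat_ne_zero, not_false_eq_true, zero_pow, zero_mul, zero_add,
    div_zero] at h3
  refine h3.congr' ?_
  filter_upwards [self_mem_nhdsWithin] with z hz
  have hz0 : z ≠ 0 := hz
  have h4 := L.ite_eq_one_sub_sq_mul_weierstrassP 0 (zero_mem _) z
  rw [if_neg hz0] at h4
  simp only [sub_zero, ne_eq, OfNat.ofNat_ne_zero, not_false_eq_true, zero_pow, div_zero] at h4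
  exact h4.symm

theorem go_pow_id (n : ℕ) : GO (fun z : ℂ => z ^ n) 0 n := by
  refine ⟨by fun_prop, ?_⟩
  have h1 : meromorphicOrderAt (fun z : ℂ => z ^ n) 0 = (n : ℤ) := by
    rw [meromorphicOrderAt_eq_int_iff (by fun_prop)]
    exact ⟨fun _ => 1, analyticAt_const, one_ne_zero, by simp⟩
  rw [h1]

theorem go_inv_pow (n : ℕ) : GO (fun z : ℂ => (z ^ n)⁻¹) 0 (-n) := by
  refine ⟨by fun_prop, ?_⟩
  have h1 : meromorphicOrderAt (fun z : ℂ => (z ^ n)⁻¹) 0 = ((-n : ℤ) : WithTop ℤ) := by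
    rw [meromorphicOrderAt_eq_int_iff (by fun_prop)]
    exact ⟨fun _ => 1, analyticAt_const, one_ne_zero, by simp⟩
  rw [h1]

/-- dividing out a power of the variable -/
theorem GO.of_mul_pow {f : ℂ → ℂ} {n : ℕ} {m : ℤ} (h : GO (fun z => z ^ n * f z) 0 m) :
    GO f 0 (m - n) := by
  refine ((h.mul (go_inv_pow n)).congr ?_).mono (by linarith)
  filter_upwards [self_mem_nhdsWithin] with z hz
  have hz0 : z ≠ 0 := hz
  have : z ^ n ≠ 0 := pow_ne_zero _ hz0
  field_simp

/-- invariance under the lattice -/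
theorem GO.of_periodic {f : ℂ → ℂ} (hp : ∀ l ∈ L.lattice, ∀ z, f (z + l) = f z) {l : ℂ}
    (hl : l ∈ L.lattice) {n : ℤ} (h : GO f 0 n) : GO f l n := by
  have h1 : GO f (l + -l) n := by rwa [add_neg_cancel]
  have h2 := h1.comp_add
  have h3 : (fun x => f (x + -l)) = f := by
    funext x
    exact hp _ (neg_mem hl) x
  rwa [h3] at h2

/-- even elliptic functions with a pole of order at most four -/
theorem even_poly {f : ℂ → ℂ} (hp : ∀ l ∈ L.lattice, ∀ z, f (z + l) = f z)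
    (he : ∀ z, f (-z) = f z) (h0 : ∀ z, z ∉ L.lattice → GO f z 0) (h4 : GO f 0 (-4)) {α : ℂ}
    (hα : Tendsto (fun z => z ^ 4 * f z) (𝓝[≠] 0) (𝓝 α)) :
    ∃ β γ, ∀ z, (fun x => f x - α * ℘[L] x ^ 2 - β * ℘[L] x) =ᶠ[𝓝[≠] z] fun _ => γ := by
  have hP := tendsto_sq_mul_wp (L := L)
  -- first step
  have hg1 : GO (fun x => f x - α * ℘[L] x ^ 2) 0 (-4) :=
    h4.sub (((go_wp (L := L) 0).sq.smul α).mono (by norm_num))
  have hg1' : GO (fun z => z ^ 4 * (f z - α * ℘[L] z ^ 2)) 0 1 := by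
    refine GO.of_tendsto_zero ((go_pow_id 4).mul hg1).1 ?_
    have h1 : Tendsto (fun z => z ^ 4 * f z - α * (z ^ 2 * ℘[L] z) ^ 2) (𝓝[≠] 0)
        (𝓝 (α - α * 1 ^ 2)) := hα.sub ((hP.pow 2).const_mul α)
    have h2 : α - α * 1 ^ 2 = 0 := by ring
    rw [h2] at h1
    refine h1.congr fun z => ?_
    ring
  have hg1e : ∀ z, (fun x => f x - α * ℘[L] x ^ 2) (-z) = (fun x => f x - α * ℘[L] x ^ 2) z := by
    intro z
    simp only [he, L.weierstrassP_neg]
  have hg1'' : GO (fun x => f x - α * ℘[L] x ^ 2) 0 (2 * (-1)) :=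
    GO.even hg1e ((GO.of_mul_pow (n := 4) hg1').mono (by norm_num))
  -- second step
  have hz2 : GO (fun z => z ^ 2 * (f z - α * ℘[L] z ^ 2)) 0 0 :=
    ((go_pow_id 2).mul hg1'').mono (by norm_num)
  obtain ⟨β, hβ⟩ := tendsto_nhds_of_meromorphicOrderAt_nonneg hz2.1 (by exact_mod_cast hz2.2)
  have hg2 : GO (fun x => f x - α * ℘[L] x ^ 2 - β * ℘[L] x) 0 (-2) :=
    (hg1''.mono (by norm_num)).sub ((go_wp (L := L) 0).smul β)
  have hg2' : GO (fun z => z ^ 2 * (f z - α * ℘[L] z ^ 2 - β * ℘[L] z)) 0 1 := by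
    refine GO.of_tendsto_zero ((go_pow_id 2).mul hg2).1 ?_
    have h1 := hβ.sub (hP.const_mul β)
    rw [mul_one, sub_self] at h1
    refine h1.congr fun z => ?_
    ring
  have hg2e : ∀ z, (fun x => f x - α * ℘[L] x ^ 2 - β * ℘[L] x) (-z) =
      (fun x => f x - α * ℘[L] x ^ 2 - β * ℘[L] x) z := by
    intro z
    simp only [he, L.weierstrassP_neg]
  have hg2'' : GO (fun x => f x - α * ℘[L] x ^ 2 - β * ℘[L] x) 0 (2 * 0) :=
    GO.even hg2e ((GO.of_mul_pow (n := 2) hg2').mono (by norm_num))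
  have hper : ∀ l ∈ L.lattice, ∀ z, (fun x => f x - α * ℘[L] x ^ 2 - β * ℘[L] x) (z + l) =
      (fun x => f x - α * ℘[L] x ^ 2 - β * ℘[L] x) z := by
    intro l hl z
    simp only [hp l hl, wp_add L hl]
  obtain ⟨γ, hγ⟩ := liou' L hper (by
    intro z
    by_cases hz : z ∈ L.lattice
    · exact GO.of_periodic hper hz (by simpa using hg2'')
    · have h1 := GO.of_analytic (an_wp (L := L) hz)
      exact (((h0 z hz).sub ((h1.sq.smul α).mono (by norm_num))).sub
        ((h1.smul β).mono (by norm_num))).mono (by norm_num))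
  exact ⟨β, γ, hγ⟩

/-- translated `℘` -/
theorem go_wp_comp (w z : ℂ) : GO (fun x => ℘[L] (x + w)) z (-2) := (go_wp _).comp_add

theorem go_wp_comp0 {w z : ℂ} (h : z + w ∉ L.lattice) : GO (fun x => ℘[L] (x + w)) z 0 :=
  (GO.of_analytic (an_wp h)).comp_add

theorem tendsto_comp {w : ℂ} (hw : w ∉ L.lattice) :
    Tendsto (fun x => ℘[L] (x + w)) (𝓝[≠] 0) (𝓝 (℘[L] w)) := by
  have h1 : ContinuousAt (fun x => ℘[L] (x + w)) 0 := by
    have : AnalyticAt ℂ ℘[L] (0 + w) := by rw [zero_add]; exact an_wp hw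
    exact (an_comp this).continuousAt
  have := h1.tendsto.mono_left (nhdsWithin_le_nhds (s := {0}ᶜ))
  rwa [zero_add] at this

/-- the function `℘(z+w) + ℘(z-w)` times `(℘(z) - ℘(w))²` -/
theorem exists_sum {w : ℂ} (hw : w ∉ L.lattice) : ∃ β γ, ∀ z, z ∉ L.lattice → z + w ∉ L.lattice →
    z - w ∉ L.lattice → (℘[L] (z + w) + ℘[L] (z - w)) * (℘[L] z - ℘[L] w) ^ 2 =
      2 * ℘[L] w * ℘[L] z ^ 2 + β * ℘[L] z + γ := by
  have hw' : -w ∉ L.lattice := fun h => hw (neg_mem_iff.1 h)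
  obtain ⟨β, γ, h⟩ := even_poly (L := L)
    (f := fun x => (℘[L] (x + w) + ℘[L] (x + -w)) * (℘[L] x - ℘[L] w) ^ 2) (α := 2 * ℘[L] w)
    (by
      intro l hl z
      have h1 : z + l + w = z + w + l := by ring
      have h2 : z + l + -w = z + -w + l := by ring
      simp only [h1, h2, wp_add L hl])
    (by
      intro z
      have h1 : -z + w = -(z + -w) := by ring
      have h2 : -z + -w = -(z + w) := by ring
      simp only [h1, h2, L.weierstrassP_neg]
      ring)
    (by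
      intro z hz
      by_cases h1 : z + w ∈ L.lattice
      · have h2 := (go_sub1 (L := L) hw (Or.inr h1)).sq
        exact (((go_wp_comp w z).add (go_wp_comp (-w) z)).mul h2).mono (by norm_num)
      by_cases h3 : z + -w ∈ L.lattice
      · have h2 := (go_sub1 (L := L) hw (z := z) (Or.inl (by rwa [← sub_eq_add_neg] at h3))).sq
        exact (((go_wp_comp w z).add (go_wp_comp (-w) z)).mul h2).mono (by norm_num)
      · exact (((go_wp_comp0 h1).add (go_wp_comp0 h3)).mul (go_sub0 (℘[L] w) hz).sq).mono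
          (by norm_num))
    (by
      have h1 : GO (fun x => ℘[L] (x + w)) 0 0 := go_wp_comp0 (by rwa [zero_add])
      have h2 : GO (fun x => ℘[L] (x + -w)) 0 0 := go_wp_comp0 (by rwa [zero_add])
      exact ((h1.add h2).mul (go_sub (℘[L] w) 0).sq).mono (by norm_num))
    (by
      have h1 := ((tendsto_comp hw).add (tendsto_comp hw'))
      rw [L.weierstrassP_neg, ← two_mul] at h1
      have h2 : Tendsto (fun z => (z ^ 2 * ℘[L] z - z ^ 2 * ℘[L] w) ^ 2) (𝓝[≠] 0)
          (𝓝 ((1 - 0 ^ 2 * ℘[L] w) ^ 2)) := by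
        refine (tendsto_sq_mul_wp.sub (Tendsto.mul_const _ ?_)).pow 2
        exact (continuous_pow 2).continuousAt.tendsto.mono_left nhdsWithin_le_nhds
      have h3 := h1.mul h2
      have e : 2 * ℘[L] w * (1 - 0 ^ 2 * ℘[L] w) ^ 2 = 2 * ℘[L] w := by ring
      rw [e] at h3
      refine h3.congr fun z => ?_
      ring)
  refine ⟨β, γ, fun z hz h1 h2 => ?_⟩
  rw [sub_eq_add_neg] at h2
  have hc : ContinuousAt (fun x => (℘[L] (x + w) + ℘[L] (x + -w)) * (℘[L] x - ℘[L] w) ^ 2 -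
      2 * ℘[L] w * ℘[L] x ^ 2 - β * ℘[L] x) z := by
    have a1 := (an_comp (an_wp h1)).continuousAt
    have a2 := (an_comp (an_wp h2)).continuousAt
    have a3 := (an_wp hz).continuousAt
    fun_prop
  have h4 := eq_of_evt (h z) hc
  rw [sub_eq_add_neg z w]
  linear_combination h4

theorem exists_prod {w : ℂ} (hw : w ∉ L.lattice) (hw2 : w + w ∉ L.lattice) : ∃ β γ, ∀ z,
    z ∉ L.lattice → z + w ∉ L.lattice →
    z - w ∉ L.lattice → ℘[L] (z + w) * ℘[L] (z - w) * (℘[L] z - ℘[L] w) ^ 2 =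
      ℘[L] w ^ 2 * ℘[L] z ^ 2 + β * ℘[L] z + γ := by
  have hw' : -w ∉ L.lattice := fun h => hw (neg_mem_iff.1 h)
  obtain ⟨β, γ, h⟩ := even_poly (L := L)
    (f := fun x => ℘[L] (x + w) * ℘[L] (x + -w) * (℘[L] x - ℘[L] w) ^ 2) (α := ℘[L] w ^ 2)
    (by
      intro l hl z
      have h1 : z + l + w = z + w + l := by ring
      have h2 : z + l + -w = z + -w + l := by ring
      simp only [h1, h2, wp_add L hl])
    (by
      intro z
      have h1 : -z + w = -(z + -w) := by ring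
      have h2 : -z + -w = -(z + w) := by ring
      simp only [h1, h2, L.weierstrassP_neg]
      ring)
    (by
      intro z hz
      by_cases h1 : z + w ∈ L.lattice
      · have h2 := (go_sub1 (L := L) hw (Or.inr h1)).sq
        have h3 : z + -w ∉ L.lattice := by
          intro h3
          apply hw2
          have := sub_mem h1 h3
          have e : z + w - (z + -w) = w + w := by ring
          rwa [e] at this
        exact (((go_wp_comp w z).mul (go_wp_comp0 h3)).mul h2).mono (by norm_num)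
      by_cases h3 : z + -w ∈ L.lattice
      · have h2 := (go_sub1 (L := L) hw (z := z) (Or.inl (by rwa [← sub_eq_add_neg] at h3))).sq
        exact (((go_wp_comp0 h1).mul (go_wp_comp (-w) z)).mul h2).mono (by norm_num)
      · exact (((go_wp_comp0 h1).mul (go_wp_comp0 h3)).mul (go_sub0 (℘[L] w) hz).sq).mono
          (by norm_num))
    (by
      have h1 : GO (fun x => ℘[L] (x + w)) 0 0 := go_wp_comp0 (by rwa [zero_add])
      have h2 : GO (fun x => ℘[L] (x + -w)) 0 0 := go_wp_comp0 (by rwa [zero_add])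
      exact ((h1.mul h2).mul (go_sub (℘[L] w) 0).sq).mono (by norm_num))
    (by
      have h1 := ((tendsto_comp hw).mul (tendsto_comp hw'))
      rw [L.weierstrassP_neg] at h1
      have h2 : Tendsto (fun z => (z ^ 2 * ℘[L] z - z ^ 2 * ℘[L] w) ^ 2) (𝓝[≠] 0)
          (𝓝 ((1 - 0 ^ 2 * ℘[L] w) ^ 2)) := by
        refine (tendsto_sq_mul_wp.sub (Tendsto.mul_const _ ?_)).pow 2
        exact (continuous_pow 2).continuousAt.tendsto.mono_left nhdsWithin_le_nhds
      have h3 := h1.mul h2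
      have e : ℘[L] w * ℘[L] w * (1 - 0 ^ 2 * ℘[L] w) ^ 2 = ℘[L] w ^ 2 := by ring
      rw [e] at h3
      refine h3.congr fun z => ?_
      ring)
  refine ⟨β, γ, fun z hz h1 h2 => ?_⟩
  rw [sub_eq_add_neg] at h2
  have hc : ContinuousAt (fun x => ℘[L] (x + w) * ℘[L] (x + -w) * (℘[L] x - ℘[L] w) ^ 2 -
      ℘[L] w ^ 2 * ℘[L] x ^ 2 - β * ℘[L] x) z := by
    have a1 := (an_comp (an_wp h1)).continuousAt
    have a2 := (an_comp (an_wp h2)).continuousAt
    have a3 := (an_wp hz).continuousAt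
    fun_prop
  have h4 := eq_of_evt (h z) hc
  rw [sub_eq_add_neg z w]
  linear_combination h4

end Fermat.Agent.Mz
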