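import Fermat.Agent.Mz.WpC

/-!
# Addition formulas for `℘`, continued
-/

set_option autoImplicit false

noncomputable section

open Filter Topology PeriodPair

namespace Fermat.Agent.Mz

variable {L : PeriodPair}

theorem half_notMem_add {w v : ℂ} (hw2 : w + w ∉ L.lattice) (hv : Half L v) :
    v + w ∉ L.lattice ∧ v - w ∉ L.lattice := by
  constructor
  · intro h
    apply hw2
    have := sub_mem (add_mem h h) hv.2
    have e : v + w + (v + w) - (v + v) = w + w := by ring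
    rwa [e] at this
  · intro h
    apply hw2
    have := sub_mem hv.2 (add_mem h h)
    have e : v + v - (v - w + (v - w)) = w + w := by ring
    rwa [e] at this

/-- values of the translates at a half period -/
theorem wp_half_trans {w v : ℂ} (hw : w ∉ L.lattice) (hw2 : w + w ∉ L.lattice) (hv : Half L v) :
    ℘[L] (v - w) = ℘[L] (v + w) ∧
    (℘[L] w - ℘[L] v) * (℘[L] (v + w) - ℘[L] v) = Ah L v hv := by
  constructor
  · refine wp_congr' ?_
    have e : v - w + (v + w) = v + v := by ring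
    rw [e]
    exact hv.2
  · have h1 := Ah_eq hv hw (by rw [add_comm]; exact (half_notMem_add hw2 hv).1)
    rw [add_comm w v] at h1
    exact h1

theorem lin_unique {a b β γ β' γ' : ℂ} (hab : a ≠ b) (ha : β * a + γ = β' * a + γ')
    (hb : β * b + γ = β' * b + γ') : β = β' ∧ γ = γ' := by
  have h1 : β = β' := by
    have : (a - b) * (β - β') = 0 := by linear_combination ha - hb
    exact sub_eq_zero.1 ((mul_eq_zero.1 this).resolve_left (sub_ne_zero.2 hab))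
  refine ⟨h1, ?_⟩
  rw [h1] at ha
  exact add_left_cancel ha

/-- **the sum formula** -/
theorem wp_sum {z w : ℂ} (hz : z ∉ L.lattice) (hw : w ∉ L.lattice) (hw2 : w + w ∉ L.lattice)
    (h1 : z + w ∉ L.lattice) (h2 : z - w ∉ L.lattice) :
    (℘[L] (z + w) + ℘[L] (z - w)) * (℘[L] z - ℘[L] w) ^ 2 =
      (2 * ℘[L] z * ℘[L] w - L.g₂ / 2) * (℘[L] z + ℘[L] w) - L.g₃ := by
  obtain ⟨β, γ, h⟩ := exists_sum hw
  have key : ∀ v, ∀ hv : Half L v, Ah L v hv = 3 * ℘[L] v ^ 2 - L.g₂ / 4 →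
      β * ℘[L] v + γ = (2 * ℘[L] w ^ 2 - L.g₂ / 2) * ℘[L] v + (-(L.g₂ / 2) * ℘[L] w - L.g₃) := by
    intro v hv hA
    obtain ⟨a1, a2⟩ := half_notMem_add hw2 hv
    obtain ⟨b1, b2⟩ := wp_half_trans hw hw2 hv
    have h3 := h v hv.1 a1 a2
    have h4 := cubic_half hv
    rw [b1] at h3
    rw [hA] at b2
    have h5 : ℘[L] (v + w) * (℘[L] w - ℘[L] v) =
      3 * ℘[L] v ^ 2 - L.g₂ / 4 + ℘[L] v * (℘[L] w - ℘[L] v) := by linear_combination b2
    have h6 : (℘[L] (v + w) + ℘[L] (v + w)) * (℘[L] v - ℘[L] w) ^ 2 =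
      2 * (℘[L] (v + w) * (℘[L] w - ℘[L] v)) * (℘[L] w - ℘[L] v) := by ring
    rw [h6, h5] at h3
    linear_combination -h3 - h4
  have k1 := key _ half1 Ah_g1
  have k2 := key _ half2 Ah_g2
  obtain ⟨h3, h4⟩ := lin_unique (a := ℘[L] (L.ω₁ / 2)) (b := ℘[L] (L.ω₂ / 2)) (fun h => e21 h.symm)
    k1 k2
  rw [h z hz h1 h2, h3, h4]
  ring

/-- **the product formula** -/
theorem wp_prod {z w : ℂ} (hz : z ∉ L.lattice) (hw : w ∉ L.lattice) (hw2 : w + w ∉ L.lattice)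
    (h1 : z + w ∉ L.lattice) (h2 : z - w ∉ L.lattice) :
    ℘[L] (z + w) * ℘[L] (z - w) * (℘[L] z - ℘[L] w) ^ 2 =
      (℘[L] z * ℘[L] w + L.g₂ / 4) ^ 2 + L.g₃ * (℘[L] z + ℘[L] w) := by
  obtain ⟨β, γ, h⟩ := exists_prod hw hw2
  have key : ∀ v, ∀ hv : Half L v, Ah L v hv = 3 * ℘[L] v ^ 2 - L.g₂ / 4 →
      β * ℘[L] v + γ = ((L.g₂ / 2) * ℘[L] w + L.g₃) * ℘[L] v +
        (L.g₂ ^ 2 / 16 + L.g₃ * ℘[L] w) := by
    intro v hv hA
    obtain ⟨a1, a2⟩ := half_notMem_add hw2 hv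
    obtain ⟨b1, b2⟩ := wp_half_trans hw hw2 hv
    have h3 := h v hv.1 a1 a2
    have h4 := cubic_half hv
    rw [b1] at h3
    rw [hA] at b2
    have h5 : ℘[L] (v + w) * (℘[L] w - ℘[L] v) =
      3 * ℘[L] v ^ 2 - L.g₂ / 4 + ℘[L] v * (℘[L] w - ℘[L] v) := by linear_combination b2
    have h6 : (℘[L] (v + w) * ℘[L] (v + w)) * (℘[L] v - ℘[L] w) ^ 2 =
      (℘[L] (v + w) * (℘[L] w - ℘[L] v)) ^ 2 := by ring
    rw [h6, h5] at h3
    linear_combination -h3 + (℘[L] v + ℘[L] w) * h4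
  have k1 := key _ half1 Ah_g1
  have k2 := key _ half2 Ah_g2
  obtain ⟨h3, h4⟩ := lin_unique (a := ℘[L] (L.ω₁ / 2)) (b := ℘[L] (L.ω₂ / 2)) (fun h => e21 h.symm)
    k1 k2
  rw [h z hz h1 h2, h3, h4]
  ring

/-- **injectivity of `℘` up to sign** -/
theorem wp_inj {a b : ℂ} (ha : a ∉ L.lattice) (hb : b ∉ L.lattice) (h : ℘[L] a = ℘[L] b) :
    a - b ∈ L.lattice ∨ a + b ∈ L.lattice := by
  by_contra hcon
  push Not at hcon
  obtain ⟨h1, h2⟩ := hcon
  by_cases hb2 : b + b ∈ L.lattice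
  · exact wp_half_ne ⟨hb, hb2⟩ ha h2 h
  · have s := wp_sum ha hb hb2 h2 h1
    have p := wp_prod ha hb hb2 h2 h1
    rw [h, sub_self] at s p
    set e := ℘[L] b
    have hg3 : L.g₃ = 4 * e ^ 3 - L.g₂ * e := by linear_combination s
    have hg2 : L.g₂ = 12 * e ^ 2 := by
      have : (3 * e ^ 2 - L.g₂ / 4) ^ 2 = 0 := by
        rw [hg3] at p
        linear_combination -p
      have := pow_eq_zero_iff (two_ne_zero) |>.1 this
      linear_combination -4 * this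
    apply disc_ne (L := L)
    rw [disc, hg3, hg2]
    ring

/-- **duplication formula** -/
theorem wp_dup {w : ℂ} (hw : w ∉ L.lattice) (hw2 : w + w ∉ L.lattice) :
    ℘[L] (w + w) * ℘'[L] w ^ 2 = (℘[L] w ^ 2 + L.g₂ / 4) ^ 2 + 2 * L.g₃ * ℘[L] w := by
  -- everything as functions of `h`, `z = w + h`
  have t1 : Tendsto (fun h : ℂ => h + w) (𝓝[≠] 0) (𝓝[≠] w) := by
    refine tendsto_nhdsWithin_of_tendsto_nhds_of_eventually_within _ ?_ ?_
    · have : ContinuousAt (fun h : ℂ => h + w) 0 := by fun_prop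
      have h2 := this.tendsto.mono_left (nhdsWithin_le_nhds (s := {0}ᶜ))
      rwa [zero_add] at h2
    · filter_upwards [self_mem_nhdsWithin] with x hx
      intro h
      apply hx
      have : x + w = 0 + w := by rw [zero_add]; exact h
      exact add_right_cancel this
  have hcw : ContinuousAt ℘[L] w := (an_wp hw).continuousAt
  have hw2' : ContinuousAt ℘[L] (w + w) := (an_wp hw2).continuousAt
  have l1 : Tendsto (fun h => ℘[L] (h + w)) (𝓝[≠] 0) (𝓝 (℘[L] w)) :=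
    (hcw.tendsto.mono_left nhdsWithin_le_nhds).comp t1
  have l2 : Tendsto (fun h => ℘[L] (h + w + w)) (𝓝[≠] 0) (𝓝 (℘[L] (w + w))) := by
    have : Tendsto (fun x : ℂ => x + w) (𝓝[≠] w) (𝓝 (w + w)) := by
      have : ContinuousAt (fun x : ℂ => x + w) w := by fun_prop
      exact this.tendsto.mono_left nhdsWithin_le_nhds
    exact hw2'.tendsto.comp (this.comp t1)
  have hd : HasDerivAt ℘[L] (℘'[L] w) w := by
    have := (an_wp hw).differentiableAt.hasDerivAt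
    rwa [deriv_weierstrassP] at this
  have l3 : Tendsto (fun h => h⁻¹ * (℘[L] (h + w) - ℘[L] w)) (𝓝[≠] 0) (𝓝 (℘'[L] w)) := by
    have h1 := (hasDerivAt_iff_tendsto_slope_zero.1 hd)
    refine h1.congr fun h => ?_
    rw [smul_eq_mul, add_comm w h]
  have l4 : Tendsto (fun h => h ^ 2 * ℘[L] h) (𝓝[≠] 0) (𝓝 1) := tendsto_sq_mul_wp
  have lhs : Tendsto (fun h => ℘[L] (h + w + w) * ((h ^ 2 * ℘[L] h) *
      (h⁻¹ * (℘[L] (h + w) - ℘[L] w)) ^ 2)) (𝓝[≠] 0)
      (𝓝 (℘[L] (w + w) * (1 * ℘'[L] w ^ 2))) := l2.mul (l4.mul (l3.pow 2))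
  have rhs : Tendsto (fun h => (℘[L] (h + w) * ℘[L] w + L.g₂ / 4) ^ 2 +
      L.g₃ * (℘[L] (h + w) + ℘[L] w)) (𝓝[≠] 0)
      (𝓝 ((℘[L] w * ℘[L] w + L.g₂ / 4) ^ 2 + L.g₃ * (℘[L] w + ℘[L] w))) :=
    (((l1.mul_const _).add_const _).pow 2).add ((l1.add_const _).const_mul _)
  have ev : ∀ᶠ h in 𝓝[≠] (0 : ℂ), ℘[L] (h + w + w) * ((h ^ 2 * ℘[L] h) *
      (h⁻¹ * (℘[L] (h + w) - ℘[L] w)) ^ 2) = (℘[L] (h + w) * ℘[L] w + L.g₂ / 4) ^ 2 +
      L.g₃ * (℘[L] (h + w) + ℘[L] w) := by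
    have o1 : ∀ᶠ h in 𝓝[≠] (0 : ℂ), h + w ∉ L.lattice := by
      have : (L.lattice : Set ℂ)ᶜ ∈ 𝓝 w := (DS.isOpen_compl_lat L).mem_nhds hw
      exact (tendsto_nhds_of_tendsto_nhdsWithin t1).eventually this
    have o2 : ∀ᶠ h in 𝓝[≠] (0 : ℂ), h + w + w ∉ L.lattice := by
      have h3 : (L.lattice : Set ℂ)ᶜ ∈ 𝓝 (w + w) := (DS.isOpen_compl_lat L).mem_nhds hw2
      have : Tendsto (fun x : ℂ => x + w) (𝓝[≠] w) (𝓝 (w + w)) := by
        have : ContinuousAt (fun x : ℂ => x + w) w := by fun_prop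
        exact this.tendsto.mono_left nhdsWithin_le_nhds
      exact (this.comp t1).eventually h3
    have o3 : ∀ᶠ h in 𝓝[≠] (0 : ℂ), h ∉ L.lattice := by
      have h3 : ((L.lattice : Set ℂ) \ {0})ᶜ ∈ 𝓝 (0 : ℂ) :=
        L.compl_lattice_sdiff_singleton_mem_nhds 0
      have h4 : ∀ᶠ h in 𝓝[≠] (0 : ℂ), h ∈ ((L.lattice : Set ℂ) \ {0})ᶜ :=
        nhdsWithin_le_nhds h3
      filter_upwards [h4, self_mem_nhdsWithin] with h h5 h6 h7
      exact h5 ⟨h7, h6⟩
    filter_upwards [o1, o2, o3, self_mem_nhdsWithin] with h a1 a2 a3 a4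
    have h0 : h ≠ 0 := a4
    have h5 := wp_prod (L := L) a1 hw hw2 a2 (by rwa [add_sub_cancel_right])
    rw [add_sub_cancel_right] at h5
    rw [← h5]
    field_simp
  have := tendsto_nhds_unique (lhs.congr' ev) rhs
  rw [one_mul] at this
  rw [this]
  ring

/-- **surjectivity of `℘`** -/
theorem wp_surj (c : ℂ) : ∃ z, z ∉ L.lattice ∧ ℘[L] z = c := by
  by_contra hcon
  push Not at hcon
  have hl : ∀ l, l ∈ L.lattice → Tendsto (fun x => (℘[L] x - c)⁻¹) (𝓝[≠] l) (𝓝 0) := by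
    intro l hl
    have h1 := tendsto_cobounded_of_meromorphicOrderAt_neg (f := ℘[L]) (x := l)
      (by rw [L.order_weierstrassP l hl]; decide)
    have h2 : Tendsto (fun x => ℘[L] x - c) (𝓝[≠] l) (Bornology.cobounded ℂ) := by
      rw [← tendsto_norm_atTop_iff_cobounded] at h1 ⊢
      refine tendsto_atTop_mono (fun x => ?_) (tendsto_atTop_add_const_right _ (-‖c‖) h1)
      have := norm_sub_norm_le (℘[L] x) c
      linarith
    exact tendsto_inv₀_cobounded.comp h2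
  have hm : ∀ z, MeromorphicAt (fun x => (℘[L] x - c)⁻¹) z := fun z => (go_sub (L := L) c z).1.inv
  obtain ⟨κ, hκ⟩ := liou' L (f := fun x => (℘[L] x - c)⁻¹) (by
    intro l hl z
    simp only [wp_add L hl]) (by
    intro z
    by_cases hz : z ∈ L.lattice
    · exact (GO.of_tendsto_zero (hm z) (hl z hz)).mono (by norm_num)
    · exact GO.of_analytic ((an_sub c hz).inv (sub_ne_zero.2 (hcon z hz))))
  have h0 : (0 : ℂ) = κ := lim_of_evt (hκ 0) (hl 0 (zero_mem _))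
  have hz : L.ω₁ / 2 ∉ L.lattice := L.ω₁_div_two_notMem_lattice
  have h1 := eq_of_evt (hκ (L.ω₁ / 2))
    ((an_sub (L := L) c hz).inv (sub_ne_zero.2 (hcon _ hz))).continuousAt
  rw [← h0, inv_eq_zero, sub_eq_zero] at h1
  exact hcon _ hz h1

end Fermat.Agent.Mz
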