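import Fermat.Agent.Mz.WpD

/-!
# The product of the translates of `℘'` by half periods
-/

set_option autoImplicit false

noncomputable section

open Filter Topology PeriodPair

namespace Fermat.Agent.Mz

variable (L : PeriodPair)

/-- the half periods and zero -/
def hp : Fin 4 → ℂ
  | 0 => 0
  | 1 => L.ω₁ / 2
  | 2 => L.ω₂ / 2
  | 3 => L.ω₁ / 2 + L.ω₂ / 2

variable {L}

/-- differences of different half periods are half periods -/
theorem hp_sub {i j : Fin 4} (h : i ≠ j) : Half L (hp L i - hp L j) := by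
  have h1 := half1 (L := L)
  have h2 := half2 (L := L)
  have h3 := half3 (L := L)
  have neg : ∀ {w : ℂ}, Half L w → Half L (-w) := by
    intro w hw
    refine hw.congr ?_
    have e : -w - w = -(w + w) := by ring
    rw [e]; exact neg_mem hw.2
  have e0 : hp L 0 = 0 := rfl
  have e1 : hp L 1 = L.ω₁ / 2 := rfl
  have e2 : hp L 2 = L.ω₂ / 2 := rfl
  have e3 : hp L 3 = L.ω₁ / 2 + L.ω₂ / 2 := rfl
  have m1 := L.ω₁_mem_lattice
  have m2 := L.ω₂_mem_lattice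
  fin_cases i <;> fin_cases j <;> first | exact absurd rfl h | skip
  all_goals simp only [Fin.zero_eta, Fin.mk_one, Fin.reduceFinMk, e0, e1, e2, e3, zero_sub, sub_zero]
  · exact neg h1
  · exact neg h2
  · exact neg h3
  · exact h1
  · refine h3.congr ?_
    have e : L.ω₁ / 2 - L.ω₂ / 2 - (L.ω₁ / 2 + L.ω₂ / 2) = -L.ω₂ := by ring
    rw [e]; exact neg_mem m2
  · have e : L.ω₁ / 2 - (L.ω₁ / 2 + L.ω₂ / 2) = -(L.ω₂ / 2) := by ring
    rw [e]; exact neg h2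
  · exact h2
  · refine h3.congr ?_
    have e : L.ω₂ / 2 - L.ω₁ / 2 - (L.ω₁ / 2 + L.ω₂ / 2) = -L.ω₁ := by ring
    rw [e]; exact neg_mem m1
  · have e : L.ω₂ / 2 - (L.ω₁ / 2 + L.ω₂ / 2) = -(L.ω₁ / 2) := by ring
    rw [e]; exact neg h1
  · exact h3
  · have e : L.ω₁ / 2 + L.ω₂ / 2 - L.ω₁ / 2 = L.ω₂ / 2 := by ring
    rw [e]; exact h2
  · have e : L.ω₁ / 2 + L.ω₂ / 2 - L.ω₂ / 2 = L.ω₁ / 2 := by ring
    rw [e]; exact h1

/-- finite products -/
theorem GO.prod {ι : Type*} (s : Finset ι) {f : ι → ℂ → ℂ} {z : ℂ} {n : ι → ℤ}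
    (h : ∀ i ∈ s, GO (f i) z (n i)) : GO (fun x => ∏ i ∈ s, f i x) z (∑ i ∈ s, n i) := by
  classical
  induction s using Finset.induction_on with
  | empty => simpa using GO.const 1 z
  | insert a s ha ih =>
    simp only [Finset.prod_insert ha, Finset.sum_insert ha]
    exact (h a (Finset.mem_insert_self a s)).mul
      (ih fun i hi => h i (Finset.mem_insert_of_mem hi))

theorem wp'_comp_per {l : ℂ} (hl : l ∈ L.lattice) (z w : ℂ) :
    ℘'[L] (z + l + w) = ℘'[L] (z + w) := by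
  have h1 : z + l + w = z + w + l := by ring
  rw [h1, wp'_add L hl]

/-- the order of the product at a zero of one of the shifts -/
theorem go_four {z : ℂ} : GO (fun x => ∏ i, ℘'[L] (x + hp L i)) z 0 := by
  by_cases h : ∃ i, z + hp L i ∈ L.lattice
  · obtain ⟨i, hi⟩ := h
    have key : ∀ j ∈ Finset.univ, GO (fun x => ℘'[L] (x + hp L j)) z
        (if j = i then (-3 : ℤ) else 1) := by
      intro j _
      by_cases hji : j = i
      · rw [if_pos hji, hji]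
        exact (go_wp' _).comp_add
      · rw [if_neg hji]
        have h1 : Half L (z + hp L j) := by
          refine (hp_sub hji).congr ?_
          have e : z + hp L j - (hp L j - hp L i) = z + hp L i := by ring
          rwa [e]
        exact (go_half' h1).comp_add
    refine (GO.prod Finset.univ key).mono ?_
    rw [Finset.sum_ite, Finset.sum_const, Finset.sum_const]
    have c1 : (Finset.univ.filter fun j : Fin 4 => j = i).card = 1 := by
      rw [Finset.filter_eq' Finset.univ i, if_pos (Finset.mem_univ i), Finset.card_singleton]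
    have c2 : (Finset.univ.filter fun j : Fin 4 => ¬ j = i).card = 3 := by
      have := Finset.card_filter_add_card_filter_not (s := (Finset.univ : Finset (Fin 4)))
        (p := fun j => j = i)
      rw [c1, Finset.card_univ, Fintype.card_fin] at this
      omega
    rw [c1, c2]
    norm_num
  · push Not at h
    refine (GO.prod Finset.univ (n := fun _ => 0) fun j _ => ?_).mono (by simp)
    exact (GO.of_analytic (an_wp' (h j))).comp_add

theorem exists_four (L : PeriodPair) : ∃ D, ∀ z,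
    (fun x => ∏ i, ℘'[L] (x + hp L i)) =ᶠ[𝓝[≠] z] fun _ => D := by
  refine liou' L ?_ fun z => go_four
  intro l hl z
  exact Finset.prod_congr rfl fun i _ => wp'_comp_per hl z _

/-- the constant -/
def D4 (L : PeriodPair) : ℂ := (exists_four L).choose

theorem D4_evt (z : ℂ) : (fun x => ∏ i, ℘'[L] (x + hp L i)) =ᶠ[𝓝[≠] z] fun _ => D4 L :=
  (exists_four L).choose_spec z

theorem D4_eq {z : ℂ} (h : ∀ i, z + hp L i ∉ L.lattice) : ∏ i, ℘'[L] (z + hp L i) = D4 L := by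
  refine eq_of_evt (f := fun x => ∏ i, ℘'[L] (x + hp L i)) (D4_evt z) ?_
  have h1 : ∀ i, ContinuousAt (fun x => ℘'[L] (x + hp L i)) z := fun i =>
    (an_comp (an_wp' (h i))).continuousAt
  exact tendsto_finsetProd Finset.univ fun i _ => h1 i

theorem gen_of {z : ℂ} (h : z + z ∉ L.lattice) (i : Fin 4) : z + hp L i ∉ L.lattice := by
  have h2 : hp L i + hp L i ∈ L.lattice := by
    match i with
    | 0 => change (0 : ℂ) + 0 ∈ _; rw [add_zero]; exact zero_mem _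
    | 1 => exact half1.2
    | 2 => exact half2.2
    | 3 => exact half3.2
  intro h3
  apply h
  have := sub_mem (add_mem h3 h3) h2
  have e : z + hp L i + (z + hp L i) - (hp L i + hp L i) = z + z := by ring
  rwa [e] at this

theorem exists_gen (L : PeriodPair) : ∃ z : ℂ, z + z ∉ L.lattice := by
  refine ⟨L.ω₁ / 4, ?_⟩
  have : L.ω₁ / 4 + L.ω₁ / 4 = L.ω₁ / 2 := by ring
  rw [this]
  exact half1.1

/-- factorisation of the cubic -/
theorem wp'_sq {z : ℂ} (hz : z ∉ L.lattice) :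
    ℘'[L] z ^ 2 = 4 * (℘[L] z - e1 L) * (℘[L] z - e2 L) * (℘[L] z - e3 L) := by
  obtain ⟨h1, h2, h3⟩ := vieta_e (L := L)
  have h4 : e3 L = -e1 L - e2 L := by linear_combination h1
  rw [L.derivWeierstrassP_sq z hz, h2, h3, h4]
  ring

theorem D4_sq : D4 L ^ 2 = disc L ^ 2 := by
  obtain ⟨z, hz⟩ := exists_gen L
  have hg := gen_of hz
  have m0 : z ∉ L.lattice := by simpa [hp] using hg 0
  have m1 : z + L.ω₁ / 2 ∉ L.lattice := hg 1
  have m2 : z + L.ω₂ / 2 ∉ L.lattice := hg 2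
  have m3 : z + (L.ω₁ / 2 + L.ω₂ / 2) ∉ L.lattice := hg 3
  have hprod : D4 L = ℘'[L] z * ℘'[L] (z + L.ω₁ / 2) * ℘'[L] (z + L.ω₂ / 2) *
      ℘'[L] (z + (L.ω₁ / 2 + L.ω₂ / 2)) := by
    rw [← D4_eq hg, Fin.prod_univ_four]
    simp only [hp, add_zero]
  have q0 := wp'_sq m0
  have q1 := wp'_sq m1
  have q2 := wp'_sq m2
  have q3 := wp'_sq m3
  -- relations
  have a1 : (℘[L] z - e1 L) * (℘[L] (z + L.ω₁ / 2) - e1 L) = (e2 L - e1 L) * (e3 L - e1 L) := by
    rw [← Ah1]; exact Ah_eq half1 m0 m1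
  have a1' : (℘[L] (z + L.ω₂ / 2) - e1 L) * (℘[L] (z + (L.ω₁ / 2 + L.ω₂ / 2)) - e1 L) =
      (e2 L - e1 L) * (e3 L - e1 L) := by
    have e : z + (L.ω₁ / 2 + L.ω₂ / 2) = z + L.ω₂ / 2 + L.ω₁ / 2 := by ring
    rw [← Ah1, e]
    exact Ah_eq half1 m2 (by rw [← e]; exact m3)
  have a2 : (℘[L] z - e2 L) * (℘[L] (z + L.ω₂ / 2) - e2 L) = (e3 L - e2 L) * (e1 L - e2 L) := by
    rw [← Ah2]; exact Ah_eq half2 m0 m2
  have a2' : (℘[L] (z + L.ω₁ / 2) - e2 L) * (℘[L] (z + (L.ω₁ / 2 + L.ω₂ / 2)) - e2 L) =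
      (e3 L - e2 L) * (e1 L - e2 L) := by
    have e : z + (L.ω₁ / 2 + L.ω₂ / 2) = z + L.ω₁ / 2 + L.ω₂ / 2 := by ring
    rw [← Ah2, e]
    exact Ah_eq half2 m1 (by rw [← e]; exact m3)
  have a3 : (℘[L] z - e3 L) * (℘[L] (z + (L.ω₁ / 2 + L.ω₂ / 2)) - e3 L) =
      (e1 L - e3 L) * (e2 L - e3 L) := by
    rw [← Ah3]; exact Ah_eq half3 m0 m3
  have a3' : (℘[L] (z + L.ω₁ / 2) - e3 L) * (℘[L] (z + L.ω₂ / 2) - e3 L) =
      (e1 L - e3 L) * (e2 L - e3 L) := by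
    have h5 : ℘[L] (z + L.ω₂ / 2) = ℘[L] (z + L.ω₁ / 2 + (L.ω₁ / 2 + L.ω₂ / 2)) := by
      refine wp_congr ?_
      have e : z + L.ω₂ / 2 - (z + L.ω₁ / 2 + (L.ω₁ / 2 + L.ω₂ / 2)) = -L.ω₁ := by ring
      rw [e]; exact neg_mem L.ω₁_mem_lattice
    rw [← Ah3, h5]
    refine Ah_eq half3 m1 ?_
    refine (notMem_iff ?_).2 m2
    have e : z + L.ω₁ / 2 + (L.ω₁ / 2 + L.ω₂ / 2) - (z + L.ω₂ / 2) = L.ω₁ := by ring
    rw [e]; exact L.ω₁_mem_lattice
  rw [hprod, disc_eq]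
  have h6 : (℘'[L] z * ℘'[L] (z + L.ω₁ / 2) * ℘'[L] (z + L.ω₂ / 2) *
      ℘'[L] (z + (L.ω₁ / 2 + L.ω₂ / 2))) ^ 2 = 256 *
      (((℘[L] z - e1 L) * (℘[L] (z + L.ω₁ / 2) - e1 L)) *
      ((℘[L] (z + L.ω₂ / 2) - e1 L) * (℘[L] (z + (L.ω₁ / 2 + L.ω₂ / 2)) - e1 L)) *
      ((℘[L] z - e2 L) * (℘[L] (z + L.ω₂ / 2) - e2 L)) *
      ((℘[L] (z + L.ω₁ / 2) - e2 L) * (℘[L] (z + (L.ω₁ / 2 + L.ω₂ / 2)) - e2 L)) *
      ((℘[L] z - e3 L) * (℘[L] (z + (L.ω₁ / 2 + L.ω₂ / 2)) - e3 L)) *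
      ((℘[L] (z + L.ω₁ / 2) - e3 L) * (℘[L] (z + L.ω₂ / 2) - e3 L))) := by
    rw [mul_pow, mul_pow, mul_pow, q0, q1, q2, q3]
    ring
  rw [h6, a1, a1', a2, a2', a3, a3']
  ring

theorem D4_ne : D4 L ≠ 0 := by
  intro h
  have := D4_sq (L := L)
  rw [h, zero_pow two_ne_zero] at this
  exact disc_ne (L := L) (pow_eq_zero_iff two_ne_zero |>.1 this.symm)

end Fermat.Agent.Mz
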