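import Fermat.Agent.Mz.WpE

/-!
# The isogeny relation `℘'_{L'} = c⁻¹ ∏ ℘'_L(x + k z₀)`
-/

set_option autoImplicit false

noncomputable section

open Filter Topology PeriodPair

namespace Fermat.Agent.Mz

/-- the sublattice `ℤ ω₁ + ℤ N ω₂` -/
def subL (M : PeriodPair) (N : ℕ) (hN : N ≠ 0) : PeriodPair where
  ω₁ := M.ω₁
  ω₂ := N * M.ω₂
  indep := by
    have hN' : (N : ℝ) ≠ 0 := Nat.cast_ne_zero.2 hN
    rw [LinearIndependent.pair_iff]
    intro s t h
    have h1 := LinearIndependent.pair_iff.mp M.indep s (t * N) (by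
      simp only [Complex.real_smul] at h ⊢
      push_cast
      linear_combination h)
    exact ⟨h1.1, (mul_eq_zero.1 h1.2).resolve_right hN'⟩

variable {M : PeriodPair} {N : ℕ} {hN : N ≠ 0}

theorem subL_le {z : ℂ} (h : z ∈ (subL M N hN).lattice) : z ∈ M.lattice := by
  obtain ⟨m, n, rfl⟩ := mem_lattice.1 h
  refine mem_lattice.2 ⟨m, n * N, ?_⟩
  simp only [subL]
  push_cast
  ring

theorem N_mul_mem : (N : ℂ) * M.ω₂ ∈ (subL M N hN).lattice := (subL M N hN).ω₂_mem_lattice

theorem exists_k {z : ℂ} (h : z ∈ M.lattice) : ∃ k < N, z + k * M.ω₂ ∈ (subL M N hN).lattice := by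
  obtain ⟨m, n, rfl⟩ := mem_lattice.1 h
  have hN' : (0 : ℤ) < N := by exact_mod_cast Nat.pos_of_ne_zero hN
  have h1 : 0 ≤ (-n) % (N : ℤ) := Int.emod_nonneg _ hN'.ne'
  have h2 : (-n) % (N : ℤ) < N := Int.emod_lt_of_pos _ hN'
  obtain ⟨k, hk⟩ := Int.eq_ofNat_of_zero_le h1
  refine ⟨k, by rw [hk] at h2; exact_mod_cast h2, mem_lattice.2 ⟨m, -((-n) / N), ?_⟩⟩
  have h3 := Int.emod_add_mul_ediv (-n) (N : ℤ)
  rw [hk] at h3
  have h4 : ((k : ℤ) : ℂ) + (N : ℂ) * (((-n) / N : ℤ) : ℂ) = -(n : ℂ) := by exact_mod_cast h3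
  have h4' : (k : ℂ) + (N : ℂ) * (((-n) / N : ℤ) : ℂ) = -(n : ℂ) := by exact_mod_cast h4
  simp only [subL, Int.cast_neg]
  linear_combination (-M.ω₂) * h4'

theorem mul_mem_iff {k : ℤ} : (k : ℂ) * M.ω₂ ∈ (subL M N hN).lattice ↔ (N : ℤ) ∣ k := by
  constructor
  · intro h
    obtain ⟨m, n, e⟩ := mem_lattice.1 h
    have := LinearIndependent.pair_iff.mp M.indep m (n * N - k) (by
      simp only [Complex.real_smul, subL] at e ⊢
      push_cast
      linear_combination e)
    have h2 : (n : ℝ) * N - k = 0 := this.2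
    have h3 : n * N - k = 0 := by exact_mod_cast h2
    exact ⟨n, by linarith⟩
  · rintro ⟨c, rfl⟩
    refine mem_lattice.2 ⟨0, c, ?_⟩
    simp only [subL]
    push_cast
    ring

theorem k_unique {z : ℂ} {k l : ℕ} (hk : k < N) (hl : l < N)
    (h1 : z + k * M.ω₂ ∈ (subL M N hN).lattice) (h2 : z + l * M.ω₂ ∈ (subL M N hN).lattice) :
    k = l := by
  have h3 := sub_mem h1 h2
  have h4 : z + k * M.ω₂ - (z + l * M.ω₂) = ((k - l : ℤ) : ℂ) * M.ω₂ := by push_cast; ring
  rw [h4, mul_mem_iff] at h3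
  obtain ⟨c, hc⟩ := h3
  have : (k : ℤ) % N = (l : ℤ) % N := by
    have : (k : ℤ) = l + N * c := by linarith
    rw [this, Int.add_mul_emod_self_left]
  rw [Int.emod_eq_of_lt (by positivity) (by exact_mod_cast hk),
    Int.emod_eq_of_lt (by positivity) (by exact_mod_cast hl)] at this
  exact_mod_cast this

variable (M N hN) in
/-- the product of the translates -/
def Fk (x : ℂ) : ℂ := ∏ k ∈ Finset.range N, ℘'[subL M N hN] (x + k * M.ω₂)

theorem Fk_add_sub {l : ℂ} (hl : l ∈ (subL M N hN).lattice) (z : ℂ) :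
    Fk M N hN (z + l) = Fk M N hN z :=
  Finset.prod_congr rfl fun _ _ => wp'_comp_per hl z _

theorem Fk_add_ω₂ (z : ℂ) : Fk M N hN (z + M.ω₂) = Fk M N hN z := by
  obtain ⟨n, hn⟩ := Nat.exists_eq_succ_of_ne_zero hN
  have key : ∀ g : ℕ → ℂ, g N = g 0 → ∏ k ∈ Finset.range N, g (k + 1) = ∏ k ∈ Finset.range N, g k := by
    intro g hg
    rw [hn] at hg ⊢
    rw [Finset.prod_range_succ, Finset.prod_range_succ', hg]
  have h1 := key (fun k => ℘'[subL M N hN] (z + k * M.ω₂)) (by
    simp only [Nat.cast_zero, zero_mul, add_zero]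
    exact wp'_add _ N_mul_mem z)
  unfold Fk
  rw [← h1]
  refine Finset.prod_congr rfl fun k _ => ?_
  congr 1
  push_cast
  ring

theorem Fk_add {l : ℂ} (hl : l ∈ M.lattice) (z : ℂ) : Fk M N hN (z + l) = Fk M N hN z := by
  obtain ⟨k, hk, h⟩ := exists_k (hN := hN) hl
  have h1 : ∀ j : ℕ, Fk M N hN (z + l + j * M.ω₂) = Fk M N hN (z + l) := by
    intro j
    induction j with
    | zero => simp
    | succ j ih =>
      have e : z + l + ((j + 1 : ℕ) : ℂ) * M.ω₂ = z + l + j * M.ω₂ + M.ω₂ := by push_cast; ring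
      rw [e, Fk_add_ω₂, ih]
  rw [← h1 k, add_assoc, Fk_add_sub h]

/-- the order at the lattice points -/
theorem go_Fk_lat {z : ℂ} (hz : z ∈ M.lattice) : GO (Fk M N hN) z (-3) := by
  obtain ⟨k, hk, h⟩ := exists_k (hN := hN) hz
  have key : ∀ j ∈ Finset.range N, GO (fun x => ℘'[subL M N hN] (x + j * M.ω₂)) z
      (if j = k then (-3 : ℤ) else 0) := by
    intro j hj
    by_cases hji : j = k
    · rw [if_pos hji, hji]
      exact (go_wp' _).comp_add
    · rw [if_neg hji]
      refine (GO.of_analytic (an_wp' ?_)).comp_add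
      intro h2
      exact hji (k_unique (Finset.mem_range.1 hj) hk h2 h)
  refine (GO.prod (Finset.range N) key).mono ?_
  rw [Finset.sum_ite_eq' (Finset.range N) k, if_pos (Finset.mem_range.2 hk)]

theorem notMem_sub {z : ℂ} (hz : z ∉ M.lattice) (j : ℕ) : z + j * M.ω₂ ∉ (subL M N hN).lattice := by
  intro h
  apply hz
  have h1 := subL_le h
  have h2 : (j : ℂ) * M.ω₂ ∈ M.lattice := by
    have := M.lattice.smul_mem (j : ℤ) M.ω₂_mem_lattice
    simpa [zsmul_eq_mul] using this
  have := sub_mem h1 h2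
  simpa using this

theorem an_Fk {z : ℂ} (hz : z ∉ M.lattice) : AnalyticAt ℂ (Fk M N hN) z := by
  have : Fk M N hN = fun x => ∏ k ∈ Finset.range N, ℘'[subL M N hN] (x + k * M.ω₂) := rfl
  rw [this]
  refine Finset.analyticAt_fun_prod _ fun k _ => ?_
  exact an_comp (an_wp' (notMem_sub hz k))

/-- zeros at the half periods, for odd `N` -/
theorem Fk_half (hodd : Odd N) {z : ℂ} (hz : Half M z) : Fk M N hN z = 0 := by
  obtain ⟨k, hk, h⟩ := exists_k (hN := hN) hz.2
  -- find j with 2 j = k mod N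
  obtain ⟨n, hn⟩ := hodd
  set j0 : ℕ := if Even k then k / 2 else (k + N) / 2 with hj0
  have h2 : ∃ c : ℤ, 2 * (j0 : ℤ) = k + c * N := by
    by_cases he : Even k
    · refine ⟨0, ?_⟩
      rw [hj0, if_pos he]
      obtain ⟨r, hr⟩ := he
      omega
    · refine ⟨1, ?_⟩
      rw [hj0, if_neg he]
      have := Nat.not_even_iff_odd.1 he
      obtain ⟨r, hr⟩ := this
      omega
  have hjN : j0 < N := by
    rw [hj0]
    split_ifs <;> omega
  obtain ⟨c, hc⟩ := h2
  refine Finset.prod_eq_zero (Finset.mem_range.2 hjN) ?_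
  refine Half.wp' ⟨notMem_sub hz.1 j0, ?_⟩
  have e : z + j0 * M.ω₂ + (z + j0 * M.ω₂) = z + z + k * M.ω₂ + (c * N : ℤ) * M.ω₂ := by
    have hc' : (2 : ℂ) * (j0 : ℂ) = k + c * N := by exact_mod_cast hc
    push_cast
    linear_combination M.ω₂ * hc'
  rw [e]
  exact add_mem h (mul_mem_iff.2 ⟨c, by ring⟩)

theorem go_Fk_half (hodd : Odd N) {z : ℂ} (hz : Half M z) : GO (Fk M N hN) z 1 :=
  GO.of_zero (an_Fk hz.1) (Fk_half hodd hz)

theorem go_four' {z : ℂ} (hodd : Odd N) : GO (fun x => Fk M N hN x *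
    ∏ i : Fin 3, ℘'[M] (x + hp M i.succ)) z 0 := by
  by_cases h : ∃ i, z + hp M i ∈ M.lattice
  · obtain ⟨i, hi⟩ := h
    have hF : GO (Fk M N hN) z (if (0 : Fin 4) = i then (-3 : ℤ) else 1) := by
      by_cases h0 : (0 : Fin 4) = i
      · rw [if_pos h0]
        subst h0
        simp only [hp, add_zero] at hi
        exact go_Fk_lat hi
      · rw [if_neg h0]
        refine go_Fk_half hodd ((hp_sub (L := M) h0).congr ?_)
        have e : z - (hp M 0 - hp M i) = z + hp M i := by
          have : hp M 0 = 0 := rfl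
          rw [this]; ring
        rwa [e]
    have key : ∀ j ∈ (Finset.univ : Finset (Fin 3)), GO (fun x => ℘'[M] (x + hp M j.succ)) z
        (if j.succ = i then (-3 : ℤ) else 1) := by
      intro j _
      by_cases hji : j.succ = i
      · rw [if_pos hji, hji]
        exact (go_wp' _).comp_add
      · rw [if_neg hji]
        have h1 : Half M (z + hp M j.succ) := by
          refine (hp_sub hji).congr ?_
          have e : z + hp M j.succ - (hp M j.succ - hp M i) = z + hp M i := by ring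
          rwa [e]
        exact (go_half' h1).comp_add
    refine (hF.mul (GO.prod Finset.univ key)).mono ?_
    rw [← Fin.sum_univ_succ (fun j : Fin 4 => if j = i then (-3 : ℤ) else 1), Finset.sum_ite,
      Finset.sum_const, Finset.sum_const]
    have c1 : (Finset.univ.filter fun j : Fin 4 => j = i).card = 1 := by
      rw [Finset.filter_eq' Finset.univ i, if_pos (Finset.mem_univ i), Finset.card_singleton]
    have c2 : (Finset.univ.filter fun j : Fin 4 => ¬ j = i).card = 3 := by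
      have := Finset.card_filter_add_card_filter_not (s := (Finset.univ : Finset (Fin 4)))
        (p := fun j => j = i)
      rw [c1, Finset.card_univ, Fintype.card_fin] at this
      omega
    rw [c1, c2]
    norm_num
  · push Not at h
    have h0 : z ∉ M.lattice := by simpa [hp] using h 0
    refine ((GO.of_analytic (an_Fk h0)).mul (GO.prod Finset.univ (n := fun _ => 0)
      fun j _ => ?_)).mono (by simp)
    exact (GO.of_analytic (an_wp' (h j.succ))).comp_add

theorem exists_Fk_mul (hodd : Odd N) : ∃ D, ∀ z,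
    (fun x => Fk M N hN x * ∏ i : Fin 3, ℘'[M] (x + hp M i.succ)) =ᶠ[𝓝[≠] z] fun _ => D := by
  refine liou' M ?_ fun z => go_four' hodd
  intro l hl z
  rw [Fk_add hl]
  congr 1
  exact Finset.prod_congr rfl fun i _ => wp'_comp_per hl z _

theorem exists_Fk (hodd : Odd N) : ∃ c, ∀ z, z ∉ M.lattice → Fk M N hN z = c * ℘'[M] z := by
  obtain ⟨D, hD⟩ := exists_Fk_mul (M := M) (hN := hN) hodd
  refine ⟨D / D4 M, fun z hz => ?_⟩
  have h1 := hD z
  have h2 := D4_evt (L := M) z
  have h3 : (fun x => Fk M N hN x - D / D4 M * ℘'[M] x) =ᶠ[𝓝[≠] z] fun _ => 0 := by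
    filter_upwards [h1, h2] with x h1 h2
    rw [Fin.prod_univ_succ] at h2
    have e0 : hp M 0 = 0 := rfl
    rw [e0, add_zero] at h2
    have hD4 := D4_ne (L := M)
    set P := ∏ i : Fin 3, ℘'[M] (x + hp M i.succ)
    have hP : P ≠ 0 := by
      intro h
      rw [h, mul_zero] at h2
      exact hD4 h2.symm
    have hw : ℘'[M] x ≠ 0 := by
      intro h
      rw [h, zero_mul] at h2
      exact hD4 h2.symm
    rw [← h2, ← h1]
    field_simp
    ring
  have h4 : ContinuousAt (fun x => Fk M N hN x - D / D4 M * ℘'[M] x) z :=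
    ((an_Fk hz).sub (analyticAt_const.mul (an_wp' hz))).continuousAt
  have h5 := eq_of_evt h3 h4
  exact sub_eq_zero.1 h5

variable (M N hN) in
/-- the constant -/
def cF : ℂ := ∏ k ∈ (Finset.range N).erase 0, ℘'[subL M N hN] (k * M.ω₂)

theorem tendsto_cube_mul_wp' (L : PeriodPair) :
    Tendsto (fun z => z ^ 3 * ℘'[L] z) (𝓝[≠] 0) (𝓝 (-2)) := by
  have h1 : AnalyticAt ℂ ℘'[L - (0 : ℂ)] 0 := L.analyticOnNhd_derivWeierstrassPExcept 0 0 (by simp)
  have h2 : ContinuousAt (fun z : ℂ => z ^ 3 * ℘'[L - (0 : ℂ)] z - 2) 0 := by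
    have := h1.continuousAt
    fun_prop
  have h3 := h2.tendsto.mono_left (nhdsWithin_le_nhds (s := {0}ᶜ))
  simp only [ne_eq, OfNat.ofNat_ne_zero, not_false_eq_true, zero_pow, zero_mul, zero_sub] at h3
  refine h3.congr' ?_
  filter_upwards [self_mem_nhdsWithin] with z hz
  have hz0 : z ≠ 0 := hz
  have h4 := L.derivWeierstrassPExcept_def ⟨0, zero_mem _⟩ z
  simp only [sub_zero] at h4
  rw [h4]
  field_simp
  ring

theorem Fk_eq (hodd : Odd N) {z : ℂ} (hz : z ∉ M.lattice) : Fk M N hN z = cF M N hN * ℘'[M] z := by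
  obtain ⟨c, hc⟩ := exists_Fk (M := M) (hN := hN) hodd
  have h1 : c = cF M N hN := by
    have e1 : Tendsto (fun z => z ^ 3 * (c * ℘'[M] z)) (𝓝[≠] 0) (𝓝 (c * (-2))) := by
      have := (tendsto_cube_mul_wp' M).const_mul c
      refine this.congr fun z => ?_
      ring
    have e2 : Tendsto (fun z => z ^ 3 * Fk M N hN z) (𝓝[≠] 0) (𝓝 ((-2) * cF M N hN)) := by
      have f1 : ∀ z, z ^ 3 * Fk M N hN z = (z ^ 3 * ℘'[subL M N hN] z) *
          ∏ k ∈ (Finset.range N).erase 0, ℘'[subL M N hN] (z + k * M.ω₂) := by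
        intro z
        have h0 : (0 : ℕ) ∈ Finset.range N := Finset.mem_range.2 (Nat.pos_of_ne_zero hN)
        unfold Fk
        rw [← Finset.mul_prod_erase _ _ h0]
        simp only [Nat.cast_zero, zero_mul, add_zero]
        ring
      refine (Tendsto.mul (tendsto_cube_mul_wp' (subL M N hN)) ?_).congr fun z => (f1 z).symm
      refine tendsto_finsetProd _ fun k hk => ?_
      rw [Finset.mem_erase, Finset.mem_range] at hk
      have h3 : (0 : ℂ) + k * M.ω₂ ∉ (subL M N hN).lattice := by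
        rw [zero_add]
        have := (mul_mem_iff (M := M) (N := N) (hN := hN) (k := (k : ℤ))).not.2 (by
          intro h
          have := Nat.le_of_dvd (Nat.pos_of_ne_zero hk.1) (by exact_mod_cast h)
          omega)
        exact_mod_cast this
      have h4 : ContinuousAt (fun x => ℘'[subL M N hN] (x + k * M.ω₂)) 0 :=
        (an_comp (an_wp' h3)).continuousAt
      have h5 := h4.tendsto.mono_left (nhdsWithin_le_nhds (s := {0}ᶜ))
      simpa using h5
    have e3 : ∀ᶠ z in 𝓝[≠] (0 : ℂ), z ∉ M.lattice := by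
      have h6 := M.compl_lattice_sdiff_singleton_mem_nhds 0
      have h7 : (↑M.lattice \ {(0 : ℂ)} : Set ℂ)ᶜ ∈ 𝓝[≠] (0 : ℂ) := nhdsWithin_le_nhds h6
      filter_upwards [h7, self_mem_nhdsWithin] with z h8 h9 h10
      exact h8 ⟨h10, h9⟩
    have e4 : Tendsto (fun z => z ^ 3 * (c * ℘'[M] z)) (𝓝[≠] 0) (𝓝 ((-2) * cF M N hN)) := by
      refine e2.congr' ?_
      filter_upwards [e3] with z hz
      rw [hc z hz]
    have e5 := tendsto_nhds_unique e1 e4
    linear_combination (-1 / 2) * e5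
  rw [hc z hz, h1]

/-- **the discriminant relation** -/
theorem D4_rel (hodd : Odd N) : cF M N hN ^ 4 * D4 M = D4 (subL M N hN) ^ N := by
  obtain ⟨z, hz⟩ := exists_gen M
  have hg := gen_of hz
  -- product of `Fk` over the half periods of `M`
  have h1 : ∏ i, Fk M N hN (z + hp M i) = cF M N hN ^ 4 * D4 M := by
    rw [← D4_eq hg]
    have : ∀ i ∈ (Finset.univ : Finset (Fin 4)), Fk M N hN (z + hp M i) =
        cF M N hN * ℘'[M] (z + hp M i) := fun i _ => Fk_eq hodd (hg i)
    rw [Finset.prod_congr rfl this, Finset.prod_mul_distrib, Finset.prod_const, Finset.card_univ,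
      Fintype.card_fin]
  -- the half periods of the sublattice
  have h2 : ∀ i, Fk M N hN (z + hp M i) = Fk M N hN (z + hp (subL M N hN) i) := by
    intro i
    obtain ⟨n, hn⟩ := hodd
    have hnM : (n : ℂ) * M.ω₂ ∈ M.lattice := by
      have := M.lattice.smul_mem (n : ℤ) M.ω₂_mem_lattice
      simpa [zsmul_eq_mul] using this
    match i with
    | 0 => rfl
    | 1 => rfl
    | 2 =>
      have e : z + hp (subL M N hN) 2 = z + hp M 2 + n * M.ω₂ := by
        simp only [hp, subL]
        rw [hn]; push_cast; ring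
      rw [e, Fk_add hnM]
    | 3 =>
      have e : z + hp (subL M N hN) 3 = z + hp M 3 + n * M.ω₂ := by
        simp only [hp, subL]
        rw [hn]; push_cast; ring
      rw [e, Fk_add hnM]
  have hz' : ∀ k : ℕ, (z + k * M.ω₂) + (z + k * M.ω₂) ∉ (subL M N hN).lattice := by
    intro k
    have := notMem_sub (hN := hN) hz (2 * k)
    have e : (z + k * M.ω₂) + (z + k * M.ω₂) = z + z + (2 * k : ℕ) * M.ω₂ := by push_cast; ring
    rw [e]
    exact this
  rw [← h1, Finset.prod_congr rfl fun i _ => h2 i]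
  unfold Fk
  rw [Finset.prod_comm]
  have h3 : ∀ k ∈ Finset.range N, ∏ i, ℘'[subL M N hN] (z + hp (subL M N hN) i + k * M.ω₂) =
      D4 (subL M N hN) := by
    intro k _
    rw [← D4_eq (gen_of (hz' k))]
    refine Finset.prod_congr rfl fun i _ => ?_
    congr 1
    ring
  rw [Finset.prod_congr rfl h3, Finset.prod_const, Finset.card_range]

end Fermat.Agent.Mz
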